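import Mathlib.Algebra.QuadraticAlgebra.Basic
import Fermat.Agent.ResidualThree.Interfaces

/-!
# The ring of Eisenstein integers behind `Eis3`

It carries the coefficients of a Bianchi datum and their Euler product.
-/

noncomputable section

namespace Fermat.Agent.ResidualThree

/-- `ℤ[ω]` as a ring. -/
abbrev EisRing : Type := QuadraticAlgebra ℤ (-1) (-1)

namespace EisRing

/-- The pair of coordinates. -/
def pair (x : EisRing) : Eis3 := (x.re, x.im)

theorem pair_injective : Function.Injective pair := fun x y h => by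
  simp only [pair, Prod.mk.injEq] at h
  exact QuadraticAlgebra.ext h.1 h.2

theorem pair_surjective : Function.Surjective pair := fun e => ⟨⟨e.1, e.2⟩, rfl⟩

theorem omegaC_sq : omegaC * omegaC = -1 - omegaC := by
  have h : Real.sqrt 3 * Real.sqrt 3 = 3 := Real.mul_self_sqrt (by norm_num)
  simp only [omegaC, Complex.ext_iff, Complex.mul_re, Complex.mul_im, Complex.sub_re,
    Complex.sub_im, Complex.neg_re, Complex.neg_im, Complex.one_re, Complex.one_im]
  constructor <;> nlinarith

/-- The embedding into `ℂ`. -/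
def emb : EisRing →+* ℂ where
  toFun x := (x.re : ℂ) + (x.im : ℂ) * omegaC
  map_zero' := by simp
  map_one' := by simp [QuadraticAlgebra.re_one, QuadraticAlgebra.im_one]
  map_add' x y := by simp only [QuadraticAlgebra.re_add, QuadraticAlgebra.im_add]; push_cast; ring
  map_mul' x y := by
    simp only [QuadraticAlgebra.re_mul, QuadraticAlgebra.im_mul]
    push_cast
    linear_combination -((x.im : ℂ) * y.im) * omegaC_sq

theorem emb_apply (x : EisRing) : emb x = (pair x).toC := rfl

theorem emb_re (x : EisRing) : (emb x).re = (x.re : ℝ) - (x.im : ℝ) / 2 := by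
  simp [emb, omegaC]; ring

theorem emb_im (x : EisRing) : (emb x).im = (x.im : ℝ) * Real.sqrt 3 / 2 := by
  simp [emb, omegaC]; ring

theorem normSq_emb (x : EisRing) : Complex.normSq (emb x) = (x.norm : ℝ) := by
  have h : Real.sqrt 3 * Real.sqrt 3 = 3 := Real.mul_self_sqrt (by norm_num)
  rw [Complex.normSq_apply, emb_re, emb_im, QuadraticAlgebra.norm_def]
  push_cast
  linear_combination ((x.im : ℝ) ^ 2 / 4) * h

theorem norm_nonneg (x : EisRing) : 0 ≤ x.norm := by
  have h := Complex.normSq_nonneg (emb x)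
  rw [normSq_emb] at h
  exact_mod_cast h

theorem norm_eq_zero {x : EisRing} : x.norm = 0 ↔ x = 0 := by
  refine ⟨fun h => ?_, fun h => by rw [h, QuadraticAlgebra.norm_zero]⟩
  rw [QuadraticAlgebra.norm_def] at h
  have h1 : x.im = 0 := by nlinarith [sq_nonneg (2 * x.re - x.im)]
  refine QuadraticAlgebra.ext ?_ h1
  rw [h1] at h
  simp only [mul_zero, add_zero, sub_zero] at h
  exact mul_self_eq_zero.mp h

theorem emb_injective : Function.Injective emb := by
  rw [injective_iff_map_eq_zero]
  intro x hx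
  have h := normSq_emb x
  rw [hx, map_zero] at h
  exact norm_eq_zero.mp (by exact_mod_cast h.symm)

theorem norm_pos {x : EisRing} (h : x ≠ 0) : 0 < x.norm :=
  lt_of_le_of_ne (norm_nonneg x) fun e => h (norm_eq_zero.mp e.symm)

instance instNoZeroDivisorsEisRing : NoZeroDivisors EisRing where
  eq_zero_or_eq_zero_of_mul_eq_zero {x y} h := by
    have h1 := congrArg QuadraticAlgebra.norm h
    rw [map_mul, QuadraticAlgebra.norm_zero, mul_eq_zero, norm_eq_zero, norm_eq_zero] at h1
    exact h1

instance instNontrivialEisRing : Nontrivial EisRing :=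
  ⟨0, 1, fun h => by simp at h⟩

instance instIsDomainEisRing : IsDomain EisRing := NoZeroDivisors.to_isDomain _

theorem norm_eq (x : EisRing) : (pair x).norm = x.norm.natAbs := by
  rw [Eis3.norm, QuadraticAlgebra.norm_def]
  congr 1
  simp only [pair]
  ring

theorem natCast_norm (x : EisRing) : ((pair x).norm : ℤ) = x.norm := by
  rw [norm_eq, Int.natAbs_of_nonneg (norm_nonneg x)]

theorem norm_pair_mul (x y : EisRing) :
    (pair (x * y)).norm = (pair x).norm * (pair y).norm := by
  rw [norm_eq, norm_eq, norm_eq, map_mul, Int.natAbs_mul]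

theorem pair_mul (x y : EisRing) : pair (x * y) = Eis3.mul (pair x) (pair y) := by
  simp only [pair, Eis3.mul, QuadraticAlgebra.re_mul, QuadraticAlgebra.im_mul, Prod.mk.injEq]
  constructor <;> ring

theorem isUnit_iff {x : EisRing} : IsUnit x ↔ (pair x).norm = 1 := by
  rw [QuadraticAlgebra.isUnit_iff_norm_isUnit, Int.isUnit_iff_natAbs_eq, norm_eq]

theorem pair_dvd {x y : EisRing} : Eis3.dvd (pair x) (pair y) ↔ x ∣ y := by
  constructor
  · rintro ⟨z, hz⟩
    obtain ⟨z, rfl⟩ := pair_surjective z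
    rw [← pair_mul] at hz
    exact ⟨z, (pair_injective hz).symm⟩
  · rintro ⟨z, rfl⟩
    exact ⟨pair z, (pair_mul x z).symm⟩

theorem pair_natCast (n : ℕ) : pair (n : EisRing) = ((n : ℤ), 0) := by
  simp [pair]

theorem norm_pair_natCast (n : ℕ) : (pair (n : EisRing)).norm = n ^ 2 := by
  rw [norm_eq, QuadraticAlgebra.norm_natCast, Int.natAbs_pow, Int.natAbs_natCast]

/-! ### Division with remainder -/

theorem exists_nearest_multiple {N : ℤ} (hN : 0 < N) (m : ℤ) :
    ∃ a r : ℤ, 2 * |r| ≤ N ∧ m = a * N + r := by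
  refine ⟨(2 * m + N) / (2 * N), m - (2 * m + N) / (2 * N) * N, ?_, by ring⟩
  have h1 := Int.emod_nonneg (2 * m + N) (show (2 * N) ≠ 0 by omega)
  have h2 := Int.emod_lt_of_pos (2 * m + N) (show 0 < 2 * N by omega)
  have h3 := Int.emod_add_mul_ediv (2 * m + N) (2 * N)
  rw [show 2 * |m - (2 * m + N) / (2 * N) * N|
    = |2 * (m - (2 * m + N) / (2 * N) * N)| by rw [abs_mul]; norm_num, abs_le]
  constructor <;> nlinarith

/-- Division with remainder in the Eisenstein integers. -/
theorem exists_norm_lt (x : EisRing) {g : EisRing} (hg : g ≠ 0) :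
    ∃ q : EisRing, (x - q * g).norm < g.norm := by
  set w := x * star g
  set N : ℤ := g.norm
  have hN : 0 < N := norm_pos hg
  obtain ⟨a, r, hr, ha⟩ := exists_nearest_multiple hN w.re
  obtain ⟨b, t, ht, hb⟩ := exists_nearest_multiple hN w.im
  refine ⟨⟨a, b⟩, ?_⟩
  have key : (x - ⟨a, b⟩ * g) * star g = ⟨r, t⟩ := by
    rw [sub_mul, mul_assoc, ← QuadraticAlgebra.algebraMap_norm_eq_mul_star]
    refine QuadraticAlgebra.ext ?_ ?_
    · simp only [QuadraticAlgebra.re_sub, QuadraticAlgebra.re_mul,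
        QuadraticAlgebra.algebraMap_re, QuadraticAlgebra.algebraMap_im]
      rw [show (x * star g).re = w.re from rfl] at *
      change w.re - _ = r
      rw [ha]; ring
    · simp only [QuadraticAlgebra.im_sub, QuadraticAlgebra.im_mul,
        QuadraticAlgebra.algebraMap_re, QuadraticAlgebra.algebraMap_im]
      change w.im - _ = t
      rw [hb]; ring
  have h := congrArg QuadraticAlgebra.norm key
  rw [map_mul, QuadraticAlgebra.norm_star, QuadraticAlgebra.norm_def (⟨r, t⟩ : EisRing)] at h
  simp only at h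
  have hlt : r * r + -1 * r * t - -1 * t * t < N * N := by
    nlinarith [abs_nonneg r, abs_nonneg t, abs_mul_abs_self r, abs_mul_abs_self t,
      mul_le_mul hr ht (by positivity) hN.le, neg_le_abs (r * t), le_abs_self (r * t),
      abs_mul r t]
  nlinarith [norm_nonneg (x - ⟨a, b⟩ * g)]

/-- Every ideal is principal. -/
instance instIsPrincipalIdealRingEisRing : IsPrincipalIdealRing EisRing where
  principal I := by
    classical
    by_cases hI : I = ⊥
    · exact ⟨0, by simp [hI]⟩
    obtain ⟨x₀, hx₀, hx₀0⟩ := Submodule.exists_mem_ne_zero_of_ne_bot hI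
    have hex : ∃ k : ℕ, ∃ x ∈ I, x ≠ 0 ∧ x.norm = k :=
      ⟨x₀.norm.natAbs, x₀, hx₀, hx₀0, (Int.natAbs_of_nonneg (norm_nonneg x₀)).symm⟩
    obtain ⟨g, hgI, hg0, hgn⟩ := Nat.find_spec hex
    refine ⟨g, le_antisymm (fun x hx => ?_) ?_⟩
    · obtain ⟨q, hq⟩ := exists_norm_lt x hg0
      have hmem : x - q * g ∈ I := I.sub_mem hx (I.mul_mem_left q hgI)
      by_contra hxg
      have hne : x - q * g ≠ 0 := fun e => hxg <| by
        rw [sub_eq_zero.mp e]; exact Ideal.mem_span_singleton.mpr (dvd_mul_left g q)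
      refine Nat.find_min hex (m := (x - q * g).norm.natAbs) ?_
        ⟨_, hmem, hne, (Int.natAbs_of_nonneg (norm_nonneg _)).symm⟩
      have := norm_nonneg (x - q * g)
      omega
    · exact (Submodule.span_singleton_le_iff_mem _ _).mpr hgI

/-! ### Prime elements -/

theorem norm_ne_two_mod_three (x : EisRing) : x.norm % 3 ≠ 2 := by
  rw [QuadraticAlgebra.norm_def]
  have key : ∀ a b : ZMod 3, a * a + -1 * a * b - -1 * b * b ≠ 2 := by decide
  intro h
  refine key (x.re : ℤ) (x.im : ℤ) ?_
  have h2 : (((x.re * x.re + -1 * x.re * x.im - -1 * x.im * x.im : ℤ)) : ZMod 3) = ((2 : ℤ) : ℤ) :=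
    (ZMod.intCast_eq_intCast_iff' _ _ _).mpr (by simpa using h)
  simpa using h2

theorem isPrimeElt_iff {π : EisRing} :
    (pair π).IsPrimeElt ↔ Prime π := by
  constructor
  · rintro ⟨h1, h2⟩
    refine ⟨fun e => ?_, fun e => ?_, fun y z hyz => ?_⟩
    · rw [e] at h1; simp [pair, Eis3.norm] at h1
    · rw [isUnit_iff] at e; omega
    · rcases h2 (pair y) (pair z) (by rw [← pair_mul, pair_dvd]; exact hyz) with h | h
      · exact .inl (pair_dvd.mp h)
      · exact .inr (pair_dvd.mp h)
  · intro h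
    refine ⟨?_, fun y z hyz => ?_⟩
    · have h0 : (pair π).norm ≠ 0 := by
        rw [norm_eq, Int.natAbs_ne_zero]; exact fun e => h.ne_zero (norm_eq_zero.mp e)
      have h1 : (pair π).norm ≠ 1 := fun e => h.not_isUnit (isUnit_iff.mpr e)
      omega
    · obtain ⟨y, rfl⟩ := pair_surjective y
      obtain ⟨z, rfl⟩ := pair_surjective z
      rw [← pair_mul, pair_dvd] at hyz
      simpa only [pair_dvd] using h.dvd_or_dvd hyz

theorem prime_of_norm_prime {π : EisRing} (h : (pair π).norm.Prime) : Prime π := by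
  refine Irreducible.prime ⟨fun e => h.ne_one (isUnit_iff.mp e), fun a b e => ?_⟩
  rw [isUnit_iff, isUnit_iff]
  rw [e, norm_pair_mul, Nat.prime_mul_iff] at h
  tauto

theorem prime_natCast_of_inert {p : ℕ} (hp : p.Prime) (h2 : p % 3 = 2) :
    Prime (p : EisRing) := by
  refine Irreducible.prime ⟨fun e => ?_, fun a b e => ?_⟩
  · rw [isUnit_iff, norm_pair_natCast] at e
    nlinarith [hp.two_le]
  · rw [isUnit_iff, isUnit_iff]
    have hn : (pair a).norm * (pair b).norm = p ^ 2 := by
      rw [← norm_pair_mul, ← e, norm_pair_natCast]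
    obtain ⟨k, hk, hka⟩ := (Nat.dvd_prime_pow hp).mp (Dvd.intro _ hn)
    interval_cases k
    · left; simpa using hka
    · exfalso
      refine norm_ne_two_mod_three a ?_
      rw [← natCast_norm, hka, pow_one]
      omega
    · right
      rw [hka] at hn
      exact Nat.eq_of_mul_eq_mul_left (pow_pos hp.pos 2) (hn.trans (mul_one _).symm)

theorem exists_cube_root_mod {p : ℕ} (hp : p.Prime) (h1 : p % 3 = 1) :
    ∃ r : ℤ, (p : ℤ) ∣ r * r + r + 1 := by
  have : Fact p.Prime := ⟨hp⟩
  obtain ⟨u, hu⟩ := exists_prime_orderOf_dvd_card' (G := (ZMod p)ˣ) 3 (by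
    rw [Nat.card_eq_fintype_card, ZMod.card_units]; have := hp.two_le; omega)
  have hne : (u : ZMod p) ≠ 1 := fun e => by
    rw [show u = 1 from Units.ext e, orderOf_one] at hu; omega
  have h3 : (u : ZMod p) ^ 3 = 1 := by
    rw [← Units.val_pow_eq_pow_val, ← hu, pow_orderOf_eq_one, Units.val_one]
  refine ⟨(u : ZMod p).val, (ZMod.intCast_zmod_eq_zero_iff_dvd _ p).mp ?_⟩
  push_cast
  rw [ZMod.natCast_zmod_val]
  refine (mul_eq_zero.mp ?_).resolve_left (sub_ne_zero.mpr hne)
  linear_combination h3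

/-- A prime `≡ 1 (mod 3)` is a norm from the Eisenstein integers. -/
theorem exists_norm_eq {p : ℕ} (hp : p.Prime) (h1 : p % 3 = 1) :
    ∃ π : EisRing, (pair π).norm = p := by
  obtain ⟨r, hr⟩ := exists_cube_root_mod hp h1
  let w : EisRing := ⟨r + 1, 1⟩
  obtain ⟨g, hg⟩ := (IsPrincipalIdealRing.principal (Ideal.span {(p : EisRing), w})).principal
  have hgp : g ∣ (p : EisRing) := Ideal.mem_span_singleton.mp
    (by rw [Ideal.span, ← hg]; exact Ideal.subset_span (by simp))
  have hgw : g ∣ w := Ideal.mem_span_singleton.mp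
    (by rw [Ideal.span, ← hg]; exact Ideal.subset_span (by simp))
  obtain ⟨u, v, huv⟩ := Ideal.mem_span_pair.mp (show g ∈ Ideal.span {(p : EisRing), w} by
    rw [hg]; exact Submodule.mem_span_singleton_self g)
  obtain ⟨m, hm⟩ := hgp
  have hn : (pair g).norm * (pair m).norm = p ^ 2 := by
    rw [← norm_pair_mul, ← hm, norm_pair_natCast]
  obtain ⟨k, hk, hkg⟩ := (Nat.dvd_prime_pow hp).mp (Dvd.intro _ hn)
  have hwnorm : w.norm = r * r + r + 1 := by
    simp only [w, QuadraticAlgebra.norm_def]; ring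
  interval_cases k
  · exfalso
    have hgu : IsUnit g := isUnit_iff.mpr (by simpa using hkg)
    obtain ⟨z, hz⟩ := hr
    have hdiv : (p : EisRing) ∣ star w := by
      obtain ⟨gi, hgi⟩ := hgu.exists_left_inv
      have e1 : gi * u * p + gi * v * w = 1 := by rw [← hgi, ← huv]; ring
      have e2 : w * star w = ((p : ℤ) : EisRing) * (z : EisRing) := by
        rw [← QuadraticAlgebra.algebraMap_norm_eq_mul_star, hwnorm, hz,
          eq_intCast (algebraMap ℤ EisRing), Int.cast_mul]
      refine ⟨gi * u * star w + gi * v * z, ?_⟩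
      rw [Int.cast_natCast] at e2
      linear_combination (-(star w)) * e1 + gi * v * e2
    obtain ⟨c, hc⟩ := hdiv
    have h3 : (-1 : ℤ) = p * c.im := by
      have h4 := congrArg QuadraticAlgebra.im hc
      simpa [w] using h4
    have : (p : ℤ) ∣ 1 := dvd_neg.mp (Dvd.intro _ h3.symm)
    have := Int.le_of_dvd one_pos this
    have := hp.two_le
    omega
  · exact ⟨g, by simpa using hkg⟩
  · exfalso
    rw [hkg] at hn
    have hm1 : IsUnit m := isUnit_iff.mpr
      (Nat.eq_of_mul_eq_mul_left (pow_pos hp.pos 2) (hn.trans (mul_one _).symm))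
    have hpw : (p : EisRing) ∣ w := by rw [hm, hm1.mul_right_dvd]; exact hgw
    obtain ⟨c, hc⟩ := hpw
    have h3 : (1 : ℤ) = p * c.im := by
      have h4 := congrArg QuadraticAlgebra.im hc
      simpa [w] using h4
    have := Int.le_of_dvd one_pos (Dvd.intro _ h3.symm)
    have := hp.two_le
    omega

theorem norm_pair_star (x : EisRing) : (pair (star x)).norm = (pair x).norm := by
  rw [norm_eq, norm_eq, QuadraticAlgebra.norm_star]

theorem mul_star_eq (x : EisRing) : x * star x = ((pair x).norm : EisRing) := by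
  rw [← QuadraticAlgebra.algebraMap_norm_eq_mul_star, ← natCast_norm,
    eq_intCast (algebraMap ℤ EisRing), Int.cast_natCast]

/-- A split prime of the Eisenstein integers does not divide its conjugate. -/
theorem not_dvd_star {π : EisRing} {p : ℕ} (hp : p.Prime) (h3 : p ≠ 3)
    (hπ : (pair π).norm = p) : ¬ π ∣ star π := by
  intro h
  have hnat : (π.norm) = (p : ℤ) := by rw [← natCast_norm, hπ]
  have h1 : π ∣ π - star π := dvd_sub dvd_rfl h
  have h2 : π - star π = ⟨π.im, 2 * π.im⟩ := by
    refine QuadraticAlgebra.ext ?_ ?_ <;> simp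
    ring
  rw [h2] at h1
  obtain ⟨c, hc⟩ := h1
  have h4 := congrArg QuadraticAlgebra.norm hc
  rw [map_mul, hnat, QuadraticAlgebra.norm_def (⟨π.im, 2 * π.im⟩ : EisRing)] at h4
  simp only at h4
  have h5 : (p : ℤ) ∣ 3 * (π.im * π.im) := ⟨c.norm, by linear_combination h4⟩
  have hpz : Prime (p : ℤ) := Nat.prime_iff_prime_int.mp hp
  have h6 : (p : ℤ) ∣ π.im := by
    rcases hpz.dvd_or_dvd h5 with h | h
    · have : p ∣ 3 := by exact_mod_cast h
      exact absurd ((Nat.prime_dvd_prime_iff_eq hp Nat.prime_three).mp this) h3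
    · exact (hpz.dvd_or_dvd h).elim id id
  have h7 : (p : ℤ) ∣ π.re * π.re := by
    have e : π.re * π.re = (p : ℤ) + π.re * π.im - π.im * π.im := by
      rw [← hnat, QuadraticAlgebra.norm_def]; ring
    rw [e]
    exact dvd_sub (dvd_add dvd_rfl (h6.mul_left _)) (h6.mul_left _)
  obtain ⟨b, hb⟩ := h6
  obtain ⟨a, ha⟩ := (hpz.dvd_or_dvd h7).elim id id
  rw [QuadraticAlgebra.norm_def, ha, hb] at hnat
  have h8 : (p : ℤ) * (a * a + -1 * a * b - -1 * b * b) = 1 :=
    mul_left_cancel₀ hpz.ne_zero (by linear_combination hnat)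
  have := Int.le_of_dvd one_pos (Dvd.intro _ h8)
  have := hp.two_le
  omega

end EisRing

end Fermat.Agent.ResidualThree
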