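import Fermat.Agent.ResidualThree.Asai.Eis
import Fermat.Agent.ResidualThree.Spherical.Basic

/-!
# A Bianchi datum is bounded

The boundedness gives the decay of the datum along translates of the upper half-plane and the mean
square bound of `Asai.MeanSquare`.
-/

noncomputable section

open Matrix

namespace Fermat.Agent.ResidualThree

open EisRing

local notation "Γℚ" => (AlgebraicClosure ℚ ≃ₐ[ℚ] AlgebraicClosure ℚ)

/-- An element of `SL₂(ℤ[ω])` inside `GL₂(ℂ)`. -/
def eisGL (a b c e : EisRing) (h : a * e - b * c = 1) : GL (Fin 2) ℂ :=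
  GeneralLinearGroup.mk'' !![emb a, emb b; emb c, emb e] (by
    rw [det_fin_two_of, ← map_mul, ← map_mul, ← map_sub, h, map_one]; exact isUnit_one)

theorem eisGL_coe (a b c e : EisRing) (h : a * e - b * c = 1) :
    ((eisGL a b c e h : GL (Fin 2) ℂ) : Matrix (Fin 2) (Fin 2) ℂ) =
      !![emb a, emb b; emb c, emb e] := rfl

theorem eisGL_det (a b c e : EisRing) (h : a * e - b * c = 1) :
    ((eisGL a b c e h : GL (Fin 2) ℂ) : Matrix (Fin 2) (Fin 2) ℂ).det = 1 := by
  rw [eisGL_coe, det_fin_two_of, ← map_mul, ← map_mul, ← map_sub, h, map_one]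

theorem eisGL_mul (a b c e a' b' c' e' : EisRing) (h : a * e - b * c = 1)
    (h' : a' * e' - b' * c' = 1)
    (h'' : (a * a' + b * c') * (c * b' + e * e') - (a * b' + b * e') * (c * a' + e * c') = 1) :
    eisGL a b c e h * eisGL a' b' c' e' h' =
      eisGL (a * a' + b * c') (a * b' + b * e') (c * a' + e * c') (c * b' + e * e') h'' := by
  refine Units.ext ?_
  rw [Units.val_mul, eisGL_coe, eisGL_coe, eisGL_coe, Matrix.mul_fin_two]
  simp only [map_add, map_mul]

/-- The adjugate is the inverse. -/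
theorem eisGL_adjugate_mul (a b c e : EisRing) (h : a * e - b * c = 1)
    (h' : e * a - -b * -c = 1) : eisGL e (-b) (-c) a h' * eisGL a b c e h = 1 := by
  refine Units.ext ?_
  rw [Units.val_mul, eisGL_coe, eisGL_coe, Units.val_one, Matrix.one_fin_two, Matrix.mul_fin_two]
  simp only [← map_mul, ← map_add]
  rw [show e * a + -b * c = 1 by linear_combination h, show e * b + -b * e = 0 by ring,
    show -c * a + a * c = 0 by ring, show -c * b + a * e = 1 by linear_combination h,
    map_one, map_zero]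

theorem eisGL_smul_y (a b c e : EisRing) (h : a * e - b * c = 1) (p : H3) :
    (eisGL a b c e h • p).y = p.y / H3.denom (eisGL a b c e h) p := by
  rw [H3.smul_y, eisGL_det, norm_one, one_mul]

theorem denom_eisGL (a b c e : EisRing) (h : a * e - b * c = 1) (p : H3) :
    H3.denom (eisGL a b c e h) p =
      Complex.normSq (emb c * p.z + emb e) + Complex.normSq (emb c) * p.y ^ 2 := by
  simp [H3.denom, eisGL_coe]

theorem finite_emb_le (R : ℝ) : {x : EisRing | ‖emb x‖ ≤ R}.Finite := by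
  refine Set.Finite.of_finite_image ?_ pair_injective.injOn
  refine (Set.finite_Icc ((-⌈2 * R⌉, -⌈2 * R⌉) : ℤ × ℤ) (⌈2 * R⌉, ⌈2 * R⌉)).subset ?_
  rintro _ ⟨x, hx, rfl⟩
  have hre := (Complex.abs_re_le_norm (emb x)).trans hx
  have him := (Complex.abs_im_le_norm (emb x)).trans hx
  rw [emb_re] at hre
  rw [emb_im] at him
  have hs : (1.7 : ℝ) ≤ Real.sqrt 3 := Real.le_sqrt_of_sq_le (by norm_num)
  have h1 : |(x.im : ℝ)| ≤ 2 * R := by
    rw [abs_div, abs_mul, abs_of_pos (by linarith : (0 : ℝ) < Real.sqrt 3), abs_two] at him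
    nlinarith [abs_nonneg (x.im : ℝ)]
  have h2 : |(x.re : ℝ)| ≤ 2 * R := by
    rw [abs_le] at hre h1 ⊢; constructor <;> linarith
  have hc := Int.le_ceil (2 * R)
  rw [abs_le] at h1 h2
  simp only [pair, Set.mem_Icc, Prod.mk_le_mk]
  refine ⟨⟨?_, ?_⟩, ⟨?_, ?_⟩⟩
  all_goals rify
  all_goals linarith

theorem exists_emb_add_normSq_le (w : ℂ) : ∃ e : EisRing, Complex.normSq (w + emb e) ≤ 3 / 4 := by
  set t2 := 2 * w.im / Real.sqrt 3 with ht2
  set t1 := w.re + t2 / 2 with ht1
  refine ⟨⟨-round t1, -round t2⟩, ?_⟩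
  have h3 : Real.sqrt 3 * Real.sqrt 3 = 3 := Real.mul_self_sqrt (by norm_num)
  have him : w.im = t2 * Real.sqrt 3 / 2 := by rw [ht2]; field_simp
  rw [Complex.normSq_apply, Complex.add_re, Complex.add_im, emb_re, emb_im, him,
    show w.re = t1 - t2 / 2 by rw [ht1]; ring]
  push_cast
  set u := t1 - (round t1 : ℝ)
  set v := t2 - (round t2 : ℝ)
  have hu := abs_le.mp (abs_sub_round t1)
  have hv := abs_le.mp (abs_sub_round t2)
  calc _ = u * u - u * v + v * v := by linear_combination (v * v / 4) * h3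
    _ ≤ 3 / 4 := by nlinarith

/-- The quadratic form whose values are `p.y` divided by the heights of the translates of `p`. -/
def heightForm (p : H3) (v : EisRing × EisRing) : ℝ :=
  Complex.normSq (emb v.1 * p.z + emb v.2) + Complex.normSq (emb v.1) * p.y ^ 2

/-- Every point can be moved to height at least `1 / 2`. -/
theorem exists_high_point (p : H3) : ∃ (a b c e : EisRing) (h : a * e - b * c = 1),
    1 / 2 ≤ (eisGL a b c e h • p).y := by
  classical
  have hy := p.y_pos
  set R : ℝ := (1 / p.y) * ‖p.z‖ + 1 + 1 / p.y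
  let S : Set (EisRing × EisRing) := {v | v ≠ 0 ∧ heightForm p v ≤ 1}
  have hS : S.Finite := by
    refine ((finite_emb_le R).prod (finite_emb_le R)).subset ?_
    rintro v ⟨-, hv⟩
    have h1 : ‖emb v.1‖ ≤ 1 / p.y := by
      rw [le_div_iff₀ hy]
      have := Complex.normSq_nonneg (emb v.1 * p.z + emb v.2)
      unfold heightForm at hv
      rw [Complex.normSq_eq_norm_sq (emb v.1)] at hv
      nlinarith [norm_nonneg (emb v.1)]
    have h2 : ‖emb v.1 * p.z + emb v.2‖ ≤ 1 := by
      have := mul_nonneg (Complex.normSq_nonneg (emb v.1)) (sq_nonneg p.y)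
      unfold heightForm at hv
      rw [Complex.normSq_eq_norm_sq (emb v.1 * p.z + emb v.2)] at hv
      nlinarith [norm_nonneg (emb v.1 * p.z + emb v.2)]
    have h3 : ‖emb v.2‖ ≤ 1 + 1 / p.y * ‖p.z‖ := by
      calc ‖emb v.2‖ = ‖(emb v.1 * p.z + emb v.2) - emb v.1 * p.z‖ := by rw [add_sub_cancel_left]
        _ ≤ _ := norm_sub_le _ _
        _ ≤ _ := by rw [norm_mul]; gcongr
    have := mul_nonneg (one_div_pos.mpr hy).le (norm_nonneg p.z)
    have := one_div_pos.mpr hy
    exact ⟨show ‖emb v.1‖ ≤ R by linarith, show ‖emb v.2‖ ≤ R by linarith⟩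
  have h01 : ((0, 1) : EisRing × EisRing) ∈ S := ⟨by simp, by simp [heightForm]⟩
  obtain ⟨m, ⟨hm0, hm1⟩, hmin⟩ := Set.exists_min_image S (heightForm p) hS ⟨_, h01⟩
  have hglob : ∀ v, v ≠ 0 → heightForm p m ≤ heightForm p v := fun v hv => by
    by_cases h : heightForm p v ≤ 1
    · exact hmin v ⟨hv, h⟩
    · linarith
  obtain ⟨C, D⟩ := m
  obtain ⟨g, hg⟩ := (IsPrincipalIdealRing.principal (Ideal.span {C, D})).principal
  obtain ⟨C', hC'⟩ : g ∣ C := Ideal.mem_span_singleton.mp
    (by rw [Ideal.span, ← hg]; exact Ideal.subset_span (by simp))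
  obtain ⟨D', hD'⟩ : g ∣ D := Ideal.mem_span_singleton.mp
    (by rw [Ideal.span, ← hg]; exact Ideal.subset_span (by simp))
  obtain ⟨u, v, huv⟩ := Ideal.mem_span_pair.mp (show g ∈ Ideal.span {C, D} by
    rw [hg]; exact Submodule.mem_span_singleton_self g)
  have hg0 : g ≠ 0 := fun e => hm0 (by simp [hC', hD', e])
  have hne' : ((C', D') : EisRing × EisRing) ≠ 0 := fun e => hm0 (by
    simp only [Prod.mk_eq_zero] at e; simp [hC', hD', e.1, e.2])
  have hQ' : 0 < heightForm p (C', D') := by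
    by_cases hC : C' = 0
    · have : D' ≠ 0 := fun e => hne' (by simp [hC, e])
      have := Complex.normSq_pos.mpr ((map_ne_zero_iff emb emb_injective).mpr this)
      simpa [heightForm, hC] using this
    · have := Complex.normSq_pos.mpr ((map_ne_zero_iff emb emb_injective).mpr hC)
      have := Complex.normSq_nonneg (emb C' * p.z + emb D')
      simp only [heightForm]; positivity
  have hunit : IsUnit g := by
    have h1 := hglob _ hne'
    have e : heightForm p (C, D) = Complex.normSq (emb g) * heightForm p (C', D') := by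
      simp only [heightForm, hC', hD', map_mul]
      rw [show emb g * emb C' * p.z + emb g * emb D' = emb g * (emb C' * p.z + emb D') by ring,
        Complex.normSq.map_mul]
      ring
    rw [e, normSq_emb] at h1
    have h2 : (g.norm : ℝ) ≤ 1 := by nlinarith
    have h3 : g.norm ≤ 1 := by exact_mod_cast h2
    rw [isUnit_iff, norm_eq]
    have := norm_pos hg0
    omega
  obtain ⟨gi, hgi⟩ := hunit.exists_left_inv
  have hdet : gi * v * D - (-(gi * u)) * C = 1 := by rw [← hgi, ← huv]; ring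
  refine ⟨gi * v, -(gi * u), C, D, hdet, ?_⟩
  set γ := eisGL (gi * v) (-(gi * u)) C D hdet
  set q := γ • p
  obtain ⟨e, he⟩ := exists_emb_add_normSq_le q.z
  have he' : (0 : EisRing) * e - (-1) * 1 = 1 := by ring
  have hne : ((gi * v + e * C, -(gi * u) + e * D) : EisRing × EisRing) ≠ 0 := fun h0 => by
    simp only [Prod.mk_eq_zero] at h0
    refine one_ne_zero (α := EisRing) ?_
    linear_combination D * h0.1 - C * h0.2 - hdet
  have h'' : (0 * (gi * v) + -1 * C) * (1 * (-(gi * u)) + e * D) -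
      (0 * (-(gi * u)) + -1 * D) * (1 * (gi * v) + e * C) = 1 := by
    linear_combination hdet
  have key : 1 ≤ Complex.normSq (q.z + emb e) + q.y ^ 2 := by
    have h1 := hglob _ hne
    have h3 := eisGL_smul_y 0 (-1) 1 e he' q
    rw [show eisGL 0 (-1) 1 e he' • q = (eisGL 0 (-1) 1 e he' * γ) • p from (mul_smul _ _ _).symm,
      eisGL_mul _ _ _ _ _ _ _ _ he' hdet h'', eisGL_smul_y, eisGL_smul_y, denom_eisGL, denom_eisGL,
      denom_eisGL] at h3
    simp only [map_one, one_mul] at h3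
    simp only [heightForm] at h1 hm1
    have hpos := H3.denom_pos γ p
    rw [denom_eisGL] at hpos
    have hpos' := H3.denom_pos (eisGL _ _ _ _ h'') p
    rw [denom_eisGL] at hpos'
    have hpos'' := H3.denom_pos (eisGL 0 (-1) 1 e he') q
    rw [denom_eisGL] at hpos''
    simp only [map_one, one_mul] at hpos' hpos''
    set A := Complex.normSq (q.z + emb e) + q.y ^ 2
    set X := Complex.normSq (emb (gi * v + e * C) * p.z + emb (-(gi * u) + e * D)) +
      Complex.normSq (emb (gi * v + e * C)) * p.y ^ 2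
    set Y := Complex.normSq (emb C * p.z + emb D) + Complex.normSq (emb C) * p.y ^ 2
    rw [div_div, div_eq_div_iff hpos'.ne' (by positivity)] at h3
    have h5 : Y * A = X := mul_left_cancel₀ hy.ne' h3
    nlinarith
  nlinarith [q.y_pos, Complex.normSq_nonneg (q.z + emb e)]

/-- `diag (2, 1)`. -/
def stretchTwo : GL (Fin 2) ℂ :=
  GeneralLinearGroup.mk'' !![(2 : ℂ), 0; 0, 1] (by rw [det_fin_two_of]; norm_num)

/-- `diag (1 / 2, 1)`. -/
def shrinkTwo : GL (Fin 2) ℂ :=
  GeneralLinearGroup.mk'' !![(1 / 2 : ℂ), 0; 0, 1] (by rw [det_fin_two_of]; norm_num)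

theorem shrinkTwo_mul_stretchTwo : shrinkTwo * stretchTwo = 1 := by
  refine Units.ext ?_
  rw [Units.val_mul, Units.val_one, Matrix.one_fin_two]
  show !![(1 / 2 : ℂ), 0; 0, 1] * !![(2 : ℂ), 0; 0, 1] = _
  rw [Matrix.mul_fin_two]; norm_num

theorem isKElement_emb (x : EisRing) : IsKElement (emb x) :=
  ⟨pair x, 1, one_pos, by simp [emb_apply]⟩

theorem isKElement_emb_div_two (x : EisRing) : IsKElement (emb x / 2) :=
  ⟨pair x, 2, two_pos, by simp [emb_apply]⟩

/-- Divisibility by a natural number is read off the coordinates. -/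
theorem natCast_dvd_of_re_im {n₀ : ℕ} (x : EisRing) (hx : (x.re : ZMod n₀) = 0)
    (hx' : (x.im : ZMod n₀) = 0) : (n₀ : EisRing) ∣ x := by
  obtain ⟨u, hu⟩ := (ZMod.intCast_zmod_eq_zero_iff_dvd _ _).mp hx
  obtain ⟨v, hv⟩ := (ZMod.intCast_zmod_eq_zero_iff_dvd _ _).mp hx'
  exact ⟨⟨u, v⟩, QuadraticAlgebra.ext (by simp [hu]) (by simp [hv])⟩

/-- A Bianchi datum is bounded on the whole space. -/
theorem BianchiDatum.exists_norm_le {ρ : Γℚ →* GL (Fin 2) (ZMod 3)} {n₀ : ℕ}
    (d : BianchiDatum ρ n₀) (hn : 0 < n₀) : ∃ B : ℝ, ∀ p, ‖d.F p‖ ≤ B := by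
  classical
  have : NeZero n₀ := ⟨hn.ne'⟩
  let key : EisRing → ZMod n₀ × ZMod n₀ := fun x => ((x.re : ZMod n₀), (x.im : ZMod n₀))
  let G := {t : EisRing × EisRing × EisRing × EisRing // t.1 * t.2.2.2 - t.2.1 * t.2.2.1 = 1}
  let row : G → (ZMod n₀ × ZMod n₀) × (ZMod n₀ × ZMod n₀) :=
    fun t => (key t.1.2.2.1, key t.1.2.2.2)
  let mat : G → GL (Fin 2) ℂ := fun t => eisGL _ _ _ _ t.2
  choose rep hrep using fun k : Set.range row => k.2
  have hK : ∀ (t : G) i j, IsKElement
      (((mat t * shrinkTwo : GL (Fin 2) ℂ) : Matrix (Fin 2) (Fin 2) ℂ) i j) := by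
    intro t i j
    rw [Units.val_mul]
    show IsKElement ((!![emb t.1.1, emb t.1.2.1; emb t.1.2.2.1, emb t.1.2.2.2] *
      !![(1 / 2 : ℂ), 0; 0, 1] : Matrix (Fin 2) (Fin 2) ℂ) i j)
    rw [Matrix.mul_fin_two]
    fin_cases i <;> fin_cases j <;>
      simp only [Matrix.of_apply, Matrix.cons_val', Matrix.cons_val_zero, Matrix.cons_val_one,
        Matrix.empty_val', Matrix.cons_val_fin_one, Fin.zero_eta, Fin.mk_one, mul_zero, mul_one,
        add_zero, zero_add, one_div, ← div_eq_mul_inv]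
    · exact isKElement_emb_div_two _
    · exact isKElement_emb _
    · exact isKElement_emb_div_two _
    · exact isKElement_emb _
  choose C hC using fun k : Set.range row => d.decay _ (hK (rep k)) 0
  refine ⟨∑ k, |C k|, fun p => ?_⟩
  obtain ⟨a, b, c, e, h, hy⟩ := exists_high_point p
  have hinv : e * a - (-b) * (-c) = 1 := by linear_combination h
  let t : G := ⟨(e, -b, -c, a), hinv⟩
  let k : Set.range row := ⟨row t, t, rfl⟩
  set q := eisGL a b c e h • p with hq
  have hp : p = mat t • q := by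
    rw [hq, ← mul_smul, show mat t * eisGL a b c e h = 1 from eisGL_adjugate_mul _ _ _ _ h hinv,
      one_smul]
  set r := rep k
  have hrow : row r = row t := hrep k
  have hi' : r.1.2.2.2 * r.1.1 - -r.1.2.1 * -r.1.2.2.1 = 1 := by linear_combination r.2
  set δ := mat t * eisGL r.1.2.2.2 (-r.1.2.1) (-r.1.2.2.1) r.1.1 hi' with hδ
  have hδr : mat t = δ * mat r := by
    rw [hδ, mul_assoc, show eisGL r.1.2.2.2 (-r.1.2.1) (-r.1.2.2.1) r.1.1 hi' * mat r = 1 from
      eisGL_adjugate_mul _ _ _ _ r.2 hi', mul_one]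
  have hδmem : IsBianchiGamma0 n₀ δ := by
    refine ⟨fun i j => pair (![![e * r.1.2.2.2 + -b * -r.1.2.2.1, e * -r.1.2.1 + -b * r.1.1],
      ![-c * r.1.2.2.2 + a * -r.1.2.2.1, -c * -r.1.2.1 + a * r.1.1]] i j), fun i j => ?_, ?_, ?_⟩
    · rw [← emb_apply, hδ, Units.val_mul]
      show (!![emb e, emb (-b); emb (-c), emb a] *
        !![emb r.1.2.2.2, emb (-r.1.2.1); emb (-r.1.2.2.1), emb r.1.1] :
          Matrix (Fin 2) (Fin 2) ℂ) i j = _
      rw [Matrix.mul_fin_two]
      fin_cases i <;> fin_cases j <;> simp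
    · rw [hδ, Units.val_mul, Matrix.det_mul, eisGL_det, eisGL_det, one_mul, norm_one]
    · rw [← pair_natCast, pair_dvd]
      simp only [row, key, Prod.mk.injEq] at hrow
      obtain ⟨⟨h1, h2⟩, h3, h4⟩ := hrow
      simp only [Matrix.cons_val_one, Matrix.cons_val_zero]
      refine natCast_dvd_of_re_im _ ?_ ?_ <;>
        (simp only [t, QuadraticAlgebra.re_add, QuadraticAlgebra.im_add, QuadraticAlgebra.re_mul,
          QuadraticAlgebra.im_mul, QuadraticAlgebra.re_neg, QuadraticAlgebra.im_neg, Int.cast_add,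
          Int.cast_mul, Int.cast_neg, Int.cast_one] at h1 h2 h3 h4 ⊢
         rw [h1, h2, h3, h4]
         ring)
  rw [hp, hδr, mul_smul, d.invariant δ hδmem]
  have hq2 : 1 ≤ (stretchTwo • q).y := by
    rw [H3.smul_y_of_upper (by rfl)]
    show (1 : ℝ) ≤ ‖(2 : ℂ)‖ / ‖(1 : ℂ)‖ * q.y
    simp only [norm_one, div_one, Complex.norm_ofNat]
    linarith
  rw [show mat r • q = (mat r * shrinkTwo) • (stretchTwo • q) by
    rw [← mul_smul (mat r * shrinkTwo) stretchTwo q, mul_assoc, shrinkTwo_mul_stretchTwo, mul_one]]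
  refine (hC k _ hq2).trans ?_
  rw [pow_zero, div_one]
  exact (le_abs_self _).trans
    (Finset.single_le_sum (f := fun k => |C k|) (fun k _ => abs_nonneg _) (Finset.mem_univ k))

end Fermat.Agent.ResidualThree
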