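import Mathlib.Analysis.SpecialFunctions.Log.Basic
import Mathlib.NumberTheory.EulerProduct.Basic
import Mathlib.NumberTheory.SumPrimeReciprocals

/-!
# A lower bound for Dirichlet series with bounded Euler factors

Applied to the rational Dirichlet series of a Bianchi datum.
-/

noncomputable section

open Finset Filter Topology

namespace Fermat.Agent.ResidualThree

/-- `|g (p ^ k)| ≤ (k + 1) ^ 2`. -/
def HasLocalBound (g : ℕ → ℝ) : Prop :=
  ∀ p : ℕ, p.Prime → ∀ k : ℕ, |g (p ^ k)| ≤ ((k : ℝ) + 1) ^ 2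

theorem sq_add_three_le_geom (k : ℕ) : ((k : ℝ) + 3) ^ 2 ≤ 9 * (16 / 9) ^ k := by
  induction k with
  | zero => norm_num
  | succ k ih =>
    have hk : (0 : ℝ) ≤ k := Nat.cast_nonneg k
    rw [pow_succ (16 / 9 : ℝ)]
    push_cast
    nlinarith [mul_le_mul_of_nonneg_right ih (show (0 : ℝ) ≤ 16 / 9 by norm_num), sq_nonneg (k : ℝ)]

theorem sq_add_two_le_geom (k : ℕ) : ((k : ℝ) + 2) ^ 2 ≤ 4 * (9 / 4) ^ k := by
  induction k with
  | zero => norm_num
  | succ k ih =>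
    have hk : (0 : ℝ) ≤ k := Nat.cast_nonneg k
    rw [pow_succ (9 / 4 : ℝ)]
    push_cast
    nlinarith [mul_le_mul_of_nonneg_right ih (show (0 : ℝ) ≤ 9 / 4 by norm_num), sq_nonneg (k : ℝ)]

section Local

variable {w : ℕ → ℝ} (hw : ∀ k, |w k| ≤ ((k : ℝ) + 1) ^ 2) {x : ℝ} (hx0 : 0 ≤ x) (hx : x ≤ 1 / 2)

include hw hx0 hx

omit hx in
theorem norm_shifted_term_le (k : ℕ) :
    ‖w (k + 2) * x ^ (k + 2)‖ ≤ 9 * x ^ 2 * (16 / 9 * x) ^ k := by
  rw [Real.norm_eq_abs, abs_mul, abs_pow, abs_of_nonneg hx0, mul_pow, pow_add x k 2]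
  have h1 := (hw (k + 2)).trans (le_of_eq (by push_cast; ring : _ = ((k : ℝ) + 3) ^ 2))
  calc |w (k + 2)| * (x ^ k * x ^ 2) ≤ (9 * (16 / 9) ^ k) * (x ^ k * x ^ 2) :=
        mul_le_mul_of_nonneg_right (h1.trans (sq_add_three_le_geom k)) (by positivity)
    _ = 9 * x ^ 2 * ((16 / 9) ^ k * x ^ k) := by ring

theorem summable_norm_local : Summable fun k => ‖w k * x ^ k‖ := by
  rw [← summable_nat_add_iff 2]
  refine Summable.of_nonneg_of_le (fun k => norm_nonneg _) (norm_shifted_term_le hw hx0) ?_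
  exact (summable_geometric_of_lt_one (by positivity) (by linarith)).mul_left _

theorem summable_local : Summable fun k => w k * x ^ k := (summable_norm_local hw hx0 hx).of_norm

theorem abs_local_sub_le (h0 : w 0 = 1) :
    |(∑' k, w k * x ^ k) - 1 - w 1 * x| ≤ 81 * x ^ 2 := by
  have hs := summable_local hw hx0 hx
  have hg := summable_geometric_of_lt_one (show 0 ≤ 16 / 9 * x by positivity) (by linarith)
  rw [← hs.sum_add_tsum_nat_add 2]
  simp only [Finset.sum_range_succ, Finset.sum_range_zero, h0, pow_zero, pow_one, zero_add, one_mul]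
  rw [show (1 : ℝ) + w 1 * x + (∑' k, w (k + 2) * x ^ (k + 2)) - 1 - w 1 * x =
    ∑' k, w (k + 2) * x ^ (k + 2) by ring, ← Real.norm_eq_abs]
  refine
    (tsum_of_norm_bounded (hg.mul_left (9 * x ^ 2)).hasSum (norm_shifted_term_le hw hx0)).trans ?_
  rw [tsum_mul_left, tsum_geometric_of_lt_one (by positivity) (by linarith)]
  have h9 : (1 : ℝ) / 9 ≤ 1 - 16 / 9 * x := by linarith
  calc 9 * x ^ 2 * (1 - 16 / 9 * x)⁻¹ ≤ 9 * x ^ 2 * (1 / 9)⁻¹ := by
        gcongr
    _ = 81 * x ^ 2 := by norm_num; ring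

/-- Factors at arguments at most `1 / 7` are bounded below. -/
theorem one_seventh_le_local_small (h0 : w 0 = 1) (hx7 : x ≤ 1 / 7) :
    1 / 7 ≤ ∑' k, w k * x ^ k := by
  have hs := summable_local hw hx0 hx
  rw [hs.tsum_eq_zero_add, h0, pow_zero, one_mul]
  have hb : ∀ k, ‖w (k + 1) * x ^ (k + 1)‖ ≤ 4 * x * (9 / 4 * x) ^ k := fun k => by
    rw [Real.norm_eq_abs, abs_mul, abs_pow, abs_of_nonneg hx0, mul_pow, pow_succ x k]
    have h1 := (hw (k + 1)).trans (le_of_eq (by push_cast; ring : _ = ((k : ℝ) + 2) ^ 2))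
    calc |w (k + 1)| * (x ^ k * x) ≤ (4 * (9 / 4) ^ k) * (x ^ k * x) :=
          mul_le_mul_of_nonneg_right (h1.trans (sq_add_two_le_geom k)) (by positivity)
      _ = 4 * x * ((9 / 4) ^ k * x ^ k) := by ring
  have hg := summable_geometric_of_lt_one (show 0 ≤ 9 / 4 * x by positivity) (by linarith)
  have h := tsum_of_norm_bounded (hg.mul_left (4 * x)).hasSum hb
  rw [tsum_mul_left, tsum_geometric_of_lt_one (by positivity) (by linarith), Real.norm_eq_abs,
    ← div_eq_mul_inv] at h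
  have h2 : 4 * x / (1 - 9 / 4 * x) ≤ 16 / 19 := by
    rw [div_le_iff₀ (by linarith)]; linarith
  linarith [neg_abs_le (∑' k, w (k + 1) * x ^ (k + 1))]

/-- Factors given by a two term recursion are bounded below. -/
theorem one_seventh_le_local_rec (b : ℝ) (hb : |b| ≤ 2) (h0 : w 0 = 1)
    (hrec : ∀ k, w (k + 2) = b * w (k + 1) - w k) (hlead : 0 ≤ w 1 - b) :
    1 / 7 ≤ ∑' k, w k * x ^ k := by
  have hs := summable_local hw hx0 hx
  set E := ∑' k, w k * x ^ k with hE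
  have h1 := hs.sum_add_tsum_nat_add 2
  have h1' := hs.tsum_eq_zero_add
  simp only [Finset.sum_range_succ, Finset.sum_range_zero, h0, pow_zero, pow_one, zero_add, one_mul]
    at h1 h1'
  have hA : (∑' k, w (k + 1) * x ^ (k + 1)) = E - 1 := by linarith
  have hs1 : Summable fun k => w (k + 1) * x ^ (k + 1) := (summable_nat_add_iff 1).mpr hs
  have hB : (∑' k, w (k + 2) * x ^ (k + 2)) = b * x * (E - 1) - x ^ 2 * E := by
    rw [← hA, hE, ← tsum_mul_left, ← tsum_mul_left, ← (hs1.mul_left (b * x)).tsum_sub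
      (hs.mul_left (x ^ 2))]
    refine tsum_congr fun k => ?_
    rw [hrec]; ring
  rw [hB] at h1
  have hb' := abs_le.mp hb
  have h2 : E * (1 - b * x + x ^ 2) = 1 + (w 1 - b) * x := by linarith [h1]
  have h3 : 1 - b * x + x ^ 2 ≤ 9 / 4 := by nlinarith
  by_contra hlt
  push Not at hlt
  have h4 : 0 < 1 - b * x + x ^ 2 := by nlinarith
  nlinarith [mul_nonneg hlead hx0]

end Local

theorem sub_sq_div_le_log_one_add {u : ℝ} (hu : 0 < 1 + u) :
    u - u ^ 2 * (1 + u)⁻¹ ≤ Real.log (1 + u) := by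
  refine le_of_eq_of_le ?_ (Real.one_sub_inv_le_log_of_pos hu)
  field_simp
  ring

theorem sub_sq_le_log_one_add {u : ℝ} (hu : 1 / 7 ≤ 1 + u) : u - 7 * u ^ 2 ≤ Real.log (1 + u) := by
  have h0 : 0 < 1 + u := by linarith
  have h7 : (1 + u)⁻¹ ≤ 7 := by rw [inv_le_comm₀ h0 (by norm_num)]; linarith
  refine le_trans ?_ (sub_sq_div_le_log_one_add h0)
  nlinarith [sq_nonneg u]

theorem rpow_natCast_pow (p k : ℕ) (t : ℝ) : ((p ^ k : ℕ) : ℝ) ^ t = ((p : ℝ) ^ t) ^ k := by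
  rw [Nat.cast_pow, ← Real.rpow_natCast, ← Real.rpow_mul (Nat.cast_nonneg p), mul_comm,
    Real.rpow_mul (Nat.cast_nonneg p), Real.rpow_natCast]

variable {g : ℕ → ℝ}

theorem prime_rpow_bounds {p : ℕ} (hp : p.Prime) {s : ℝ} (hs : 1 < s) :
    0 ≤ (p : ℝ) ^ (-s) ∧ (p : ℝ) ^ (-s) ≤ 1 / p ∧ (p : ℝ) ^ (-s) ≤ 1 / 2 := by
  have h2 : (2 : ℝ) ≤ p := by exact_mod_cast hp.two_le
  have h : (p : ℝ) ^ (-s) ≤ 1 / p := by
    rw [one_div, ← Real.rpow_neg_one]
    exact Real.rpow_le_rpow_of_exponent_le (by linarith) (by linarith)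
  refine ⟨Real.rpow_nonneg (Nat.cast_nonneg p) _, h, h.trans ?_⟩
  gcongr

theorem summable_primes_inv_sq : Summable fun p : Nat.Primes => (((p : ℕ) : ℝ) ^ 2)⁻¹ := by
  refine (Nat.Primes.summable_rpow.mpr (by norm_num : (-2 : ℝ) < -1)).congr fun p => ?_
  rw [Real.rpow_neg (Nat.cast_nonneg _), Real.rpow_two]

theorem prod_primesBelow_eq_exp_sum {F : ℕ → ℝ} (N : ℕ) (hF : ∀ p ∈ N.primesBelow, 0 < F p) :
    ∏ p ∈ N.primesBelow, F p = Real.exp (∑ p ∈ N.primesBelow, Real.log (F p)) := by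
  rw [Real.exp_sum]
  exact Finset.prod_congr rfl fun p hp => (Real.exp_log (hF p hp)).symm

theorem sum_primesBelow_le_tsum {F : Nat.Primes → ℝ} (hF : ∀ p, 0 ≤ F p) (hs : Summable F) (N : ℕ)
    (G : ℕ → ℝ) (hG : ∀ p : Nat.Primes, G p = F p) :
    ∑ p ∈ N.primesBelow, G p ≤ ∑' p, F p := by
  classical
  let e : {q // q ∈ N.primesBelow} → Nat.Primes :=
    fun q => (⟨q.1, Nat.prime_of_mem_primesBelow q.2⟩ : Nat.Primes)
  let T : Finset Nat.Primes := N.primesBelow.attach.image e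
  refine le_of_eq_of_le ?_ (hs.sum_le_tsum T fun p _ => hF p)
  simp only [T]
  rw [Finset.sum_image, ← Finset.sum_attach]
  · exact Finset.sum_congr rfl fun q _ => hG (e q)
  · intro a _ b _ h
    exact Subtype.ext (congrArg (fun z : Nat.Primes => (z : ℕ)) h)

variable (h0 : g 0 = 0) (h1 : g 1 = 1)
  (hmul : ∀ {m n : ℕ}, Nat.Coprime m n → g (m * n) = g m * g n) (hb : HasLocalBound g)

include h0 h1 hmul hb

/-- The Dirichlet series converges absolutely for `s > 1`. -/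
theorem summable_dirichlet {s : ℝ} (hs : 1 < s) :
    Summable fun n : ℕ => |g n| * (n : ℝ) ^ (-s) := by
  classical
  let f : ℕ → ℝ := fun n => |g n| * (n : ℝ) ^ (-s)
  have hf1 : f 1 = 1 := by simp [f, h1]
  have hfmul : ∀ {m n : ℕ}, Nat.Coprime m n → f (m * n) = f m * f n := fun {m n} h => by
    simp only [f, hmul h, abs_mul, Nat.cast_mul,
      Real.mul_rpow (Nat.cast_nonneg m) (Nat.cast_nonneg n)]
    ring
  have hpow : ∀ p k : ℕ, f (p ^ k) = |g (p ^ k)| * ((p : ℝ) ^ (-s)) ^ k := fun p k => by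
    simp only [f, rpow_natCast_pow]
  have hw : ∀ {p : ℕ}, p.Prime → ∀ k : ℕ, |(fun k : ℕ => |g (p ^ k)|) k| ≤ ((k : ℝ) + 1) ^ 2 :=
    fun hp k => by simpa [abs_abs] using hb _ hp k
  have hsum : ∀ {p : ℕ}, p.Prime → Summable fun k : ℕ => ‖f (p ^ k)‖ := fun {p} hp => by
    simp only [hpow]
    obtain ⟨hx0, -, hx⟩ := prime_rpow_bounds hp hs
    exact summable_norm_local (hw hp) hx0 hx
  have hx2 := Nat.Primes.summable_rpow.mpr (by linarith : -s < -1)
  have hfac : ∀ p : ℕ, p.Prime → ∑' k, f (p ^ k) ≤ Real.exp (45 * (p : ℝ) ^ (-s)) := by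
    intro p hp
    obtain ⟨hx0, -, hx⟩ := prime_rpow_bounds hp hs
    have h := abs_local_sub_le (w := fun k => |g (p ^ k)|) (hw hp) hx0 hx
      (by simp [h1])
    have h4 := hb p hp 1
    simp only [pow_one, Nat.cast_one] at h h4
    simp only [hpow]
    refine le_trans ?_ (Real.add_one_le_exp _)
    set x := (p : ℝ) ^ (-s)
    nlinarith [(abs_le.mp h).2, abs_nonneg (g p)]
  refine summable_of_sum_le (c := Real.exp (45 * ∑' p : Nat.Primes, ((p : ℕ) : ℝ) ^ (-s)))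
    (fun n => by positivity) fun U => ?_
  obtain ⟨N, hN⟩ : ∃ N, ∀ n ∈ U, n < N := ⟨U.sup id + 1, fun n hn => Nat.lt_succ_of_le
    (Finset.le_sup (f := id) hn)⟩
  obtain ⟨hsN, hhas⟩ :=
    EulerProduct.summable_and_hasSum_smoothNumbers_prod_primesBelow_tsum hf1 hfmul hsum N
  have hmem : ∀ n ∈ U.erase 0, n ∈ N.smoothNumbers := fun n hn =>
    Nat.mem_smoothNumbers_of_lt (Nat.pos_of_ne_zero (Finset.ne_of_mem_erase hn))
      (hN n (Finset.mem_of_mem_erase hn))
  have e : ∑ n ∈ U, f n = ∑ n ∈ (U.erase 0).attach, f n := by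
    rw [Finset.sum_attach, Finset.sum_erase _ (by simp [f, h0])]
  calc ∑ n ∈ U, f n = ∑ n ∈ (U.erase 0).attach.map
          ⟨fun n => (⟨n.1, hmem n.1 n.2⟩ : N.smoothNumbers),
            fun a b h => Subtype.ext (by simpa using h)⟩, f n := by
        rw [e, Finset.sum_map]; rfl
    _ ≤ ∑' m : N.smoothNumbers, f m :=
        hhas.summable.sum_le_tsum _ fun m _ => by positivity
    _ = ∏ p ∈ N.primesBelow, ∑' k, f (p ^ k) := hhas.tsum_eq
    _ ≤ ∏ p ∈ N.primesBelow, Real.exp (45 * (p : ℝ) ^ (-s)) :=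
        Finset.prod_le_prod (fun p _ => tsum_nonneg fun k => by positivity)
          fun p hp => hfac p (Nat.prime_of_mem_primesBelow hp)
    _ ≤ _ := by
        rw [← Real.exp_sum, Real.exp_le_exp, ← tsum_mul_left]
        exact sum_primesBelow_le_tsum (fun p => by positivity) (hx2.mul_left 45) N _ fun p => rfl

/-- The series dominates the exponential of its sum over primes. -/
theorem exists_exp_le_dirichlet
    (hfac : ∀ p : ℕ, p.Prime → ∀ x : ℝ, 0 ≤ x → x ≤ 1 / p → 1 / 7 ≤ ∑' k, g (p ^ k) * x ^ k) :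
    ∃ C : ℝ, ∀ s : ℝ, 1 < s →
      (Summable fun p : Nat.Primes => g p * ((p : ℕ) : ℝ) ^ (-s)) ∧
      Real.exp ((∑' p : Nat.Primes, g p * ((p : ℕ) : ℝ) ^ (-s)) - C) ≤
        ∑' n : ℕ, g n * (n : ℝ) ^ (-s) := by
  classical
  refine ⟨15000 * ∑' p : Nat.Primes, (((p : ℕ) : ℝ) ^ 2)⁻¹, fun s hs => ?_⟩
  have hx2 := Nat.Primes.summable_rpow.mpr (by linarith : -s < -1)
  have hsp : Summable fun p : Nat.Primes => g p * ((p : ℕ) : ℝ) ^ (-s) := by
    refine Summable.of_norm_bounded (hx2.mul_left 4) fun p => ?_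
    have h := hb p p.2 1
    rw [pow_one, Nat.cast_one] at h
    rw [Real.norm_eq_abs, abs_mul, abs_of_nonneg (Real.rpow_nonneg (Nat.cast_nonneg _) _)]
    exact mul_le_mul_of_nonneg_right (h.trans (by norm_num)) (by positivity)
  refine ⟨hsp, ?_⟩
  let f : ℕ → ℝ := fun n => g n * (n : ℝ) ^ (-s)
  have hfmul : ∀ {m n : ℕ}, Nat.Coprime m n → f (m * n) = f m * f n := fun {m n} h => by
    simp only [f, hmul h, Nat.cast_mul, Real.mul_rpow (Nat.cast_nonneg m) (Nat.cast_nonneg n)]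
    ring
  have hnorm : Summable fun n => ‖f n‖ := (summable_dirichlet h0 h1 hmul hb hs).congr fun n => by
    simp only [f, norm_mul, Real.norm_eq_abs,
      abs_of_nonneg (Real.rpow_nonneg (Nat.cast_nonneg n) _)]
  have ht := EulerProduct.eulerProduct (f := f) (by simp [f, h1]) hfmul hnorm (by simp [f, h0])
  refine le_of_tendsto_of_tendsto'
    (f := fun N : ℕ => Real.exp ((∑ p ∈ N.primesBelow, g p * (p : ℝ) ^ (-s)) -
      15000 * ∑' p : Nat.Primes, (((p : ℕ) : ℝ) ^ 2)⁻¹)) ?_ ht fun N => ?_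
  · refine (Real.continuous_exp.tendsto _).comp (Tendsto.sub_const ?_ _)
    have hh : HasSum ((fun p : ℕ => g p * (p : ℝ) ^ (-s)) ∘
        ((↑) : {p : ℕ | p.Prime} → ℕ)) (∑' p : Nat.Primes, g p * ((p : ℕ) : ℝ) ^ (-s)) :=
      hsp.hasSum
    rw [hasSum_subtype_iff_indicator] at hh
    refine hh.tendsto_sum_nat.congr fun N => ?_
    rw [Nat.primesBelow, Finset.sum_filter]
    exact Finset.sum_congr rfl fun p _ => by rw [Set.indicator_apply]; rfl
  · have hpt : ∀ p : ℕ, p.Prime → 1 / 7 ≤ ∑' k, f (p ^ k) ∧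
        g p * (p : ℝ) ^ (-s) - 15000 * ((p : ℝ) ^ 2)⁻¹ ≤ Real.log (∑' k, f (p ^ k)) := by
      intro p hp
      obtain ⟨hx0, hxp, hx⟩ := prime_rpow_bounds hp hs
      simp only [f, rpow_natCast_pow]
      have hlow := hfac p hp _ hx0 hxp
      refine ⟨hlow, ?_⟩
      have h := abs_local_sub_le (w := fun k => g (p ^ k)) (hb p hp) hx0 hx (by simp [h1])
      have h4 := hb p hp 1
      simp only [pow_one, Nat.cast_one] at h h4
      set x := (p : ℝ) ^ (-s) with hxdef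
      set E := ∑' k, g (p ^ k) * x ^ k
      have hxx : x ^ 2 ≤ ((p : ℝ) ^ 2)⁻¹ := by
        rw [← inv_pow, ← one_div]; exact pow_le_pow_left₀ hx0 hxp 2
      have hlog := sub_sq_le_log_one_add (u := E - 1) (by linarith)
      rw [add_sub_cancel] at hlog
      obtain ⟨h5, h6⟩ := abs_le.mp h
      obtain ⟨h7, h8⟩ := abs_le.mp h4
      have hu : |E - 1| ≤ 45 * x := by
        rw [abs_le]; constructor <;> nlinarith
      have hu2 : (E - 1) ^ 2 ≤ 2025 * x ^ 2 := by
        nlinarith [sq_abs (E - 1), abs_nonneg (E - 1)]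
      nlinarith
    rw [prod_primesBelow_eq_exp_sum N fun p hp => lt_of_lt_of_le (by norm_num)
      (hpt p (Nat.prime_of_mem_primesBelow hp)).1, Real.exp_le_exp, ← tsum_mul_left]
    have h9 := sum_primesBelow_le_tsum (fun p : Nat.Primes => by positivity)
      (summable_primes_inv_sq.mul_left 15000) N (fun p : ℕ => 15000 * ((p : ℝ) ^ 2)⁻¹)
      fun p => rfl
    refine le_trans ?_ (Finset.sum_le_sum fun p hp => (hpt p (Nat.prime_of_mem_primesBelow hp)).2)
    rw [Finset.sum_sub_distrib]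
    linarith

end Fermat.Agent.ResidualThree
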