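import Fermat.Agent.ResidualThree.Asai.Eis
import Fermat.Agent.ResidualThree.Asai.Euler

/-!
# Coefficients of a Bianchi datum: bounds at prime powers and the rational Dirichlet series

These feed the Euler product bounds of `Asai.Euler` and the mean square bound.
-/

noncomputable section

namespace Fermat.Agent.ResidualThree

open EisRing

local notation "Γℚ" => (AlgebraicClosure ℚ ≃ₐ[ℚ] AlgebraicClosure ℚ)

/-- A sequence with `u (k + 2) = a u (k + 1) - u k`, `|a| ≤ 2`, grows at most linearly. -/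
theorem natAbs_rec_le {u : ℕ → ℤ} {a : ℤ} (ha : a.natAbs ≤ 2) (h0 : u 0 = 1) (h1 : u 1 = a)
    (h : ∀ k, u (k + 2) = a * u (k + 1) - u k) (k : ℕ) : (u k).natAbs ≤ k + 1 := by
  have hQ : ∀ k, u (k + 1) ^ 2 - a * u (k + 1) * u k + u k ^ 2 = 1 := by
    intro k
    induction k with
    | zero => rw [h0, h1]; ring
    | succ k ih => rw [show k + 1 + 1 = k + 2 from rfl, h]; linear_combination ih
  have hlo : -2 ≤ a := by omega
  have hhi : a ≤ 2 := by omega
  have hstep : ∀ k, 2 ≤ k → u k = a * u (k - 1) - u (k - 2) := fun k hk => by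
    obtain ⟨j, rfl⟩ : ∃ j, k = j + 2 := ⟨k - 2, by omega⟩
    exact h j
  by_cases h2 : a = 2
  · have e : ∀ j, u j = (j : ℤ) + 1 ∧ u (j + 1) = (j : ℤ) + 2 := by
      intro j
      induction j with
      | zero => simp [h0, h1, h2]
      | succ j ih =>
        refine ⟨by rw [ih.2]; push_cast; ring, ?_⟩
        rw [show j + 1 + 1 = j + 2 from rfl, h, ih.1, ih.2, h2]; push_cast; ring
    rw [(e k).1]; omega
  by_cases h2' : a = -2
  · have e : ∀ j, u j = (-1) ^ j * ((j : ℤ) + 1) ∧ u (j + 1) = (-1) ^ (j + 1) * ((j : ℤ) + 2) := by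
      intro j
      induction j with
      | zero => simp [h0, h1, h2']
      | succ j ih =>
        refine ⟨by rw [ih.2]; push_cast; ring, ?_⟩
        rw [show j + 1 + 1 = j + 2 from rfl, h, ih.1, ih.2, h2']; push_cast; ring
    rw [(e k).1, Int.natAbs_mul, Int.natAbs_pow]
    simp only [Int.reduceNeg, Int.natAbs_neg, Int.natAbs_one, one_pow, one_mul]
    omega
  have ha1 : a ^ 2 ≤ 1 := by nlinarith [show -1 ≤ a by omega, show a ≤ 1 by omega]
  have hb : u k ^ 2 * 3 ≤ 4 := by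
    nlinarith [hQ k, sq_nonneg (2 * u (k + 1) - a * u k), sq_nonneg (u k)]
  have h3 : -1 ≤ u k ∧ u k ≤ 1 := ⟨by nlinarith, by nlinarith⟩
  omega

variable {ρ : Γℚ →* GL (Fin 2) (ZMod 3)} {n₀ : ℕ}

namespace BianchiDatum

variable (d : BianchiDatum ρ n₀)

/-- The coefficient at an element of `ℤ[ω]`. -/
def cf (x : EisRing) : ℤ := d.c (pair x)

/-- The coefficient at a rational integer. -/
def coeffNat (n : ℕ) : ℝ := (d.c ((n : ℤ), 0) : ℝ)

theorem coeffNat_eq (n : ℕ) : d.coeffNat n = (d.cf (n : EisRing) : ℝ) := by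
  rw [coeffNat, cf, pair_natCast]

theorem cf_zero : d.cf 0 = 0 := by
  rw [cf, show pair (0 : EisRing) = (0, 0) from rfl, d.c_zero]

theorem cf_one : d.cf 1 = 1 := by
  rw [cf, show pair (1 : EisRing) = (1, 0) from rfl, d.c_one]

theorem cf_unit_mul {u : EisRing} (hu : IsUnit u) (x : EisRing) : d.cf (u * x) = d.cf x := by
  rw [cf, cf, pair_mul]; exact d.c_unit _ _ (isUnit_iff.mp hu)

theorem cf_neg (x : EisRing) : d.cf (-x) = d.cf x := by
  rw [← neg_one_mul, cf_unit_mul d isUnit_one.neg]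

theorem cf_mul {x y : EisRing} (h : Nat.Coprime (pair x).norm (pair y).norm) :
    d.cf (x * y) = d.cf x * d.cf y := by
  rw [cf, cf, cf, pair_mul]; exact d.c_mul _ _ h

theorem dvd_level_iff {π : EisRing} :
    Eis3.dvd (pair π) ((n₀ : ℤ), 0) ↔ π ∣ (n₀ : EisRing) := by
  rw [← pair_natCast, pair_dvd]

theorem cf_level {π : EisRing} (hπ : Prime π) (hn : π ∣ (n₀ : EisRing)) (x : EisRing) :
    d.cf (π * x) = 0 := by
  rw [cf, pair_mul]; exact d.c_level _ _ (isPrimeElt_iff.mpr hπ) (dvd_level_iff.mpr hn)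

theorem cf_rec {π : EisRing} (hπ : Prime π) (hn : ¬ π ∣ (n₀ : EisRing)) (x : EisRing) :
    d.cf (π * (π * x)) = d.cf π * d.cf (π * x) - d.cf x := by
  simp only [cf, pair_mul]
  exact d.c_rec _ _ (isPrimeElt_iff.mpr hπ) (dvd_level_iff.not.mpr hn)

theorem cf_prime_mul {π x : EisRing} (hπ : Prime π) (hx : ¬ π ∣ x) :
    d.cf (π * x) = d.cf π * d.cf x := by
  by_cases hn : π ∣ (n₀ : EisRing)
  · have h := d.cf_level hπ hn 1
    rw [mul_one] at h
    rw [d.cf_level hπ hn x, h, zero_mul]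
  · simp only [cf, pair_mul]
    exact d.c_prime_mul _ _ (isPrimeElt_iff.mpr hπ) (dvd_level_iff.not.mpr hn)
      (by rw [pair_dvd]; exact hx)

theorem natAbs_cf_le_two {π : EisRing} (hπ : Prime π) : (d.cf π).natAbs ≤ 2 :=
  d.c_bound _ (isPrimeElt_iff.mpr hπ)

theorem cf_pow_rec {π : EisRing} (hπ : Prime π) (hn : ¬ π ∣ (n₀ : EisRing)) (k : ℕ) :
    d.cf (π ^ (k + 2)) = d.cf π * d.cf (π ^ (k + 1)) - d.cf (π ^ k) := by
  rw [show π ^ (k + 2) = π * (π * π ^ k) by ring, show π ^ (k + 1) = π * π ^ k by ring]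
  exact d.cf_rec hπ hn _

theorem cf_pow_eq_zero {π : EisRing} (hπ : Prime π) (hn : π ∣ (n₀ : EisRing)) (k : ℕ) :
    d.cf (π ^ (k + 1)) = 0 := by
  rw [pow_succ']; exact d.cf_level hπ hn _

theorem natAbs_cf_pow_le {π : EisRing} (hπ : Prime π) (k : ℕ) :
    (d.cf (π ^ k)).natAbs ≤ k + 1 := by
  by_cases hn : π ∣ (n₀ : EisRing)
  · cases k with
    | zero => rw [pow_zero, d.cf_one]; rfl
    | succ k => rw [d.cf_pow_eq_zero hπ hn k]; simp
  · exact natAbs_rec_le (u := fun j => d.cf (π ^ j)) (d.natAbs_cf_le_two hπ)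
      (by simp [d.cf_one]) (by simp) (d.cf_pow_rec hπ hn) k

theorem cf_pow_mul {π y : EisRing} (hπ : Prime π) (hy : ¬ π ∣ y) (k : ℕ) :
    d.cf (π ^ k * y) = d.cf (π ^ k) * d.cf y := by
  by_cases hn : π ∣ (n₀ : EisRing)
  · cases k with
    | zero => simp [d.cf_one]
    | succ k => rw [pow_succ', mul_assoc, d.cf_level hπ hn, d.cf_level hπ hn, zero_mul]
  · have h : d.cf (π ^ k * y) = d.cf (π ^ k) * d.cf y ∧
        d.cf (π ^ (k + 1) * y) = d.cf (π ^ (k + 1)) * d.cf y := by
      induction k with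
      | zero => exact ⟨by simp [d.cf_one], by simpa using d.cf_prime_mul hπ hy⟩
      | succ k ih =>
        refine ⟨ih.2, ?_⟩
        rw [d.cf_pow_rec hπ hn k,
          show π ^ (k + 1 + 1) * y = π * (π * (π ^ k * y)) by ring, d.cf_rec hπ hn,
          show π * (π ^ k * y) = π ^ (k + 1) * y by ring, ih.1, ih.2]
        ring
    exact h.1

/-- `√-3`. -/
def rootNegThree : EisRing := ⟨1, 2⟩

theorem prime_rootNegThree : Prime rootNegThree :=
  prime_of_norm_prime (by simpa [rootNegThree, pair, Eis3.norm] using Nat.prime_three)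

theorem cf_three_pow (k : ℕ) : d.cf ((3 : ℕ) ^ k : EisRing) = d.cf (rootNegThree ^ (2 * k)) := by
  rw [pow_mul, show rootNegThree ^ 2 = -((3 : ℕ) : EisRing) by
    rw [sq]; exact QuadraticAlgebra.ext
      (by rw [QuadraticAlgebra.re_neg, QuadraticAlgebra.re_natCast]; simp [rootNegThree])
      (by rw [QuadraticAlgebra.im_neg, QuadraticAlgebra.im_natCast]; simp [rootNegThree]),
    neg_pow, d.cf_unit_mul (isUnit_one.neg.pow k)]

/-- The two conjugate primes above a split prime. -/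
theorem exists_split {p : ℕ} (hp : p.Prime) (h1 : p % 3 = 1) :
    ∃ π : EisRing, (pair π).norm = p ∧ (pair (star π)).norm = p ∧ (p : EisRing) = π * star π ∧
      Prime π ∧ Prime (star π) ∧ ¬ π ∣ star π := by
  obtain ⟨π, hπ⟩ := exists_norm_eq hp h1
  have hπ' : (pair (star π)).norm = p := by rw [norm_pair_star, hπ]
  exact ⟨π, hπ, hπ', by rw [mul_star_eq, hπ], prime_of_norm_prime (hπ ▸ hp),
    prime_of_norm_prime (hπ' ▸ hp), not_dvd_star hp (by omega) hπ⟩

theorem cf_split_pow {p : ℕ} {π : EisRing} (hpe : (p : EisRing) = π * star π) (hπ : Prime π)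
    (hnd : ¬ π ∣ star π) (k : ℕ) :
    d.cf ((p : EisRing) ^ k) = d.cf (π ^ k) * d.cf (star π ^ k) := by
  rw [hpe, mul_pow]
  exact d.cf_pow_mul hπ (fun h => hnd (hπ.dvd_of_dvd_pow h)) k

theorem coeffNat_split {p : ℕ} {π : EisRing} (hpe : (p : EisRing) = π * star π) (hπ : Prime π)
    (hnd : ¬ π ∣ star π) : d.coeffNat p = (d.cf π : ℝ) * (d.cf (star π) : ℝ) := by
  have h := d.cf_split_pow hpe hπ hnd 1
  simp only [pow_one] at h
  rw [coeffNat_eq, h]; push_cast; rfl

theorem coeffNat_zero : d.coeffNat 0 = 0 := by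
  rw [coeffNat_eq, Nat.cast_zero, d.cf_zero, Int.cast_zero]

theorem coeffNat_one : d.coeffNat 1 = 1 := by
  rw [coeffNat_eq, Nat.cast_one, d.cf_one, Int.cast_one]

theorem coeffNat_mul {m n : ℕ} (h : Nat.Coprime m n) :
    d.coeffNat (m * n) = d.coeffNat m * d.coeffNat n := by
  rw [coeffNat_eq, coeffNat_eq, coeffNat_eq, Nat.cast_mul, d.cf_mul, Int.cast_mul]
  rw [norm_pair_natCast, norm_pair_natCast]
  exact h.pow 2 2

theorem coeffNat_pow (p k : ℕ) : d.coeffNat (p ^ k) = (d.cf ((p : EisRing) ^ k) : ℝ) := by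
  rw [coeffNat_eq, Nat.cast_pow]

theorem prime_mod_three {p : ℕ} (hp : p.Prime) : p = 3 ∨ p % 3 = 1 ∨ p % 3 = 2 := by
  by_cases h : p % 3 = 0
  · exact .inl ((Nat.prime_dvd_prime_iff_eq Nat.prime_three hp).mp (by omega)).symm
  · omega

theorem natAbs_cf_natPow_le {p : ℕ} (hp : p.Prime) (k : ℕ) :
    (d.cf ((p : EisRing) ^ k)).natAbs ≤ (k + 1) ^ 2 := by
  rcases prime_mod_three hp with rfl | h | h
  · rw [d.cf_three_pow]
    refine (d.natAbs_cf_pow_le prime_rootNegThree _).trans ?_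
    nlinarith
  · obtain ⟨π, -, -, hpe, hπ, hπ', hnd⟩ := exists_split hp h
    rw [d.cf_split_pow hpe hπ hnd, Int.natAbs_mul, sq]
    exact Nat.mul_le_mul (d.natAbs_cf_pow_le hπ k) (d.natAbs_cf_pow_le hπ' k)
  · exact (d.natAbs_cf_pow_le (prime_natCast_of_inert hp h) k).trans
      (Nat.le_self_pow (by norm_num) _)

theorem hasLocalBound : HasLocalBound d.coeffNat := fun p hp k => by
  rw [coeffNat_pow, ← Int.cast_abs, Int.abs_eq_natAbs]
  exact_mod_cast d.natAbs_cf_natPow_le hp k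

/-- The rational Euler factors are bounded below by `1/7` on `0 ≤ x ≤ 1/p`. -/
theorem one_seventh_le_factor {p : ℕ} (hp : p.Prime) {x : ℝ} (hx0 : 0 ≤ x) (hx : x ≤ 1 / p) :
    1 / 7 ≤ ∑' k, d.coeffNat (p ^ k) * x ^ k := by
  have hx2 : x ≤ 1 / 2 := hx.trans (by gcongr; exact_mod_cast hp.two_le)
  have hw := d.hasLocalBound p hp
  have h0 : d.coeffNat (p ^ 0) = 1 := by rw [pow_zero, d.coeffNat_one]
  have hlevel : (∀ k, d.coeffNat (p ^ (k + 1)) = 0) →
      1 / 7 ≤ ∑' k, d.coeffNat (p ^ k) * x ^ k := fun h => by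
    rw [tsum_eq_single 0 fun k hk => by
      obtain ⟨j, rfl⟩ := Nat.exists_eq_succ_of_ne_zero hk
      rw [h j, zero_mul], h0, pow_zero, one_mul]
    norm_num
  rcases prime_mod_three hp with rfl | h | h
  · by_cases hn : rootNegThree ∣ (n₀ : EisRing)
    · refine hlevel fun k => ?_
      rw [coeffNat_pow, d.cf_three_pow, show 2 * (k + 1) = 2 * k + 1 + 1 by ring,
        d.cf_pow_eq_zero prime_rootNegThree hn, Int.cast_zero]
    · have hr := d.cf_pow_rec prime_rootNegThree hn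
      have ha := d.natAbs_cf_le_two prime_rootNegThree
      have hb : |((d.cf rootNegThree : ℤ) : ℝ) ^ 2 - 2| ≤ 2 := by
        have e : |d.cf rootNegThree ^ 2 - 2| ≤ 2 := by
          rw [abs_le]; constructor <;> nlinarith [show -2 ≤ d.cf rootNegThree by omega,
            show d.cf rootNegThree ≤ 2 by omega]
        exact_mod_cast e
      refine one_seventh_le_local_rec hw hx0 hx2 _ hb h0 (fun k => ?_) ?_
      · simp only [coeffNat_pow, cf_three_pow]
        have e1 := hr (2 * k + 2)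
        have e2 := hr (2 * k + 1)
        have e3 := hr (2 * k)
        rw [show 2 * (k + 2) = 2 * k + 2 + 2 by ring, show 2 * (k + 1) = 2 * k + 2 by ring, e1]
        rw [show 2 * k + 2 + 1 = 2 * k + 1 + 2 by ring, e2, show 2 * k + 1 + 1 = 2 * k + 2 by ring]
        push_cast
        have e4 : (d.cf (rootNegThree ^ (2 * k + 2)) : ℝ) = (d.cf rootNegThree : ℝ) *
            d.cf (rootNegThree ^ (2 * k + 1)) - d.cf (rootNegThree ^ (2 * k)) := by
          exact_mod_cast e3
        linear_combination e4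
      · simp only [coeffNat_pow, cf_three_pow]
        have e1 := hr 0
        simp only [zero_add, pow_zero, pow_one, d.cf_one] at e1
        rw [show 2 * 1 = 2 from rfl, e1]
        push_cast
        ring_nf
        norm_num
  · have h7 : 7 ≤ p := by
      rcases Nat.lt_or_ge p 7 with h7 | h7
      · interval_cases p <;> first | omega | norm_num at hp
      · exact h7
    exact one_seventh_le_local_small hw hx0 hx2 h0 (hx.trans (by gcongr; exact_mod_cast h7))
  · have hπ := prime_natCast_of_inert hp h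
    by_cases hn : (p : EisRing) ∣ (n₀ : EisRing)
    · exact hlevel fun k => by rw [coeffNat_pow, d.cf_pow_eq_zero hπ hn, Int.cast_zero]
    · refine one_seventh_le_local_rec hw hx0 hx2 (d.cf (p : EisRing) : ℝ) ?_ h0 (fun k => ?_) ?_
      · rw [← Int.cast_abs]; exact_mod_cast (by
          rw [Int.abs_eq_natAbs]; exact_mod_cast d.natAbs_cf_le_two hπ :
          |d.cf (p : EisRing)| ≤ 2)
      · simp only [coeffNat_pow]; exact_mod_cast d.cf_pow_rec hπ hn k
      · rw [pow_one, coeffNat_eq, sub_self]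

theorem summable_coeff {s : ℝ} (hs : 1 < s) :
    Summable fun n : ℕ => |d.coeffNat n| * (n : ℝ) ^ (-s) :=
  summable_dirichlet d.coeffNat_zero d.coeffNat_one d.coeffNat_mul d.hasLocalBound hs

/-- The rational Dirichlet series dominates the exponential of its prime sum. -/
theorem exists_exp_le_series : ∃ C : ℝ, ∀ s : ℝ, 1 < s →
    (Summable fun p : Nat.Primes => d.coeffNat p * ((p : ℕ) : ℝ) ^ (-s)) ∧
    Real.exp ((∑' p : Nat.Primes, d.coeffNat p * ((p : ℕ) : ℝ) ^ (-s)) - C) ≤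
      ∑' n : ℕ, d.coeffNat n * (n : ℝ) ^ (-s) :=
  exists_exp_le_dirichlet d.coeffNat_zero d.coeffNat_one d.coeffNat_mul d.hasLocalBound
    fun _ hp _ hx0 hx => d.one_seventh_le_factor hp hx0 hx

end BianchiDatum

end Fermat.Agent.ResidualThree
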