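import Mathlib

/-!
# Sums over arithmetic progressions compared with integrals

Used for the lattice sums of `Asai.Lattice`.
-/

noncomputable section

open MeasureTheory Set Filter Topology Finset

namespace Fermat.Agent.ResidualThree

variable {h : ℝ → ℝ}

/-- On one step of a progression the integral lies between the two rectangles. -/
theorem progression_step (hanti : AntitoneOn h (Set.Ici 0))
    (hint : IntegrableOn h (Set.Ioi 0)) {u q : ℝ} (hu : 0 ≤ u) (hq : 0 ≤ q) :
    q * h (u + q) ≤ ∫ t in u..u + q, h t ∧ ∫ t in u..u + q, h t ≤ q * h u := by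
  have hle : u ≤ u + q := by linarith
  have hI : IntervalIntegrable h volume u (u + q) :=
    (intervalIntegrable_iff_integrableOn_Ioc_of_le hle).mpr
      (hint.mono_set fun t ht => Set.mem_Ioi.mpr (lt_of_le_of_lt hu ht.1))
  constructor
  · calc q * h (u + q) = ∫ _ in u..u + q, h (u + q) := by simp
      _ ≤ _ := intervalIntegral.integral_mono_on hle intervalIntegrable_const hI fun t ht =>
          hanti (Set.mem_Ici.mpr (hu.trans ht.1)) (Set.mem_Ici.mpr (by linarith)) ht.2
  · calc ∫ t in u..u + q, h t ≤ ∫ _ in u..u + q, h u :=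
          intervalIntegral.integral_mono_on hle hI intervalIntegrable_const fun t ht =>
            hanti (Set.mem_Ici.mpr hu) (Set.mem_Ici.mpr (hu.trans ht.1)) ht.1
      _ = q * h u := by simp

/-- A decreasing function sums over a progression to its integral over the step, up to `h 0`. -/
theorem progression_bound (h0 : ∀ t, 0 ≤ t → 0 ≤ h t) (hanti : AntitoneOn h (Set.Ici 0))
    (hint : IntegrableOn h (Set.Ioi 0)) {a q : ℝ} (hq : 0 < q) (ha : 0 ≤ a) (haq : a ≤ q) :
    (Summable fun n : ℕ => h (a + q * n)) ∧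
      |(∑' n : ℕ, h (a + q * n)) - (1 / q) * ∫ t in Set.Ioi 0, h t| ≤ h 0 := by
  have hI : ∀ {u v : ℝ}, 0 ≤ u → u ≤ v → IntervalIntegrable h volume u v := fun hu huv =>
    (intervalIntegrable_iff_integrableOn_Ioc_of_le huv).mpr
      (hint.mono_set fun t ht => Set.mem_Ioi.mpr (lt_of_le_of_lt hu ht.1))
  have hnn : ∀ n : ℕ, 0 ≤ a + q * n := fun n => by positivity
  have hadj : ∀ n : ℕ, ∑ k ∈ Finset.range n, ∫ t in (a + q * k)..(a + q * k) + q, h t =
      ∫ t in a..a + q * n, h t := by
    intro n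
    have hk := intervalIntegral.sum_integral_adjacent_intervals (n := n) (f := h) (μ := volume)
      (a := fun k : ℕ => a + q * k) fun k _ => hI (hnn k) (by push_cast; nlinarith)
    simp only [Nat.cast_zero, mul_zero, add_zero] at hk
    rw [← hk]
    exact Finset.sum_congr rfl fun k _ => by push_cast; ring_nf
  have hle : ∀ n : ℕ, ∫ t in a..a + q * n, h t ≤ ∫ t in Set.Ioi 0, h t := by
    intro n
    rw [intervalIntegral.integral_of_le (by have := hnn n; nlinarith [n.cast_nonneg (α := ℝ)])]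
    refine setIntegral_mono_set hint ?_
      (Eventually.of_forall fun t ht => Set.mem_Ioi.mpr (lt_of_le_of_lt ha ht.1))
    filter_upwards [ae_restrict_mem measurableSet_Ioi] with t ht using h0 t (le_of_lt ht)
  have hup : ∀ n : ℕ, q * ∑ k ∈ Finset.range n, h (a + q * ((k + 1 : ℕ) : ℝ)) ≤
      ∫ t in Set.Ioi 0, h t := by
    intro n
    refine le_trans ?_ (hle n)
    rw [Finset.mul_sum, ← hadj n]
    refine Finset.sum_le_sum fun k _ => ?_
    rw [show a + q * ((k + 1 : ℕ) : ℝ) = a + q * k + q by push_cast; ring]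
    exact (progression_step hanti hint (hnn k) hq.le).1
  have hsum1 : Summable fun k : ℕ => h (a + q * ((k + 1 : ℕ) : ℝ)) :=
    summable_of_sum_range_le (c := (1 / q) * ∫ t in Set.Ioi 0, h t) (fun k => h0 _ (hnn (k + 1)))
      fun n => by rw [one_div, le_inv_mul_iff₀ hq]; exact hup n
  have hsum : Summable fun n : ℕ => h (a + q * n) := (summable_nat_add_iff 1).mp hsum1
  refine ⟨hsum, abs_le.mpr ⟨?_, ?_⟩⟩
  · have hlim := intervalIntegral_tendsto_integral_Ioi a
      (hint.mono_set (Set.Ioi_subset_Ioi ha))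
      (tendsto_atTop_add_const_left atTop a
        (tendsto_natCast_atTop_atTop.const_mul_atTop hq))
    have hI1 : ∫ t in Set.Ioi a, h t ≤ q * ∑' n : ℕ, h (a + q * n) := by
      refine le_of_tendsto' hlim fun n => ?_
      rw [← hadj n, ← tsum_mul_left]
      refine le_trans (Finset.sum_le_sum fun k _ => (progression_step hanti hint (hnn k) hq.le).2)
        ((hsum.mul_left q).sum_le_tsum _ fun k _ => mul_nonneg hq.le (h0 _ (hnn k)))
    have hI0 : ∫ t in Set.Ioc 0 a, h t ≤ q * h 0 := by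
      have h1 := (progression_step hanti hint le_rfl ha).2
      rw [zero_add, intervalIntegral.integral_of_le ha] at h1
      exact h1.trans (mul_le_mul_of_nonneg_right haq (h0 0 le_rfl))
    have hsplit : ∫ t in Set.Ioi 0, h t =
        (∫ t in Set.Ioc 0 a, h t) + ∫ t in Set.Ioi a, h t := by
      rw [← Set.Ioc_union_Ioi_eq_Ioi ha]
      exact setIntegral_union Set.Ioc_disjoint_Ioi_same measurableSet_Ioi
        (hint.mono_set Set.Ioc_subset_Ioi_self) (hint.mono_set (Set.Ioi_subset_Ioi ha))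
    have : (1 / q) * ∫ t in Set.Ioi 0, h t ≤ h 0 + ∑' n : ℕ, h (a + q * n) := by
      rw [one_div, inv_mul_le_iff₀ hq, hsplit, mul_add]
      linarith
    linarith
  · have h1 : (∑' k : ℕ, h (a + q * ((k + 1 : ℕ) : ℝ))) ≤ (1 / q) * ∫ t in Set.Ioi 0, h t :=
      hsum1.tsum_le_of_sum_range_le fun n => by rw [one_div, le_inv_mul_iff₀ hq]; exact hup n
    rw [hsum.tsum_eq_zero_add]
    have h2 : h (a + q * ((0 : ℕ) : ℝ)) ≤ h 0 := by
      rw [Nat.cast_zero, mul_zero, add_zero]
      exact hanti (Set.mem_Ici.mpr le_rfl) (Set.mem_Ici.mpr ha) ha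
    exact sub_le_iff_le_add.mpr (add_le_add h2 h1)

/-- A two-sided progression. -/
theorem progression_bound_int (h0 : ∀ t, 0 ≤ t → 0 ≤ h t) (hanti : AntitoneOn h (Set.Ici 0))
    (hint : IntegrableOn h (Set.Ioi 0)) {q : ℝ} (hq : 0 < q) (c : ℝ) :
    (Summable fun j : ℤ => h |c + q * j|) ∧
      |(∑' j : ℤ, h |c + q * j|) - (2 / q) * ∫ t in Set.Ioi 0, h t| ≤ 2 * h 0 := by
  obtain ⟨a, ha, haq, i, rfl⟩ : ∃ a : ℝ, 0 ≤ a ∧ a ≤ q ∧ ∃ i : ℤ, c = a + q * i := by
    refine ⟨c - q * ⌊c / q⌋, ?_, ?_, ⌊c / q⌋, by ring⟩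
    · have := (le_div_iff₀ hq).mp (Int.floor_le (c / q)); linarith
    · have := (div_lt_iff₀ hq).mp (Int.lt_floor_add_one (c / q)); nlinarith
  obtain ⟨s1, b1⟩ := progression_bound h0 hanti hint hq ha haq
  obtain ⟨s2, b2⟩ := progression_bound h0 hanti hint hq (a := q - a) (by linarith) (by linarith)
  have e1 : ∀ n : ℕ, h |a + q * ((n : ℤ) : ℝ)| = h (a + q * n) := fun n => by
    rw [Int.cast_natCast, abs_of_nonneg (by positivity)]
  have e2 : ∀ n : ℕ, h |a + q * ((-(↑n + 1) : ℤ) : ℝ)| = h (q - a + q * n) := fun n => by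
    push_cast
    rw [abs_of_nonpos (by nlinarith [n.cast_nonneg (α := ℝ)])]
    ring_nf
  have hHas : HasSum (fun j : ℤ => h |a + q * j|)
      ((∑' n : ℕ, h (a + q * n)) + ∑' n : ℕ, h (q - a + q * n)) := by
    refine HasSum.of_nat_of_neg_add_one ?_ ?_
    · simpa only [e1] using s1.hasSum
    · simpa only [e2] using s2.hasSum
  have hHas2 : HasSum (fun j : ℤ => h |a + q * i + q * j|)
      ((∑' n : ℕ, h (a + q * n)) + ∑' n : ℕ, h (q - a + q * n)) := by
    have := (Equiv.addRight i).hasSum_iff.mpr hHas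
    refine this.congr_fun fun j => ?_
    simp only [Function.comp_apply, Equiv.coe_addRight]
    push_cast; ring_nf
  refine ⟨hHas2.summable, ?_⟩
  rw [hHas2.tsum_eq, show (2 / q) * ∫ t in Set.Ioi 0, h t =
    (1 / q) * (∫ t in Set.Ioi 0, h t) + (1 / q) * ∫ t in Set.Ioi 0, h t by ring]
  obtain ⟨x1, x2⟩ := abs_le.mp b1
  obtain ⟨y1, y2⟩ := abs_le.mp b2
  exact abs_le.mpr ⟨by linarith, by linarith⟩

/-- `j ↦ v.val + N * j` parametrises the residue class of `v`. -/
theorem residueClass_param (N : ℕ) [NeZero N] (v : ZMod N) :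
    Function.Injective (fun j : ℤ => (v.val : ℤ) + N * j) ∧
      Set.range (fun j : ℤ => (v.val : ℤ) + N * j) = {k : ℤ | (k : ZMod N) = v} := by
  refine ⟨fun a b e => mul_left_cancel₀ (Int.natCast_ne_zero.mpr (NeZero.ne N))
    (add_left_cancel e), ?_⟩
  ext k
  constructor
  · rintro ⟨j, rfl⟩
    simp
  · intro hk
    obtain ⟨j, hj⟩ : (N : ℤ) ∣ k - (v.val : ℤ) := by
      rw [← ZMod.intCast_zmod_eq_zero_iff_dvd]
      push_cast
      rw [show (k : ZMod N) = v from hk, ZMod.natCast_zmod_val, sub_self]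
    exact ⟨j, by simp only; omega⟩

/-- Parametrisation of a residue class of integers. -/
theorem tsum_residue_class (N : ℕ) [NeZero N] (v : ZMod N) (f : ℤ → ℝ) :
    (∑' k : ℤ, if (k : ZMod N) = v then f k else 0) = ∑' j : ℤ, f (v.val + N * j) := by
  obtain ⟨hi, hr⟩ := residueClass_param N v
  rw [← hi.tsum_eq (f := fun k : ℤ => if (k : ZMod N) = v then f k else 0)]
  · exact tsum_congr fun j => if_pos (by simp)
  · rw [hr]
    intro k hk
    by_contra hkv
    exact hk (if_neg hkv)

theorem summable_residue_class (N : ℕ) [NeZero N] (v : ZMod N) (f : ℤ → ℝ)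
    (hf : Summable fun j : ℤ => f (v.val + N * j)) :
    Summable fun k : ℤ => if (k : ZMod N) = v then f k else 0 := by
  obtain ⟨hi, hr⟩ := residueClass_param N v
  rw [← hi.summable_iff fun k hk => if_neg (by rw [hr] at hk; exact hk)]
  exact hf.congr fun j => (if_pos (by simp)).symm

end Fermat.Agent.ResidualThree
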