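import Fermat.Agent.ResidualThree.Asai.MeanSquare

/-!
# The squared coefficients at split primes have density at most one

Against the density of the split classes this forces the rational series to diverge.
-/

noncomputable section

open Finset Filter Topology

namespace Fermat.Agent.ResidualThree

open EisRing

local notation "Γℚ" => (AlgebraicClosure ℚ ≃ₐ[ℚ] AlgebraicClosure ℚ)

namespace BianchiDatum

variable {ρ : Γℚ →* GL (Fin 2) (ZMod 3)} {n₀ : ℕ} (d : BianchiDatum ρ n₀)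

/-- The chosen prime element above a split prime (`1` otherwise). -/
def splitElt (p : ℕ) : EisRing :=
  if h : p.Prime ∧ p % 3 = 1 then (exists_split h.1 h.2).choose else 1

theorem splitElt_spec {p : ℕ} (hp : p.Prime) (h1 : p % 3 = 1) :
    (pair (splitElt p)).norm = p ∧ (pair (star (splitElt p))).norm = p ∧
      (p : EisRing) = splitElt p * star (splitElt p) ∧ Prime (splitElt p) ∧
      Prime (star (splitElt p)) ∧ ¬ splitElt p ∣ star (splitElt p) := by
  rw [splitElt, dif_pos ⟨hp, h1⟩]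
  exact (exists_split hp h1).choose_spec

/-- The square sum at a split prime. -/
def splitSq (p : Nat.Primes) : ℝ :=
  if (p : ℕ) % 3 = 1 then
    (d.cf (splitElt p) : ℝ) ^ 2 + (d.cf (star (splitElt p)) : ℝ) ^ 2
  else 0

theorem cf_prod {T : Finset EisRing} (hT : ∀ π ∈ T, Prime π)
    (hne : ∀ π ∈ T, ∀ π' ∈ T, π ≠ π' → ¬ π ∣ π') :
    d.cf (∏ π ∈ T, π) = ∏ π ∈ T, d.cf π := by
  classical
  induction T using Finset.induction with
  | empty => simp [d.cf_one]
  | @insert π T hπ ih =>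
    rw [Finset.prod_insert hπ, Finset.prod_insert hπ,
      d.cf_prime_mul (hT π (Finset.mem_insert_self _ _)),
      ih (fun x hx => hT x (Finset.mem_insert_of_mem hx))
        (fun a ha b hb => hne a (Finset.mem_insert_of_mem ha) b (Finset.mem_insert_of_mem hb))]
    intro hdvd
    obtain ⟨π', hπ', h⟩ := (hT π (Finset.mem_insert_self _ _)).exists_mem_finset_dvd hdvd
    exact hne π (Finset.mem_insert_self _ _) π' (Finset.mem_insert_of_mem hπ')
      (fun e => hπ (e ▸ hπ')) h

theorem norm_pair_prod (T : Finset EisRing) :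
    (pair (∏ π ∈ T, π)).norm = ∏ π ∈ T, (pair π).norm := by
  classical
  induction T using Finset.induction with
  | empty => rfl
  | @insert π T hπ ih => rw [Finset.prod_insert hπ, Finset.prod_insert hπ, norm_pair_mul, ih]

/-- Partial Euler products of the squared coefficients are `O(1/(s-1))`. -/
theorem exists_prod_le (hn : 0 < n₀) : ∃ K : ℝ, 0 < K ∧ ∀ s : ℝ, 1 < s → s ≤ 2 →
    ∀ T : Finset EisRing, (∀ π ∈ T, Prime π) → (∀ π ∈ T, ∀ π' ∈ T, π ≠ π' → ¬ π ∣ π') →
      ∏ π ∈ T, (1 + (d.cf π : ℝ) ^ 2 * ((pair π).norm : ℝ) ^ (-s)) ≤ K / (s - 1) := by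
  classical
  obtain ⟨K, hK, h⟩ := d.exists_sum_sq_rpow_le hn
  refine ⟨K, hK, fun s hs hs2 T hT hne => ?_⟩
  rw [Finset.prod_one_add]
  have hinj : Set.InjOn (fun U : Finset EisRing => ∏ π ∈ U, π) ↑T.powerset := by
    intro U hU V hV e
    simp only [Finset.coe_powerset, Set.mem_preimage, Set.mem_powerset_iff,
      Finset.coe_subset] at hU hV
    have key : ∀ {U V : Finset EisRing}, U ⊆ T → V ⊆ T → (∏ π ∈ U, π) = ∏ π ∈ V, π → U ⊆ V := by
      intro U V hU hV e π hπ
      obtain ⟨π', hπ', hd⟩ := (hT π (hU hπ)).exists_mem_finset_dvd (f := fun x : EisRing => x)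
        (s := V) (e ▸ Finset.dvd_prod_of_mem _ hπ)
      by_contra hc
      exact hne π (hU hπ) π' (hV hπ') (fun e' => hc (e' ▸ hπ')) hd
    exact Finset.Subset.antisymm (key hU hV e) (key hV hU e.symm)
  have hterm : ∀ U ∈ T.powerset, ∏ π ∈ U, (d.cf π : ℝ) ^ 2 * ((pair π).norm : ℝ) ^ (-s) =
      (d.cf (∏ π ∈ U, π) : ℝ) ^ 2 * ((pair (∏ π ∈ U, π)).norm : ℝ) ^ (-s) := by
    intro U hU
    rw [Finset.mem_powerset] at hU
    rw [d.cf_prod (fun π hπ => hT π (hU hπ)) (fun a ha b hb => hne a (hU ha) b (hU hb)),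
      norm_pair_prod, Finset.prod_mul_distrib, Int.cast_prod, Finset.prod_pow, Nat.cast_prod,
      ← Real.finsetProd_rpow _ _ fun i _ => Nat.cast_nonneg _]
  rw [Finset.sum_congr rfl hterm]
  refine le_of_eq_of_le ?_ (h s hs hs2 (T.powerset.image fun U => ∏ π ∈ U, π))
  rw [Finset.sum_image hinj]

/-- The squared coefficients at split primes have density at most one. -/
theorem exists_splitSq_sum_le (hn : 0 < n₀) : ∃ C : ℝ, ∀ s : ℝ, 1 < s → s ≤ 2 →
    (Summable fun p : Nat.Primes => d.splitSq p * ((p : ℕ) : ℝ) ^ (-s)) ∧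
    ∑' p : Nat.Primes, d.splitSq p * ((p : ℕ) : ℝ) ^ (-s) ≤ Real.log (s - 1)⁻¹ + C := by
  classical
  obtain ⟨K, hK, h⟩ := d.exists_prod_le hn
  refine ⟨Real.log K + 32 * ∑' p : Nat.Primes, (((p : ℕ) : ℝ) ^ 2)⁻¹, fun s hs hs2 => ?_⟩
  have hnn : ∀ p : Nat.Primes, 0 ≤ d.splitSq p * ((p : ℕ) : ℝ) ^ (-s) := fun p => by
    unfold splitSq; split_ifs <;> positivity
  have key : ∀ P : Finset Nat.Primes, ∑ p ∈ P, d.splitSq p * ((p : ℕ) : ℝ) ^ (-s) ≤
      Real.log (s - 1)⁻¹ + (Real.log K + 32 * ∑' p : Nat.Primes, (((p : ℕ) : ℝ) ^ 2)⁻¹) := by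
    intro P
    set P' := P.filter fun p : Nat.Primes => (p : ℕ) % 3 = 1
    set e : Nat.Primes × Bool → EisRing := fun q => cond q.2 (splitElt q.1) (star (splitElt q.1))
    have hspec : ∀ q ∈ P' ×ˢ (Finset.univ : Finset Bool),
        Prime (e q) ∧ (pair (e q)).norm = (q.1 : ℕ) := by
      rintro ⟨p, b⟩ hq
      simp only [P', Finset.mem_product, Finset.mem_filter] at hq
      obtain ⟨h1, h2, -, h4, h5, -⟩ := splitElt_spec p.2 hq.1.2
      cases b
      · exact ⟨h5, h2⟩
      · exact ⟨h4, h1⟩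
    have hdvd : ∀ q ∈ P' ×ˢ (Finset.univ : Finset Bool), ∀ q' ∈ P' ×ˢ (Finset.univ : Finset Bool),
        e q ∣ e q' → q = q' := by
      intro q hq q' hq' hdiv
      obtain ⟨hq1, hq2⟩ := hspec q hq
      obtain ⟨hq1', hq2'⟩ := hspec q' hq'
      have hass := (hq1.dvd_prime_iff_associated hq1').mp hdiv
      obtain ⟨u, hu⟩ := hass
      have hn' : (pair (e q')).norm = (pair (e q)).norm := by
        rw [← hu, norm_pair_mul, isUnit_iff.mp u.isUnit, mul_one]
      have hp : q.1 = q'.1 := Subtype.ext (by rw [← hq2, ← hq2', hn'])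
      simp only [P', Finset.mem_product, Finset.mem_filter] at hq
      obtain ⟨-, -, -, -, -, hnd⟩ := splitElt_spec q.1.2 hq.1.2
      obtain ⟨p, b⟩ := q
      obtain ⟨p', b'⟩ := q'
      subst hp
      cases b <;> cases b'
      · rfl
      · exact absurd (⟨↑u⁻¹, (Units.eq_mul_inv_iff_mul_eq u).mpr hu⟩ :
        splitElt p ∣ star (splitElt p)) hnd
      · exact absurd hdiv hnd
      · rfl
    have hinj : Set.InjOn e ↑(P' ×ˢ (Finset.univ : Finset Bool)) := fun q hq q' hq' he =>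
      hdvd q hq q' hq' (he ▸ dvd_rfl)
    have hh := h s hs hs2 ((P' ×ˢ Finset.univ).image e) (fun π hπ => by
        obtain ⟨q, hq, rfl⟩ := Finset.mem_image.mp hπ; exact (hspec q hq).1)
      (fun π hπ π' hπ' hne hd => by
        obtain ⟨q, hq, rfl⟩ := Finset.mem_image.mp hπ
        obtain ⟨q', hq', rfl⟩ := Finset.mem_image.mp hπ'
        exact hne (congrArg e (hdvd q hq q' hq' hd)))
    rw [Finset.prod_image hinj] at hh
    set u : Nat.Primes × Bool → ℝ := fun q => (d.cf (e q) : ℝ) ^ 2 * ((pair (e q)).norm : ℝ) ^ (-s)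
    have hu0 : ∀ q, 0 ≤ u q := fun q => by positivity
    have hlog := Real.log_le_log (Finset.prod_pos fun q _ => by have := hu0 q; positivity) hh
    rw [Real.log_prod (fun q _ => by have := hu0 q; positivity), div_eq_mul_inv,
      Real.log_mul hK.ne' (inv_ne_zero (by linarith))] at hlog
    have hbd : ∀ q ∈ P' ×ˢ (Finset.univ : Finset Bool),
        u q - 16 * (((q.1 : ℕ) : ℝ) ^ 2)⁻¹ ≤ Real.log (1 + u q) := by
      intro q hq
      obtain ⟨hprime, hnorm⟩ := hspec q hq
      have hu : 0 < 1 + u q := by have := hu0 q; positivity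
      have h1 : u q - u q ^ 2 ≤ Real.log (1 + u q) := by
        refine le_trans ?_ (sub_sq_div_le_log_one_add hu)
        have := inv_le_one_of_one_le₀ (show 1 ≤ 1 + u q by linarith [hu0 q])
        nlinarith [sq_nonneg (u q)]
      obtain ⟨hx0, hxp, -⟩ := prime_rpow_bounds q.1.2 hs
      have h2 : u q ≤ 4 * (1 / ((q.1 : ℕ) : ℝ)) := by
        simp only [u, hnorm]
        have hc := d.natAbs_cf_le_two hprime
        have : (d.cf (e q) : ℝ) ^ 2 ≤ 4 := by
          have : d.cf (e q) ^ 2 ≤ 4 := by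
            nlinarith [show -2 ≤ d.cf (e q) by omega, show d.cf (e q) ≤ 2 by omega]
          exact_mod_cast this
        exact mul_le_mul this hxp hx0 (by norm_num)
      have h3 : u q ^ 2 ≤ 16 * (((q.1 : ℕ) : ℝ) ^ 2)⁻¹ := by
        calc u q ^ 2 ≤ (4 * (1 / ((q.1 : ℕ) : ℝ))) ^ 2 := pow_le_pow_left₀ (hu0 q) h2 2
          _ = _ := by ring
      linarith
    have hsum := (Finset.sum_le_sum hbd).trans hlog
    rw [Finset.sum_sub_distrib, Finset.sum_product, Finset.sum_product] at hsum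
    simp only [Fintype.sum_bool] at hsum
    have hlhs : ∑ p ∈ P, d.splitSq p * ((p : ℕ) : ℝ) ^ (-s) =
        ∑ p ∈ P', (u (p, true) + u (p, false)) := by
      rw [Finset.sum_filter]
      refine Finset.sum_congr rfl fun p _ => ?_
      unfold splitSq
      split_ifs with hp
      · obtain ⟨h1, h2, -⟩ := splitElt_spec p.2 hp
        simp only [u, e, Bool.cond_true, Bool.cond_false, h1, h2]
        ring
      · simp
    have hrhs : ∑ p ∈ P', (16 * (((p : ℕ) : ℝ) ^ 2)⁻¹ + 16 * (((p : ℕ) : ℝ) ^ 2)⁻¹) ≤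
        32 * ∑' p : Nat.Primes, (((p : ℕ) : ℝ) ^ 2)⁻¹ := by
      rw [← tsum_mul_left]
      refine le_of_eq_of_le (Finset.sum_congr rfl fun p _ => by ring)
        ((summable_primes_inv_sq.mul_left 32).sum_le_tsum P' fun p _ => by positivity)
    linarith
  exact ⟨summable_of_sum_le hnn key, Real.tsum_le_of_sum_le hnn key⟩

end BianchiDatum

end Fermat.Agent.ResidualThree
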