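import Fermat.Agent.Gal.Density
import Fermat.Agent.ResidualThree.Asai.Split
import Fermat.Agent.ResidualThree.Galois.Group

/-!
# The rational series diverges at `s = 1`

With `Asai.Unfold` this shows that the period does not vanish.
-/

noncomputable section

open Finset Filter Topology

namespace Fermat.Agent.ResidualThree

open EisRing
open scoped Pointwise

local notation "Qbar" => AlgebraicClosure ℚ
local notation "Γℚ" => (AlgebraicClosure ℚ ≃ₐ[ℚ] AlgebraicClosure ℚ)
local notation "G48" => GL (Fin 2) (ZMod 3)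
local notation "M2" => Matrix (Fin 2) (Fin 2) (ZMod 3)

/-- An opaque enumeration of `GL₂(𝔽₃)`, avoiding evaluation of the computable one. -/
@[implicit_reducible]
def glThreeFintype : Fintype G48 := Fintype.ofFinite _

attribute [local instance high] glThreeFintype

variable {ρ : Γℚ →* GL (Fin 2) (ZMod 3)}

theorem det_frobenius (hdet : ∀ σ : Γℚ, Matrix.GeneralLinearGroup.det (ρ σ) =
      WeierstrassCurve.modThreeCyclotomicChar σ)
    {ℓ : ℕ} (hℓ : ℓ.Prime) (h3 : ℓ ≠ 3) {A : ValuationSubring Qbar} (hA : A.LiesOverPrime ℓ)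
    {σ : Γℚ} (hσ : A.IsFrobeniusAt σ ℓ) : (ρ σ : M2).det = (ℓ : ZMod 3) := by
  rw [← Matrix.GeneralLinearGroup.val_det_apply, hdet,
    WeierstrassCurve.modThreeCyclotomicChar_apply]
  refine (modularCyclotomicCharacter.unique Qbar _ _ fun t ht => ?_).symm
  have htn : (t : Qbar) ^ 3 = 1 := by
    rw [← Units.val_pow_eq_pow_val, (mem_rootsOfUnity 3 t).mp ht, Units.val_one]
  show σ (t : Qbar) = _
  rw [Gal.isFrobeniusAt_rootOfUnity hℓ hA hσ
    (fun hd => h3 ((Nat.prime_dvd_prime_iff_eq hℓ Nat.prime_three).mp hd)) htn, ZMod.val_natCast]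
  exact pow_eq_pow_mod _ htn

/-- A continuous representation has finite level. -/
theorem exists_finite_level (hρ : Continuous ρ) :
    ∃ L : IntermediateField ℚ Qbar, FiniteDimensional ℚ L ∧
      ∀ u v : Γℚ, (∀ x ∈ L, u x = v x) → ρ u = ρ v := by
  have h1 : (ρ ⁻¹' {1}) ∈ 𝓝 (1 : Γℚ) :=
    ((isOpen_discrete _).preimage hρ).mem_nhds (by simp)
  obtain ⟨L, hL, hsub⟩ := (krullTopology_mem_nhds_one_iff ℚ Qbar _).mp h1
  refine ⟨L, hL, fun u v huv => ?_⟩
  have hmem : v⁻¹ * u ∈ L.fixingSubgroup := by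
    rw [IntermediateField.mem_fixingSubgroup_iff]
    intro x hx
    rw [AlgEquiv.mul_apply, huv x hx]
    exact v.symm_apply_apply x
  have h2 : ρ (v⁻¹ * u) = 1 := hsub hmem
  rw [show u = v * (v⁻¹ * u) by rw [mul_inv_cancel_left], map_mul, h2, mul_one]

/-- The preimage of `Y` under a surjective homomorphism of finite groups. -/
theorem card_preimage_mul_card {G H : Type*} [Group G] [Group H] [Fintype G] [Fintype H]
    [DecidableEq H] (r : G →* H) (hr : Function.Surjective r) (Y : Finset H) :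
    (Finset.univ.filter fun g => r g ∈ Y).card * Nat.card H = Y.card * Nat.card G := by
  have hfib : ∀ y, (Finset.univ.filter fun g => r g = y).card =
      (Finset.univ.filter fun g => r g = 1).card := fun y =>
    MonoidHom.card_fiber_eq_of_mem_range r (hr y) (hr 1)
  have key : ∀ Z : Finset H, (Finset.univ.filter fun g => r g ∈ Z).card =
      Z.card * (Finset.univ.filter fun g => r g = 1).card := fun Z => by
    rw [Finset.card_eq_sum_card_fiberwise (s := Finset.univ.filter fun g => r g ∈ Z)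
      (f := fun g : G => r g) (t := Z) fun g hg => (Finset.mem_filter.mp hg).2,
      ← smul_eq_mul, ← Finset.sum_const]
    refine Finset.sum_congr rfl fun y hy => ?_
    rw [← hfib y, Finset.filter_filter]
    exact congrArg Finset.card (Finset.filter_congr fun g _ =>
      ⟨fun h => h.2, fun h => ⟨h ▸ hy, h⟩⟩)
  have hG : Fintype.card G = Fintype.card H * (Finset.univ.filter fun g => r g = 1).card := by
    simpa using key Finset.univ
  rw [key Y, Nat.card_eq_fintype_card, Nat.card_eq_fintype_card (α := G), hG]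
  ring

/-- The density of a union of conjugacy classes closed under changing generators. -/
theorem hasDens_classSet (hρ : Continuous ρ) (hsurj : Function.Surjective ρ)
    (A : Nat.Primes → ValuationSubring Qbar) (σ : Nat.Primes → Γℚ)
    (hA : ∀ ℓ, (A ℓ).LiesOverPrime ℓ) (hσ : ∀ ℓ, (A ℓ).IsFrobeniusAt (σ ℓ) ℓ)
    (Y : Finset G48) (hconj : ∀ g ∈ Y, ∀ x : G48, x⁻¹ * g * x ∈ Y)
    (hgen : ∀ g ∈ Y, ∀ h : G48, h ∈ Subgroup.zpowers g → g ∈ Subgroup.zpowers h → h ∈ Y) :
    Gal.HasDens (fun ℓ => if ρ (σ ℓ) ∈ Y then 1 else 0) ((Y.card : ℝ) / 48) := by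
  classical
  obtain ⟨L, hL, hlevel⟩ := exists_finite_level hρ
  let N := IntermediateField.normalClosure ℚ L Qbar
  have : Normal ℚ N := normalClosure.normal ℚ L Qbar
  have : IsGalois ℚ N := ⟨⟩
  let π := AlgEquiv.restrictNormalHom (F := ℚ) (K₁ := Qbar) N
  have hπ : Function.Surjective π := AlgEquiv.restrictNormalHom_surjective (E := Qbar)
  have key : ∀ u v : Γℚ, π u = π v → ρ u = ρ v := fun u v huv => hlevel u v fun z hz => by
    have hzN : z ∈ N := L.le_normalClosure hz
    rw [← show ((π u ⟨z, hzN⟩ : N) : Qbar) = u z from u.restrictNormal_commutes N ⟨z, hzN⟩,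
      ← show ((π v ⟨z, hzN⟩ : N) : Qbar) = v z from v.restrictNormal_commutes N ⟨z, hzN⟩, huv]
  let r : Gal(N/ℚ) →* G48 := MonoidHom.mk' (fun g => ρ (Function.surjInv hπ g)) fun a b => by
    rw [← map_mul ρ]
    exact key _ _ (by simp only [map_mul, Function.surjInv_eq hπ])
  have hr : ∀ u, r (π u) = ρ u := fun u => key _ _ (Function.surjInv_eq hπ _)
  have hrs : Function.Surjective r := fun g => by
    obtain ⟨u, rfl⟩ := hsurj g; exact ⟨π u, hr u⟩
  set X : Finset Gal(N/ℚ) := Finset.univ.filter fun g => r g ∈ Y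
  set T := X.image Subgroup.zpowers
  have hXmem : ∀ h : Gal(N/ℚ), Subgroup.zpowers h ∈ T ↔ h ∈ X := by
    intro h
    refine ⟨fun hh => ?_, Finset.mem_image_of_mem _⟩
    obtain ⟨g, hg, hgh⟩ := Finset.mem_image.mp hh
    simp only [X, Finset.mem_filter, Finset.mem_univ, true_and] at hg ⊢
    refine hgen _ hg _ ?_ ?_
    · rw [← MonoidHom.map_zpowers]
      exact Subgroup.mem_map_of_mem _ (hgh ▸ Subgroup.mem_zpowers h)
    · rw [← MonoidHom.map_zpowers]
      exact Subgroup.mem_map_of_mem _ (hgh ▸ Subgroup.mem_zpowers g)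
  have hsum := Gal.hasDens_sum T fun D _ => Gal.hasDens_genCount N A σ hA hσ D
  have hG0 : (Nat.card Gal(N/ℚ) : ℝ) ≠ 0 := Nat.cast_ne_zero.mpr Nat.card_pos.ne'
  have hu : ∀ ℓ, ∑ D ∈ T, (Gal.genCount N (π (σ ℓ)) D : ℝ) =
      (Nat.card Gal(N/ℚ) : ℝ) * if ρ (σ ℓ) ∈ Y then 1 else 0 := by
    intro ℓ
    simp only [Gal.genCount, Nat.card_eq_fintype_card, Fintype.card_subtype]
    rw [← Nat.cast_sum]
    have hfib := Finset.card_eq_sum_card_fiberwise (f := fun x : Gal(N/ℚ) =>
      Subgroup.zpowers (x⁻¹ * π (σ ℓ) * x)) (s := Finset.univ.filter fun x : Gal(N/ℚ) =>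
        Subgroup.zpowers (x⁻¹ * π (σ ℓ) * x) ∈ T) (t := T) (fun x hx => by simpa using hx)
    rw [Finset.sum_congr rfl fun D hD => congrArg Finset.card (?_ :
      (Finset.univ.filter fun x : Gal(N/ℚ) => Subgroup.zpowers (x⁻¹ * π (σ ℓ) * x) = D) =
        (Finset.univ.filter fun x : Gal(N/ℚ) => Subgroup.zpowers (x⁻¹ * π (σ ℓ) * x) ∈ T).filter
          fun x => Subgroup.zpowers (x⁻¹ * π (σ ℓ) * x) = D), ← hfib]
    · have hiff : ∀ x : Gal(N/ℚ), Subgroup.zpowers (x⁻¹ * π (σ ℓ) * x) ∈ T ↔ ρ (σ ℓ) ∈ Y := by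
        intro x
        rw [hXmem]
        simp only [X, Finset.mem_filter, Finset.mem_univ, true_and, map_mul, map_inv, hr]
        refine ⟨fun h => ?_, fun h => hconj _ h _⟩
        have h2 := hconj _ h (r x)⁻¹
        rwa [inv_inv, ← mul_assoc, ← mul_assoc, mul_inv_cancel, one_mul, mul_assoc,
          mul_inv_cancel, mul_one] at h2
      rw [Finset.filter_congr fun x _ => hiff x]
      split_ifs with h <;> simp [h]
    · ext x
      simp only [Finset.mem_filter, Finset.mem_univ, true_and]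
      exact ⟨fun h => ⟨h ▸ hD, h⟩, fun h => h.2⟩
  have hc : ∑ D ∈ T, (Gal.generatorCount N D : ℝ) = X.card := by
    simp only [Gal.generatorCount, Nat.card_eq_fintype_card, Fintype.card_subtype]
    rw [← Nat.cast_sum]
    congr 1
    rw [Finset.card_eq_sum_card_fiberwise (f := fun h : Gal(N/ℚ) => Subgroup.zpowers h) (s := X)
      (t := T) (fun h hh => (hXmem h).mpr hh)]
    refine Finset.sum_congr rfl fun D hD => congrArg Finset.card ?_
    ext h
    simp only [Finset.mem_filter, Finset.mem_univ, true_and]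
    exact ⟨fun e => ⟨(hXmem h).mp (e ▸ hD), e⟩, fun e => e.2⟩
  have hcard : X.card * 48 = Y.card * Nat.card Gal(N/ℚ) := by
    rw [← card_gl_three]
    exact card_preimage_mul_card r hrs Y
  have hmain := hsum.const_mul (1 / (Nat.card Gal(N/ℚ) : ℝ))
  rw [hc] at hmain
  convert hmain using 1
  · funext ℓ
    rw [hu, ← mul_assoc, one_div_mul_cancel hG0, one_mul]
  · have : (X.card : ℝ) * 48 = Y.card * Nat.card Gal(N/ℚ) := by exact_mod_cast hcard
    field_simp
    linarith

/-- `±1`. -/
def centreSet : Finset G48 := Finset.univ.filter fun g => (g : M2) = 1 ∨ (g : M2) = -1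

/-- The elements of determinant `-1` and trace `0`. -/
def reflSet : Finset G48 := Finset.univ.filter fun g => (g : M2).det = -1 ∧ (g : M2).trace = 0

theorem mem_centreSet {g : G48} : g ∈ centreSet ↔ g = 1 ∨ g = -1 := by
  rw [centreSet, Finset.mem_filter]
  refine ⟨fun h => ?_, fun h => ⟨Finset.mem_univ _, ?_⟩⟩
  · exact h.2.imp (fun e => Units.ext e) (fun e => Units.ext e)
  · exact h.imp (fun e => by rw [e]; rfl) (fun e => by rw [e]; rfl)

theorem mem_reflSet {g : G48} : g ∈ reflSet ↔ (g : M2).det = -1 ∧ (g : M2).trace = 0 := by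
  simp [reflSet]

theorem card_centreSet : centreSet.card = 2 := by
  have e : centreSet = {1, -1} := by ext g; simp [mem_centreSet]
  rw [e, Finset.card_pair]
  rw [ne_eq, Units.ext_iff, Units.val_one, Units.val_neg, Units.val_one]
  decide

theorem card_reflSet : reflSet.card = 12 := by
  rw [reflSet, ← Fintype.card_subtype, ← Nat.card_eq_fintype_card,
    Nat.card_congr (glEquivQuad.subtypeEquiv (q := fun t =>
      t.1.1 * t.1.2.2.2 - t.1.2.1 * t.1.2.2.1 = -1 ∧
      t.1.1 + t.1.2.2.2 = 0) fun g => by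
        rw [Matrix.det_fin_two, Matrix.trace_fin_two]; rfl),
    Nat.card_eq_fintype_card]
  decide

/-- The square of a matrix of determinant `-1` is never `-1`, and is `1` when the trace is `0`. -/
theorem sq_entries_of_det_eq_neg_one (a b c e : ZMod 3) (h : a * e - b * c = -1) :
    ¬ (a * a + b * c = -1 ∧ a * b + b * e = 0 ∧ c * a + e * c = 0 ∧ c * b + e * e = -1) ∧
    (a + e = 0 →
      a * a + b * c = 1 ∧ a * b + b * e = 0 ∧ c * a + e * c = 0 ∧ c * b + e * e = 1) := by
  revert a b c e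
  decide

theorem sq_reflection {g : G48} (h : g ∈ reflSet) : g ^ 2 = 1 := by
  rw [mem_reflSet, Matrix.det_fin_two, Matrix.trace_fin_two] at h
  obtain ⟨h1, h2, h3, h4⟩ := (sq_entries_of_det_eq_neg_one _ _ _ _ h.1).2 h.2
  refine Units.ext ?_
  rw [sq, Units.val_mul, Units.val_one]
  ext i j
  fin_cases i <;> fin_cases j <;> simp [Matrix.mul_apply, Fin.sum_univ_two] <;> assumption

theorem quatTrace_sq_nonneg {g : G48} (h : (g : M2).det = -1) : 0 ≤ quatTrace (g ^ 2) := by
  rw [quatTrace]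
  split_ifs with h1 h2
  · norm_num
  · exfalso
    rw [Matrix.det_fin_two] at h
    refine (sq_entries_of_det_eq_neg_one _ _ _ _ h).1 ?_
    rw [sq, Units.val_mul] at h2
    have e := fun i j => congrFun (congrFun h2 i) j
    refine ⟨?_, ?_, ?_, ?_⟩
    · simpa [Matrix.mul_apply, Fin.sum_univ_two] using e 0 0
    · simpa [Matrix.mul_apply, Fin.sum_univ_two] using e 0 1
    · simpa [Matrix.mul_apply, Fin.sum_univ_two] using e 1 0
    · simpa [Matrix.mul_apply, Fin.sum_univ_two] using e 1 1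
  · rfl

namespace BianchiDatum

variable {n₀ : ℕ} (d : BianchiDatum ρ n₀)

/-- At a good prime the coefficient and half the split square dominate the indicators of the two
classes, weighted by eight and two. -/
theorem eight_centre_add_two_refl_le (hdet : ∀ σ : Γℚ, Matrix.GeneralLinearGroup.det (ρ σ) =
      WeierstrassCurve.modThreeCyclotomicChar σ)
    {p : Nat.Primes} (hS1 : (p : ℕ) ∉ d.S) (h3 : (p : ℕ) ≠ 3) {A : ValuationSubring Qbar}
    (hA : A.LiesOverPrime p) {σ : Γℚ} (hσ : A.IsFrobeniusAt σ p) :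
    8 * (if ρ σ ∈ centreSet then (1 : ℝ) else 0) + 2 * (if ρ σ ∈ reflSet then 1 else 0) ≤
      d.coeffNat p + d.splitSq p / 2 := by
  classical
  have hdg := det_frobenius hdet p.2 h3 (hA) (hσ)
  rcases (prime_mod_three p.2).resolve_left h3 with h | h
  · obtain ⟨e1, e2, e3, e4, e5, e6⟩ := splitElt_spec p.2 h
    have hp1 : (p : ZMod 3) = 1 := by rw [← ZMod.natCast_mod, h]; rfl
    have hval := d.coeffNat_split e3 e4 e6
    have hsq :
        d.splitSq p = (d.cf (splitElt p) : ℝ) ^ 2 + (d.cf (star (splitElt p)) : ℝ) ^ 2 := by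
      rw [splitSq, if_pos h]
    have hr : ρ (σ) ∉ reflSet := fun hr => by
      rw [mem_reflSet, hdg, hp1] at hr; exact absurd hr.1 (by decide)
    rw [if_neg hr, hval, hsq]
    by_cases hc : ρ (σ) ∈ centreSet
    · have h4 : ρ (σ) ^ 4 = 1 := by
        rcases mem_centreSet.mp hc with e | e <;> rw [e]
        · exact one_pow 4
        · exact Even.neg_one_pow (by decide)
      have c1 : d.cf (splitElt p) = quatTrace (ρ (σ)) :=
        (d.c_split p p.2 hS1 h _ e1 (A) (hA) (σ) (hσ)).2.1 h4
      have c2 : d.cf (star (splitElt p)) = quatTrace (ρ (σ)) :=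
        (d.c_split p p.2 hS1 h _ e2 (A) (hA) (σ) (hσ)).2.1 h4
      have q2 : (quatTrace (ρ (σ)) : ℝ) ^ 2 = 4 := by
        rcases mem_centreSet.mp hc with e | e <;> rw [e, quatTrace]
        · norm_num
        · rw [if_neg (fun h' => by
            have h'' := congrArg (fun g : G48 => (g : M2) 0 0) h'
            revert h''; decide), if_pos (by simp)]
          norm_num
      rw [if_pos hc, c1, c2]
      nlinarith
    · rw [if_neg hc]
      nlinarith [sq_nonneg ((d.cf (splitElt p) : ℝ) + (d.cf (star (splitElt p)) : ℝ))]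
  · have hp2 : (p : ZMod 3) = -1 := by rw [← ZMod.natCast_mod, h]; rfl
    have hval : d.coeffNat p = (quatTrace (ρ (σ) ^ 2) : ℝ) :=
      congrArg (fun z : ℤ => (z : ℝ)) (d.c_inert p p.2 hS1 h (A) (hA) (σ) (hσ))
    have hsq : d.splitSq p = 0 := by rw [splitSq, if_neg (by omega)]
    have hc : ρ (σ) ∉ centreSet := fun hc => by
      rw [hp2] at hdg
      rcases mem_centreSet.mp hc with e | e <;> rw [e] at hdg <;> simp at hdg <;>
        revert hdg <;> decide
    rw [if_neg hc, hval, hsq]
    by_cases hr : ρ (σ) ∈ reflSet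
    · rw [if_pos hr, sq_reflection hr, quatTrace, if_pos rfl]; norm_num
    · have hnn : (0 : ℝ) ≤ quatTrace (ρ (σ) ^ 2) :=
        Int.cast_nonneg (quatTrace_sq_nonneg (by rw [hdg, hp2]))
      rw [if_neg hr]; linarith

/-- The rational Dirichlet series is unbounded as `s → 1+`. -/
theorem tendsto_series_atTop (hρ : Continuous ρ) (hsurj : Function.Surjective ρ)
    (hdet : ∀ σ : Γℚ, Matrix.GeneralLinearGroup.det (ρ σ) =
      WeierstrassCurve.modThreeCyclotomicChar σ) (hn : 0 < n₀) :
    Tendsto (fun s : ℝ => ∑' n : ℕ, d.coeffNat n * (n : ℝ) ^ (-s)) (𝓝[>] 1) atTop := by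
  classical
  choose A σ hA hσ using fun ℓ : Nat.Primes => Gal.exists_liesOverPrime_isFrobeniusAt ℓ.2
  have d1 := hasDens_classSet hρ hsurj A σ hA hσ centreSet (fun g hg x => by
      rcases mem_centreSet.mp hg with rfl | rfl
      · simp [mem_centreSet]
      · rw [mem_centreSet]; right; simp)
    (fun g hg h hh _ => by
      obtain ⟨n, rfl⟩ := Subgroup.mem_zpowers_iff.mp hh
      rw [mem_centreSet] at hg ⊢
      rcases hg with rfl | rfl
      · left; simp
      · rcases Int.even_or_odd n with e | e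
        · left; exact e.neg_one_zpow
        · right; exact e.neg_one_zpow)
  have d2 := hasDens_classSet hρ hsurj A σ hA hσ reflSet (fun g hg x => by
      rw [mem_reflSet] at hg ⊢
      rw [Units.val_mul, Units.val_mul, Matrix.det_units_conj', Matrix.trace_units_conj']
      exact hg)
    (fun g hg h hh hg' => by
      obtain ⟨n, rfl⟩ := Subgroup.mem_zpowers_iff.mp hh
      rcases Int.even_or_odd n with ⟨k, rfl⟩ | ⟨k, rfl⟩
      · exfalso
        rw [show g ^ (k + k) = 1 by
            rw [← two_mul, zpow_mul, zpow_two, ← sq, sq_reflection hg, one_zpow],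
          Subgroup.zpowers_one_eq_bot, Subgroup.mem_bot] at hg'
        have h1 := (mem_reflSet.mp hg).1
        rw [hg', Units.val_one, Matrix.det_one] at h1
        exact absurd h1 (by decide)
      · rw [zpow_add, zpow_mul, zpow_two, ← sq, sq_reflection hg, one_zpow, one_mul, zpow_one]
        exact hg)
  rw [card_centreSet] at d1
  rw [card_reflSet] at d2
  set S' : Finset ℕ := d.S ∪ {3}
  have hdens := ((d1.const_mul 8).add (d2.const_mul 2)).congr_finite S'
    (v := fun p => if (p : ℕ) ∈ S' then d.coeffNat p + d.splitSq p / 2 else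
      8 * (if ρ (σ p) ∈ centreSet then 1 else 0) + 2 * (if ρ (σ p) ∈ reflSet then 1 else 0))
    fun p hp => by rw [if_neg hp]
  have hle : ∀ p : Nat.Primes, (if (p : ℕ) ∈ S' then d.coeffNat p + d.splitSq p / 2 else
      8 * (if ρ (σ p) ∈ centreSet then 1 else 0) + 2 * (if ρ (σ p) ∈ reflSet then 1 else 0)) ≤
      d.coeffNat p + d.splitSq p / 2 := by
    intro p
    by_cases hS : (p : ℕ) ∈ S'
    · rw [if_pos hS]
    rw [if_neg hS]
    simp only [S', Finset.mem_union, Finset.mem_singleton, not_or] at hS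
    exact d.eight_centre_add_two_refl_le hdet hS.1 hS.2 (hA p) (hσ p)
  obtain ⟨C₁, hC₁⟩ := d.exists_exp_le_series
  obtain ⟨C₂, hC₂⟩ := d.exists_splitSq_sum_le hn
  have hev := hdens.2.eventually (lt_mem_nhds (show (3 / 4 : ℝ) < _ by norm_num))
  rw [tendsto_atTop]
  intro M
  have hlog := Gal.tendsto_log_inv_sub_one
  filter_upwards [hev, hlog.eventually_gt_atTop 0,
    hlog.eventually_ge_atTop (4 * (Real.log (max M 1) + C₁ + C₂ / 2)),
    self_mem_nhdsWithin, eventually_nhdsWithin_of_eventually_nhds (eventually_le_nhds one_lt_two)]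
    with s h34 hpos hbig hs hs2
  have hs1 : 1 < s := hs
  obtain ⟨hsum, hexp⟩ := hC₁ s hs1
  obtain ⟨hsq, hsqle⟩ := hC₂ s hs1 hs2
  rw [lt_div_iff₀ hpos] at h34
  have hle2 : ∑' p : Nat.Primes, (if (p : ℕ) ∈ S' then d.coeffNat p + d.splitSq p / 2 else
      8 * (if ρ (σ p) ∈ centreSet then 1 else 0) + 2 * (if ρ (σ p) ∈ reflSet then 1 else 0)) *
        ((p : ℕ) : ℝ) ^ (-s) ≤
      ∑' p : Nat.Primes, d.coeffNat p * ((p : ℕ) : ℝ) ^ (-s) +
        (∑' p : Nat.Primes, d.splitSq p * ((p : ℕ) : ℝ) ^ (-s)) / 2 := by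
    rw [← tsum_div_const, ← hsum.tsum_add (hsq.div_const 2)]
    refine (hdens.1 s hs1).tsum_le_tsum (fun p => ?_) (hsum.add (hsq.div_const 2))
    calc _ ≤ (d.coeffNat p + d.splitSq p / 2) * ((p : ℕ) : ℝ) ^ (-s) :=
          mul_le_mul_of_nonneg_right (hle p) (by positivity)
      _ = _ := by ring
  refine le_trans ?_ hexp
  refine (le_max_left M 1).trans ?_
  rw [← Real.exp_log (show 0 < max M 1 from lt_max_of_lt_right one_pos), Real.exp_le_exp]
  linarith

end BianchiDatum

end Fermat.Agent.ResidualThree
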