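import Fermat.Agent.ResidualThree.Asai.Comparison

/-!
# Congruence lattice sums `∑ (Im τ)^s / |Cτ + D|^{2s}` near `s = 1`

These are the rows of the Eisenstein series unfolded in `Asai.Rows`.
-/

noncomputable section

open MeasureTheory Set Filter Topology

namespace Fermat.Agent.ResidualThree

/-- A term of the lattice sum. -/
def latticeTerm (s : ℝ) (τ : UpperHalfPlane) (w : ℤ × ℤ) : ℝ :=
  τ.im ^ s / (Complex.normSq ((w.1 : ℂ) * (τ : ℂ) + (w.2 : ℂ))) ^ s

theorem latticeTerm_nonneg (s : ℝ) (τ : UpperHalfPlane) (w : ℤ × ℤ) : 0 ≤ latticeTerm s τ w :=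
  div_nonneg (Real.rpow_nonneg τ.im_pos.le _) (Real.rpow_nonneg (Complex.normSq_nonneg _) _)

theorem latticeTerm_zero {s : ℝ} (hs : s ≠ 0) (τ : UpperHalfPlane) :
    latticeTerm s τ 0 = 0 := by
  simp [latticeTerm, Real.zero_rpow hs]

/-- The lattice sum over a residue class. -/
def classSum (N : ℕ) (v : ZMod N × ZMod N) (s : ℝ) (τ : UpperHalfPlane) : ℝ :=
  ∑' w : ℤ × ℤ, if (w.1 : ZMod N) = v.1 ∧ (w.2 : ZMod N) = v.2 then latticeTerm s τ w else 0

/-- `∫₀^∞ (1 + t²)^(-s)`. -/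
def jInt (s : ℝ) : ℝ := ∫ t in Set.Ioi (0 : ℝ), (1 + t ^ 2) ^ (-s)

/-- The main term. -/
def latticeMain (N : ℕ) (s : ℝ) : ℝ := 2 * jInt s / ((N : ℝ) ^ 2 * (s - 1))

theorem jInt_integrand_le {s : ℝ} (hs : 1 < s) (t : ℝ) :
    (1 + t ^ 2) ^ (-s) ≤ (1 + t ^ 2)⁻¹ := by
  rw [← Real.rpow_neg_one]
  exact Real.rpow_le_rpow_of_exponent_le (by nlinarith [sq_nonneg t]) (by linarith)

theorem integrableOn_jInt {s : ℝ} (hs : 1 < s) :
    IntegrableOn (fun t : ℝ => (1 + t ^ 2) ^ (-s)) (Set.Ioi 0) := by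
  refine Integrable.mono' integrable_inv_one_add_sq.integrableOn
    (Measurable.aestronglyMeasurable (by fun_prop)) (Eventually.of_forall fun t => ?_)
  rw [Real.norm_eq_abs, abs_of_nonneg (by positivity)]
  exact jInt_integrand_le hs t

theorem jInt_bounds {s : ℝ} (hs : 1 < s) : 0 ≤ jInt s ∧ jInt s ≤ 2 := by
  refine ⟨setIntegral_nonneg measurableSet_Ioi fun t _ => by positivity, ?_⟩
  refine (setIntegral_mono_on (integrableOn_jInt hs) integrable_inv_one_add_sq.integrableOn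
    measurableSet_Ioi fun t _ => jInt_integrand_le hs t).trans ?_
  rw [integral_Ioi_inv_one_add_sq, Real.arctan_zero, sub_zero]
  linarith [Real.pi_le_four]

/-- The kernel of the inner sum. -/
theorem kernel_facts {s r : ℝ} (hs : 1 < s) (hr : 0 < r) :
    (∀ u, 0 ≤ u → 0 ≤ (u ^ 2 + r ^ 2) ^ (-s)) ∧
    AntitoneOn (fun u : ℝ => (u ^ 2 + r ^ 2) ^ (-s)) (Set.Ici 0) ∧
    IntegrableOn (fun u : ℝ => (u ^ 2 + r ^ 2) ^ (-s)) (Set.Ioi 0) ∧
    ∫ u in Set.Ioi 0, (u ^ 2 + r ^ 2) ^ (-s) = r ^ (1 - 2 * s) * jInt s := by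
  have key : ∀ u : ℝ, (u ^ 2 + r ^ 2) ^ (-s) = r ^ (-(2 * s)) * (1 + (r⁻¹ * u) ^ 2) ^ (-s) := by
    intro u
    rw [show u ^ 2 + r ^ 2 = r ^ (2 : ℕ) * (1 + (r⁻¹ * u) ^ 2) by field_simp; ring,
      Real.mul_rpow (by positivity) (by positivity), ← Real.rpow_natCast r 2, ← Real.rpow_mul hr.le]
    norm_num
  refine ⟨fun u _ => by positivity, fun a ha b _ hab => ?_, ?_, ?_⟩
  · exact Real.rpow_le_rpow_of_nonpos (by positivity)
      (add_le_add (pow_le_pow_left₀ ha hab 2) le_rfl) (by linarith)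
  · simp only [key]
    refine Integrable.const_mul ?_ _
    have := (integrableOn_Ioi_comp_mul_left_iff (fun t : ℝ => (1 + t ^ 2) ^ (-s)) 0
      (inv_pos.mpr hr)).mpr (by rw [mul_zero]; exact integrableOn_jInt hs)
    exact this
  · simp only [key]
    rw [integral_const_mul, integral_comp_mul_left_Ioi (fun t : ℝ => (1 + t ^ 2) ^ (-s)) 0
      (inv_pos.mpr hr), mul_zero, inv_inv, smul_eq_mul, jInt, ← mul_assoc,
      show (1 : ℝ) - 2 * s = -(2 * s) + 1 by ring, Real.rpow_add_one hr.ne']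

/-- The sum over `D` in a class, compared with its integral. -/
theorem inner_sum {s : ℝ} (hs : 1 < s) (τ : UpperHalfPlane) {C : ℤ} (hC : C ≠ 0) (N : ℕ) [NeZero N]
    (v : ZMod N) :
    (Summable fun D : ℤ => if (D : ZMod N) = v then latticeTerm s τ (C, D) else 0) ∧
    |(∑' D : ℤ, if (D : ZMod N) = v then latticeTerm s τ (C, D) else 0) -
      2 * jInt s / N * τ.im ^ (1 - s) * |(C : ℝ)| ^ (1 - 2 * s)| ≤
      2 * τ.im ^ (-s) * |(C : ℝ)| ^ (-(2 * s)) := by
  have hy := τ.im_pos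
  have hC' : 0 < |(C : ℝ)| := abs_pos.mpr (by exact_mod_cast hC)
  set r := |(C : ℝ)| * τ.im with hr_def
  have hr : 0 < r := by positivity
  obtain ⟨hk0, hk1, hk2, hk3⟩ := kernel_facts hs hr
  have hN : (0 : ℝ) < N := by exact_mod_cast NeZero.pos N
  obtain ⟨hsum, hb⟩ := progression_bound_int hk0 hk1 hk2 hN ((C : ℝ) * τ.re + (v.val : ℝ))
  have hterm : ∀ j : ℤ, latticeTerm s τ (C, (v.val : ℤ) + N * j) =
      τ.im ^ s * (|(C : ℝ) * τ.re + (v.val : ℝ) + N * j| ^ 2 + r ^ 2) ^ (-s) := by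
    intro j
    rw [latticeTerm, Real.rpow_neg (by positivity), ← div_eq_mul_inv]
    congr 2
    rw [Complex.normSq_apply, sq_abs, hr_def, mul_pow, sq_abs]
    simp [-ZMod.natCast_val]
    ring
  refine ⟨summable_residue_class N v _ (by simpa only [hterm] using hsum.mul_left _), ?_⟩
  rw [tsum_residue_class N v]
  simp only [hterm]
  rw [tsum_mul_left]
  have e1 : 2 * jInt s / N * τ.im ^ (1 - s) * |(C : ℝ)| ^ (1 - 2 * s) =
      τ.im ^ s * (2 / N * (r ^ (1 - 2 * s) * jInt s)) := by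
    rw [hr_def, Real.mul_rpow hC'.le hy.le, show (1 : ℝ) - s = s + (1 - 2 * s) by ring,
      Real.rpow_add hy]
    ring
  rw [e1, ← mul_sub, abs_mul, abs_of_nonneg (by positivity : (0 : ℝ) ≤ τ.im ^ s)]
  rw [hk3] at hb
  refine (mul_le_mul_of_nonneg_left hb (by positivity)).trans_eq ?_
  have e0 : ((0 : ℝ) ^ 2 + r ^ 2) ^ (-s) = |(C : ℝ)| ^ (-(2 * s)) * τ.im ^ (-(2 * s)) := by
    rw [zero_pow two_ne_zero, zero_add, ← Real.rpow_natCast r 2, ← Real.rpow_mul hr.le, hr_def,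
      Real.mul_rpow hC'.le hy.le]
    norm_num
  rw [e0, show -s = s + -(2 * s) by ring, Real.rpow_add hy]
  ring

theorem abs_rpow_sub_one_le {y u : ℝ} (hy : 1 / 2 ≤ y) (hu : 0 ≤ u) (hu1 : u ≤ 1) :
    |y ^ (-u) - 1| ≤ u * (1 + y) := by
  have hy0 : 0 < y := by linarith
  rcases le_total 1 y with h | h
  · rw [abs_of_nonpos (sub_nonpos.mpr (Real.rpow_le_one_of_one_le_of_nonpos h (by linarith)))]
    have h1 := Real.log_le_sub_one_of_pos (Real.rpow_pos_of_pos hy0 (-u))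
    rw [Real.log_rpow hy0] at h1
    have h2 := Real.log_le_sub_one_of_pos hy0
    nlinarith [mul_le_mul_of_nonneg_left h2 hu]
  · rw [abs_of_nonneg (sub_nonneg.mpr (Real.one_le_rpow_of_pos_of_le_one_of_nonpos hy0 h
      (by linarith)))]
    have h1 : y ^ (-u) ≤ (2 : ℝ) ^ u := by
      rw [Real.rpow_neg hy0.le, ← Real.inv_rpow hy0.le]
      exact Real.rpow_le_rpow (by positivity)
        (by rw [inv_le_comm₀ hy0 two_pos]; linarith) hu
    have h2 := rpow_one_add_le_one_add_mul_self (s := (1 : ℝ)) (by norm_num) hu hu1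
    norm_num at h2
    nlinarith

/-- The sum of `|C| ^ (1 - 2 s)` over a class mod `N` is `1 / (N (s - 1))` up to `5`. -/
theorem outer_sum {s : ℝ} (hs : 1 < s) (N : ℕ) [NeZero N] (v : ZMod N) :
    (Summable fun C : ℤ => if (C : ZMod N) = v ∧ C ≠ 0 then |(C : ℝ)| ^ (1 - 2 * s) else 0) ∧
    |(∑' C : ℤ, if (C : ZMod N) = v ∧ C ≠ 0 then |(C : ℝ)| ^ (1 - 2 * s) else 0) -
      1 / ((N : ℝ) * (s - 1))| ≤ 5 := by
  classical
  set h : ℝ → ℝ := fun u => (max u 1) ^ (1 - 2 * s)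
  have hN : (1 : ℝ) ≤ N := by exact_mod_cast NeZero.pos N
  have h0 : ∀ u, 0 ≤ u → 0 ≤ h u := fun u _ => Real.rpow_nonneg (le_max_of_le_right zero_le_one) _
  have hanti : AntitoneOn h (Set.Ici 0) := fun a _ b _ hab =>
    Real.rpow_le_rpow_of_nonpos (lt_max_of_lt_right one_pos) (max_le_max hab le_rfl) (by linarith)
  have i1 : IntegrableOn h (Set.Ioc 0 1) := by
    refine IntegrableOn.congr_fun (integrableOn_const (C := (1 : ℝ)) (by simp)) (fun u hu => ?_)
      measurableSet_Ioc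
    simp [h, max_eq_right hu.2]
  have i2 : IntegrableOn h (Set.Ioi 1) := by
    refine IntegrableOn.congr_fun (integrableOn_Ioi_rpow_of_lt (by linarith : 1 - 2 * s < -1)
      zero_lt_one) (fun u hu => ?_) measurableSet_Ioi
    simp [h, max_eq_left ((Set.mem_Ioi.mp hu).le)]
  have hint : IntegrableOn h (Set.Ioi 0) := by
    rw [← Set.Ioc_union_Ioi_eq_Ioi zero_le_one]; exact i1.union i2
  have hI : ∫ u in Set.Ioi 0, h u = 1 + 1 / (2 * (s - 1)) := by
    rw [← Set.Ioc_union_Ioi_eq_Ioi zero_le_one, setIntegral_union Set.Ioc_disjoint_Ioi_same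
      measurableSet_Ioi i1 i2]
    have e1 : ∫ u in Set.Ioc (0 : ℝ) 1, h u = 1 := by
      rw [setIntegral_congr_fun measurableSet_Ioc (g := fun _ => (1 : ℝ))
        fun u hu => by simp [h, max_eq_right hu.2]]
      simp
    have e2 : ∫ u in Set.Ioi (1 : ℝ), h u = 1 / (2 * (s - 1)) := by
      rw [setIntegral_congr_fun measurableSet_Ioi (g := fun u : ℝ => u ^ (1 - 2 * s))
        fun u hu => by simp [h, max_eq_left ((Set.mem_Ioi.mp hu).le)],
        integral_Ioi_rpow_of_lt (by linarith) one_pos, Real.one_rpow,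
        div_eq_div_iff (by linarith) (by linarith)]
      ring
    rw [e1, e2]
  obtain ⟨hsum, hb⟩ := progression_bound_int h0 hanti hint (show (0 : ℝ) < N by linarith)
    (v.val : ℝ)
  have hbase : Summable fun C : ℤ => if (C : ZMod N) = v then h |(C : ℝ)| else 0 :=
    summable_residue_class N v (fun C : ℤ => h |(C : ℝ)|) (hsum.congr fun j => by push_cast; rfl)
  have hval : (∑' C : ℤ, if (C : ZMod N) = v then h |(C : ℝ)| else 0) =
      ∑' j : ℤ, h |(v.val : ℝ) + N * j| := by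
    rw [tsum_residue_class N v fun C : ℤ => h |(C : ℝ)|]
    exact tsum_congr fun j => by push_cast; rfl
  have heq : ∀ C : ℤ, (if (C : ZMod N) = v ∧ C ≠ 0 then |(C : ℝ)| ^ (1 - 2 * s) else 0) =
      (if (C : ZMod N) = v then h |(C : ℝ)| else 0) -
        if C = 0 ∧ (0 : ZMod N) = v then 1 else 0 := by
    intro C
    by_cases hC : C = 0
    · subst hC; by_cases hv : (0 : ZMod N) = v <;> simp [hv, h]
    · have h1 : (1 : ℝ) ≤ |(C : ℝ)| := by exact_mod_cast Int.one_le_abs hC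
      by_cases hv : (C : ZMod N) = v <;> simp [hv, hC, h, max_eq_left h1]
  have hsingle : HasSum (fun C : ℤ => if C = 0 ∧ (0 : ZMod N) = v then (1 : ℝ) else 0)
      (if (0 : ZMod N) = v then 1 else 0) := by
    simpa using hasSum_single (0 : ℤ)
      (f := fun C : ℤ => if C = 0 ∧ (0 : ZMod N) = v then (1 : ℝ) else 0) (fun C hC => by simp [hC])
  refine ⟨(hbase.sub hsingle.summable).congr fun C => (heq C).symm, ?_⟩
  rw [tsum_congr heq, (hbase.hasSum.sub hsingle).tsum_eq, hval]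
  rw [hI] at hb
  have hδ : (0 : ℝ) ≤ (if (0 : ZMod N) = v then 1 else 0) ∧
      (if (0 : ZMod N) = v then (1 : ℝ) else 0) ≤ 1 := by split_ifs <;> norm_num
  have e : 2 / (N : ℝ) * (1 + 1 / (2 * (s - 1))) = 2 / N + 1 / ((N : ℝ) * (s - 1)) := by
    field_simp
  rw [e] at hb
  have h2 : 0 ≤ 2 / (N : ℝ) ∧ 2 / (N : ℝ) ≤ 2 := ⟨by positivity, div_le_self two_pos.le hN⟩
  have h00 : h 0 = 1 := by simp [h]
  rw [h00] at hb
  obtain ⟨x1, x2⟩ := abs_le.mp hb
  exact abs_le.mpr ⟨by linarith, by linarith⟩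

/-- `∑ |D|⁻²` over the integers. -/
def intSqSum : ℝ := ∑' D : ℤ, |(D : ℝ)| ^ (-(2 : ℝ))

theorem abs_rpow_le_sq {s : ℝ} (hs : 1 < s) (D : ℤ) :
    |(D : ℝ)| ^ (-(2 * s)) ≤ |(D : ℝ)| ^ (-(2 : ℝ)) := by
  rcases eq_or_ne D 0 with rfl | hD
  · simp [Real.zero_rpow (show -(2 * s) ≠ 0 by linarith)]
  · exact Real.rpow_le_rpow_of_exponent_le (by exact_mod_cast Int.one_le_abs hD) (by linarith)

theorem zero_row_sum {s : ℝ} (hs : 1 < s) (τ : UpperHalfPlane) (N : ℕ) (v : ZMod N) :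
    (Summable fun D : ℤ => if (D : ZMod N) = v then latticeTerm s τ (0, D) else 0) ∧
      (∑' D : ℤ, if (D : ZMod N) = v then latticeTerm s τ (0, D) else 0) ≤ τ.im ^ s * intSqSum := by
  have hZ : Summable fun D : ℤ => |(D : ℝ)| ^ (-(2 : ℝ)) := Real.summable_abs_int_rpow one_lt_two
  have hle : ∀ D : ℤ, (if (D : ZMod N) = v then latticeTerm s τ (0, D) else 0) ≤
      τ.im ^ s * |(D : ℝ)| ^ (-(2 : ℝ)) := by
    intro D
    have hpos : 0 ≤ τ.im ^ s := Real.rpow_nonneg τ.im_pos.le _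
    split_ifs
    · have e : latticeTerm s τ (0, D) = τ.im ^ s * |(D : ℝ)| ^ (-(2 * s)) := by
        rw [latticeTerm, Real.rpow_neg (abs_nonneg _), ← div_eq_mul_inv,
          Real.rpow_mul (abs_nonneg _),
          Real.rpow_two, sq_abs]
        congr 2
        simp [Complex.normSq_apply]
        ring
      rw [e]
      exact mul_le_mul_of_nonneg_left (abs_rpow_le_sq hs D) hpos
    · positivity
  have hnn : ∀ D : ℤ, 0 ≤ (if (D : ZMod N) = v then latticeTerm s τ (0, D) else 0) := fun D => by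
    split_ifs
    · exact latticeTerm_nonneg _ _ _
    · exact le_rfl
  have hsum := Summable.of_nonneg_of_le hnn hle (hZ.mul_left _)
  refine ⟨hsum, (hsum.tsum_le_tsum hle (hZ.mul_left _)).trans_eq ?_⟩
  rw [intSqSum, tsum_mul_left]

/-- The lattice sums differ from a main term independent of `τ` and the class by `O(1 + y²)`. -/
theorem exists_classSum_bound (N : ℕ) [NeZero N] : ∃ K : ℝ, ∀ (v : ZMod N × ZMod N) (s : ℝ),
    1 < s → s ≤ 2 → ∀ τ : UpperHalfPlane, 1 / 2 ≤ τ.im →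
      (Summable fun w : ℤ × ℤ =>
        if (w.1 : ZMod N) = v.1 ∧ (w.2 : ZMod N) = v.2 then latticeTerm s τ w else 0) ∧
      |classSum N v s τ - latticeMain N s| ≤ K * (1 + τ.im ^ 2) := by
  classical
  refine ⟨9 * intSqSum + 56, fun v s hs hs2 τ hy => ?_⟩
  have hy0 := τ.im_pos
  have hN : (1 : ℝ) ≤ N := by exact_mod_cast NeZero.pos N
  have hZ : Summable fun D : ℤ => |(D : ℝ)| ^ (-(2 : ℝ)) := Real.summable_abs_int_rpow one_lt_two
  have hZ0 : 0 ≤ intSqSum := tsum_nonneg fun D => by positivity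
  set f : ℤ × ℤ → ℝ := fun w =>
    if (w.1 : ZMod N) = v.1 ∧ (w.2 : ZMod N) = v.2 then latticeTerm s τ w else 0
  have hf0 : 0 ≤ f := fun w => by
    simp only [f, Pi.zero_apply]; split_ifs
    · exact latticeTerm_nonneg _ _ _
    · exact le_rfl
  have hfib : ∀ C : ℤ, (Summable fun D : ℤ => f (C, D)) ∧
      ((C : ZMod N) ≠ v.1 → ∑' D : ℤ, f (C, D) = 0) := by
    intro C
    by_cases h : (C : ZMod N) = v.1
    · refine ⟨?_, fun h' => absurd h h'⟩
      simp only [f, h, true_and]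
      rcases eq_or_ne C 0 with rfl | hC
      · exact (zero_row_sum hs τ N v.2).1
      · exact (inner_sum hs τ hC N v.2).1
    · simp [f, h, summable_zero]
  set g : ℤ → ℝ := fun C => if (C : ZMod N) = v.1 ∧ C ≠ 0 then |(C : ℝ)| ^ (1 - 2 * s) else 0
  set M := 2 * jInt s / N * τ.im ^ (1 - s)
  set θ : ℤ → ℝ := fun C => (∑' D : ℤ, f (C, D)) - M * g C
  set z : ℝ := τ.im ^ s * intSqSum
  have hθ : ∀ C : ℤ, |θ C| ≤ 2 * τ.im ^ (-s) * |(C : ℝ)| ^ (-(2 : ℝ)) + if C = 0 then z else 0 := by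
    intro C
    by_cases h : (C : ZMod N) = v.1
    · rcases eq_or_ne C 0 with rfl | hC
      · have h0 := (zero_row_sum hs τ N v.2).2
        have hnn : 0 ≤ ∑' D : ℤ, f (0, D) := tsum_nonneg fun D => hf0 _
        have e : θ 0 = ∑' D : ℤ, f (0, D) := by simp [θ, g]
        rw [e, abs_of_nonneg hnn, if_pos rfl]
        have e2 : ∑' D : ℤ, f (0, D) =
            ∑' D : ℤ, if (D : ZMod N) = v.2 then latticeTerm s τ (0, D) else 0 := by
          simp only [f, h, true_and]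
        rw [e2]
        have : 0 ≤ 2 * τ.im ^ (-s) * |((0 : ℤ) : ℝ)| ^ (-(2 : ℝ)) := by positivity
        linarith
      · rw [if_neg hC, add_zero]
        have h1 := (inner_sum hs τ hC N v.2).2
        simp only [θ, g, f, h, true_and, hC, ne_eq, not_false_eq_true, if_true, M]
        refine h1.trans ?_
        exact mul_le_mul_of_nonneg_left (abs_rpow_le_sq hs C) (by positivity)
    · have e : θ C = 0 := by simp [θ, g, h, (hfib C).2 h]
      rw [e, abs_zero]
      have : 0 ≤ z := by positivity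
      split_ifs <;> positivity
  have hbnd :
      HasSum (fun C : ℤ => 2 * τ.im ^ (-s) * |(C : ℝ)| ^ (-(2 : ℝ)) + if C = 0 then z else 0)
      (2 * τ.im ^ (-s) * intSqSum + z) :=
    (hZ.hasSum.mul_left _).add (hasSum_ite_eq 0 z)
  obtain ⟨hgs, hgb⟩ := outer_sum hs N v.1
  have hθs : Summable θ := Summable.of_norm_bounded hbnd.summable fun C => hθ C
  have hθb : |∑' C, θ C| ≤ 2 * τ.im ^ (-s) * intSqSum + z :=
    tsum_of_norm_bounded (f := θ) hbnd fun C => hθ C
  have hrow : Summable fun C : ℤ => ∑' D : ℤ, f (C, D) :=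
    ((hgs.mul_left M).add hθs).congr fun C => by simp [θ, g]
  have hfs : Summable f := (summable_prod_of_nonneg hf0).mpr ⟨fun C => (hfib C).1, hrow⟩
  refine ⟨hfs, ?_⟩
  have hS : classSum N v s τ = M * (∑' C, g C) + ∑' C, θ C := by
    rw [← tsum_mul_left, ← (hgs.mul_left M).tsum_add hθs]
    show ∑' w, f w = _
    rw [hfs.tsum_prod' fun C => (hfib C).1]
    exact tsum_congr fun C => by simp only [θ]; ring
  rw [hS, latticeMain]
  obtain ⟨hJ0, hJ2⟩ := jInt_bounds hs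
  have hyneg : τ.im ^ (-s) ≤ 4 := by
    calc τ.im ^ (-s) ≤ (1 / 2 : ℝ) ^ (-s) :=
        Real.rpow_le_rpow_of_nonpos (by norm_num) hy (by linarith)
      _ = (2 : ℝ) ^ s := by
          rw [one_div, Real.inv_rpow two_pos.le, Real.rpow_neg two_pos.le, inv_inv]
      _ ≤ (2 : ℝ) ^ (2 : ℝ) := Real.rpow_le_rpow_of_exponent_le one_le_two hs2
      _ = 4 := by norm_num
  have hypos : τ.im ^ s ≤ 1 + τ.im ^ 2 := by
    rcases le_total τ.im 1 with h1 | h1
    · have := Real.rpow_le_one hy0.le h1 (by linarith : 0 ≤ s); nlinarith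
    · have := Real.rpow_le_rpow_of_exponent_le h1 hs2
      rw [Real.rpow_two] at this; linarith
  have hy1s : τ.im ^ (1 - s) ≤ 2 := by
    have h1 := abs_rpow_sub_one_le (y := 1 / 2) le_rfl (u := s - 1) (by linarith) (by linarith)
    calc τ.im ^ (1 - s) ≤ (1 / 2 : ℝ) ^ (1 - s) :=
          Real.rpow_le_rpow_of_nonpos (by norm_num) hy (by linarith)
      _ = (2 : ℝ) ^ (s - 1) := by
          rw [one_div, Real.inv_rpow two_pos.le, ← Real.rpow_neg two_pos.le, neg_sub]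
      _ ≤ (2 : ℝ) ^ (1 : ℝ) := Real.rpow_le_rpow_of_exponent_le one_le_two (by linarith)
      _ = 2 := Real.rpow_one 2
  have hd : |τ.im ^ (1 - s) - 1| ≤ (s - 1) * (1 + τ.im) := by
    rw [show 1 - s = -(s - 1) by ring]
    exact abs_rpow_sub_one_le hy (by linarith) (by linarith)
  set W := ∑' C, g C
  set J := jInt s
  have hJN : 0 ≤ 2 * J / N ∧ 2 * J / N ≤ 4 := ⟨by positivity, by
    rw [div_le_iff₀ (by linarith)]; nlinarith⟩
  have e : M * W + ∑' C, θ C - 2 * J / ((N : ℝ) ^ 2 * (s - 1)) =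
      2 * J / N * (τ.im ^ (1 - s) * (W - 1 / (N * (s - 1))) +
        (τ.im ^ (1 - s) - 1) * (1 / (N * (s - 1)))) + ∑' C, θ C := by
    simp only [M]
    field_simp
    ring
  rw [e]
  refine (abs_add_le _ _).trans ?_
  have h3 : |(τ.im ^ (1 - s) - 1) * (1 / (N * (s - 1)))| ≤ 1 + τ.im := by
    rw [abs_mul, abs_of_pos (show (0 : ℝ) < 1 / (N * (s - 1)) by
      have : 0 < s - 1 := by linarith
      positivity)]
    refine (mul_le_mul_of_nonneg_right hd (by
      have : 0 < s - 1 := by linarith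
      positivity)).trans ?_
    rw [show (s - 1) * (1 + τ.im) * (1 / (N * (s - 1))) = (1 + τ.im) / N by
      field_simp [show s - 1 ≠ 0 by linarith]]
    exact div_le_self (by positivity) hN
  have h4 : |τ.im ^ (1 - s) * (W - 1 / (N * (s - 1)))| ≤ 10 := by
    rw [abs_mul, abs_of_nonneg (Real.rpow_nonneg hy0.le _)]
    calc _ ≤ 2 * 5 := mul_le_mul hy1s hgb (abs_nonneg _) two_pos.le
      _ = 10 := by norm_num
  have h5 : |2 * J / N * (τ.im ^ (1 - s) * (W - 1 / (N * (s - 1))) +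
      (τ.im ^ (1 - s) - 1) * (1 / (N * (s - 1))))| ≤ 4 * (11 + τ.im) := by
    rw [abs_mul, abs_of_nonneg hJN.1]
    exact mul_le_mul hJN.2 ((abs_add_le _ _).trans (by linarith)) (abs_nonneg _) (by norm_num)
  have h6 : 2 * τ.im ^ (-s) * intSqSum + z ≤ 9 * intSqSum * (1 + τ.im ^ 2) := by
    simp only [z]
    nlinarith [mul_le_mul_of_nonneg_right hypos hZ0, mul_le_mul_of_nonneg_right hyneg hZ0,
      mul_nonneg hZ0 (sq_nonneg τ.im)]
  nlinarith [sq_nonneg (τ.im - 1), sq_nonneg τ.im]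

end Fermat.Agent.ResidualThree
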