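import Fermat.Agent.ResidualThree.Asai.Lattice

/-!
# The unfolding identity over bottom rows

It turns the period into an integral over a strip.
-/

noncomputable section

open MeasureTheory Set Filter
open scoped MatrixGroups ModularGroup

namespace Fermat.Agent.ResidualThree

open UpperHalfPlane CongruenceSubgroup

/-- The bottom row modulo `n`. -/
def rowMod (n : ℕ) (g : SL(2, ℤ)) : ZMod n × ZMod n := ((g 1 0 : ZMod n), (g 1 1 : ZMod n))

/-- The residue class attached to a coset and a unit. -/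
def classVec (n : ℕ) (p : (SL(2, ℤ) ⧸ Gamma0 n) × (ZMod n)ˣ) : ZMod n × ZMod n :=
  ((p.2 : ZMod n) * (rowMod n p.1.out⁻¹).1, (p.2 : ZMod n) * (rowMod n p.1.out⁻¹).2)

/-- `f(z) = G(z) (Im z)^s` on the standard strip. -/
def stripFun (G : ℍ → ℂ) (s : ℝ) (z : ℍ) : ℂ :=
  if 0 ≤ z.re ∧ z.re < 1 then G z * ((z.im ^ s : ℝ) : ℂ) else 0

/-- Positive integers prime to `n`. -/
abbrev CoprimePos (n : ℕ) : Type := {k : ℕ // 0 < k ∧ k.Coprime n}

/-- The L-series factor. -/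
def lFactor (n : ℕ) (s : ℝ) : ℝ := ∑' k : CoprimePos n, ((k.1 : ℝ)) ^ (-(2 * s))

theorem summable_lFactor (n : ℕ) {s : ℝ} (hs : 1 < s) :
    Summable fun k : CoprimePos n => ((k.1 : ℝ)) ^ (-(2 * s)) :=
  (Real.summable_nat_rpow.mpr (by linarith)).comp_injective Subtype.val_injective

theorem one_le_lFactor (n : ℕ) {s : ℝ} (hs : 1 < s) : 1 ≤ lFactor n s := by
  have h := (summable_lFactor n hs).le_tsum ⟨1, one_pos, Nat.coprime_one_left n⟩
    fun k _ => by positivity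
  simpa [lFactor] using h

theorem gamma0_diag_unit {n : ℕ} {δ : SL(2, ℤ)} (hδ : δ ∈ Gamma0 n) :
    IsUnit (δ 1 1 : ZMod n) := by
  refine IsUnit.of_mul_eq_one (δ 0 0 : ZMod n) ?_
  have h := δ.det_coe
  rw [Matrix.det_fin_two] at h
  have h' := congrArg (fun x : ℤ => (x : ZMod n)) h
  simp only [Int.cast_sub, Int.cast_mul, Int.cast_one, Gamma0_mem.mp hδ, mul_zero, sub_zero] at h'
  rw [mul_comm, h']

theorem rowMod_mul {n : ℕ} {δ : SL(2, ℤ)} (hδ : δ ∈ Gamma0 n) (g : SL(2, ℤ)) :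
    rowMod n (δ * g) =
      ((δ 1 1 : ZMod n) * (rowMod n g).1, (δ 1 1 : ZMod n) * (rowMod n g).2) := by
  simp only [rowMod, Matrix.SpecialLinearGroup.coe_mul, Matrix.mul_apply, Fin.sum_univ_two,
    Int.cast_add, Int.cast_mul, Gamma0_mem.mp hδ, zero_mul, zero_add]

theorem exists_classVec {n : ℕ} (g : SL(2, ℤ)) (k : CoprimePos n) :
    ∃ p : (SL(2, ℤ) ⧸ Gamma0 n) × (ZMod n)ˣ,
      classVec n p = ((k.1 : ZMod n) * (rowMod n g).1, (k.1 : ZMod n) * (rowMod n g).2) ∧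
      ∃ δ ∈ Gamma0 n, g = δ * p.1.out⁻¹ := by
  set q : SL(2, ℤ) ⧸ Gamma0 n := ((g⁻¹ : SL(2, ℤ)) : SL(2, ℤ) ⧸ Gamma0 n)
  have hmem : g * q.out ∈ Gamma0 n := by
    have h := QuotientGroup.eq.mp (q.out_eq' : ((q.out : SL(2, ℤ)) : SL(2, ℤ) ⧸ Gamma0 n) = q).symm
    rwa [inv_inv] at h
  obtain ⟨u, hu⟩ := ((ZMod.unitOfCoprime k.1 k.2.2).isUnit).mul (gamma0_diag_unit hmem)
  refine ⟨(q, u), ?_, g * q.out, hmem, by simp only; rw [mul_inv_cancel_right]⟩
  have hrow := rowMod_mul hmem q.out⁻¹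
  rw [mul_inv_cancel_right] at hrow
  simp only [classVec, hu, ZMod.coe_unitOfCoprime, hrow]
  rw [mul_assoc, mul_assoc]

theorem classVec_injective {n : ℕ} : Function.Injective (classVec n) := by
  rintro ⟨q, u⟩ ⟨q', u'⟩ h
  simp only [classVec, rowMod, Prod.mk.injEq] at h
  obtain ⟨h1, h2⟩ := h
  set g := q.out⁻¹ with hg
  set g' := q'.out⁻¹ with hg'
  have hq : q = q' := by
    rw [← q.out_eq', ← q'.out_eq', QuotientGroup.eq, ← hg,
      show q'.out = g'⁻¹ by rw [hg', inv_inv], Gamma0_mem]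
    simp only [Matrix.SpecialLinearGroup.coe_mul, Matrix.SpecialLinearGroup.coe_inv,
      Matrix.adjugate_fin_two, Matrix.mul_apply, Fin.sum_univ_two, Matrix.of_apply,
      Matrix.cons_val', Matrix.cons_val_zero, Matrix.cons_val_one, Matrix.empty_val',
      Matrix.cons_val_fin_one, Int.cast_add, Int.cast_mul, Int.cast_neg]
    refine u.isUnit.mul_right_eq_zero.mp ?_
    linear_combination (g' 1 1 : ZMod n) * h1 - (g' 1 0 : ZMod n) * h2
  subst hq
  simp only [Prod.mk.injEq, true_and]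
  refine Units.ext ?_
  have hd := g.det_coe
  rw [Matrix.det_fin_two] at hd
  have hd' := congrArg (fun x : ℤ => (x : ZMod n)) hd
  simp only [Int.cast_sub, Int.cast_mul, Int.cast_one] at hd'
  linear_combination ((g 0 0 : ZMod n)) * h2 - (g 0 1 : ZMod n) * h1 -
    ((u : ZMod n) - u') * hd'

theorem coprime_of_classVec {n : ℕ} {p : (SL(2, ℤ) ⧸ Gamma0 n) × (ZMod n)ˣ}
    {w : ℤ × ℤ} (h1 : (w.1 : ZMod n) = (classVec n p).1) (h2 : (w.2 : ZMod n) = (classVec n p).2) :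
    Nat.Coprime (Int.gcd w.1 w.2) n := by
  rw [← ZMod.isUnit_iff_coprime]
  obtain ⟨a, ha⟩ := Int.gcd_dvd_left w.1 w.2
  obtain ⟨b, hb⟩ := Int.gcd_dvd_right w.1 w.2
  set m := Int.gcd w.1 w.2
  set g := p.1.out⁻¹
  simp only [classVec, rowMod] at h1 h2
  rw [ha, Int.cast_mul, Int.cast_natCast] at h1
  rw [hb, Int.cast_mul, Int.cast_natCast] at h2
  have hd := g.det_coe
  rw [Matrix.det_fin_two] at hd
  have hd' := congrArg (fun x : ℤ => (x : ZMod n)) hd
  simp only [Int.cast_sub, Int.cast_mul, Int.cast_one] at hd'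
  refine IsUnit.of_mul_eq_one (((p.2⁻¹ : (ZMod n)ˣ) : ZMod n) *
    ((g 0 0 : ZMod n) * b - (g 0 1 : ZMod n) * a)) ?_
  linear_combination ((p.2⁻¹ : (ZMod n)ˣ) : ZMod n) * (g 0 0 : ZMod n) * h2 -
    ((p.2⁻¹ : (ZMod n)ˣ) : ZMod n) * (g 0 1 : ZMod n) * h1 +
    ((p.2⁻¹ : (ZMod n)ˣ) : ZMod n) * (p.2 : ZMod n) * hd' + p.2.inv_mul

/-- A bottom row. -/
abbrev BottomRow : Type := {r : ℤ × ℤ // IsCoprime r.1 r.2}

theorem exists_strip_rep (τ : ℍ) (r : BottomRow) : ∃ g : SL(2, ℤ),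
    g 1 0 = r.1.1 ∧ g 1 1 = r.1.2 ∧ 0 ≤ (g • τ).re ∧ (g • τ).re < 1 := by
  obtain ⟨g, -, hg⟩ := ModularGroup.bottom_row_surj (R := ℤ)
    (show ![r.1.1, r.1.2] ∈ {cd : Fin 2 → ℤ | IsCoprime (cd 0) (cd 1)} from r.2)
  refine ⟨ModularGroup.T ^ (-⌊(g • τ).re⌋) * g, ?_, ?_, ?_⟩
  · have := congrFun hg 0
    simpa [Matrix.SpecialLinearGroup.coe_mul, ModularGroup.coe_T_zpow, Matrix.mul_apply,
      Fin.sum_univ_two] using this
  · have := congrFun hg 1
    simpa [Matrix.SpecialLinearGroup.coe_mul, ModularGroup.coe_T_zpow, Matrix.mul_apply,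
      Fin.sum_univ_two] using this
  · rw [mul_smul, ModularGroup.re_T_zpow_smul, Int.cast_neg]
    exact ⟨by linarith [Int.floor_le (g • τ).re], by linarith [Int.lt_floor_add_one (g • τ).re]⟩

/-- The representative of a bottom row moving `τ` into the strip. -/
def stripRep (τ : ℍ) (r : BottomRow) : SL(2, ℤ) := (exists_strip_rep τ r).choose

theorem stripRep_spec (τ : ℍ) (r : BottomRow) :
    (stripRep τ r) 1 0 = r.1.1 ∧ (stripRep τ r) 1 1 = r.1.2 ∧
      0 ≤ ((stripRep τ r) • τ).re ∧ ((stripRep τ r) • τ).re < 1 :=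
  (exists_strip_rep τ r).choose_spec

theorem stripRep_injective (τ : ℍ) : Function.Injective (stripRep τ) := fun r r' h => by
  obtain ⟨h1, h2, -⟩ := stripRep_spec τ r
  obtain ⟨h1', h2', -⟩ := stripRep_spec τ r'
  rw [h] at h1 h2
  exact Subtype.ext (Prod.ext (h1.symm.trans h1') (h2.symm.trans h2'))

/-- Every element moving `τ` into the strip is the representative of its bottom row. -/
theorem mem_range_stripRep (τ : ℍ) {g : SL(2, ℤ)} (h0 : 0 ≤ (g • τ).re) (h1 : (g • τ).re < 1) :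
    g ∈ Set.range (stripRep τ) := by
  let r : BottomRow := ⟨(g 1 0, g 1 1), ModularGroup.bottom_row_coprime g⟩
  refine ⟨r, ?_⟩
  obtain ⟨e1, e2, e3, e4⟩ := stripRep_spec τ r
  set g' := stripRep τ r
  have hdet := g.det_coe
  have hdet' := g'.det_coe
  rw [Matrix.det_fin_two] at hdet hdet'
  simp only [r] at e1 e2
  rw [e1, e2] at hdet'
  set h := g * g'⁻¹
  have a10 : h 1 0 = 0 := by
    simp [h, Matrix.SpecialLinearGroup.coe_mul, Matrix.SpecialLinearGroup.coe_inv,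
      Matrix.adjugate_fin_two, Matrix.mul_apply, Fin.sum_univ_two, e1, e2]
    ring
  have a11 : h 1 1 = 1 := by
    simp [h, Matrix.SpecialLinearGroup.coe_mul, Matrix.SpecialLinearGroup.coe_inv,
      Matrix.adjugate_fin_two, Matrix.mul_apply, Fin.sum_univ_two]
    linear_combination hdet'
  have a00 : h 0 0 = 1 := by
    have hd := h.det_coe
    rw [Matrix.det_fin_two, a10, a11, mul_one, mul_zero, sub_zero] at hd
    exact hd
  have hT : h = ModularGroup.T ^ (h 0 1) := by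
    refine Subtype.ext ?_
    rw [ModularGroup.coe_T_zpow]
    ext i j
    fin_cases i <;> fin_cases j <;> simp [a10, a11, a00]
  have hg : g = ModularGroup.T ^ (h 0 1) * g' := by rw [← hT]; simp [h]
  have hj : h 0 1 = 0 := by
    rw [hg, mul_smul, ModularGroup.re_T_zpow_smul] at h0 h1
    have hlo : (-1 : ℝ) < (h 0 1 : ℤ) := by linarith
    have hhi : ((h 0 1 : ℤ) : ℝ) < 1 := by linarith
    have hlo' : -1 < h 0 1 := by exact_mod_cast hlo
    have hhi' : h 0 1 < 1 := by exact_mod_cast hhi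
    omega
  rw [hg, hj, zpow_zero, one_mul]

theorem im_smul_rpow (g : SL(2, ℤ)) (τ : ℍ) (s : ℝ) :
    (g • τ).im ^ s = latticeTerm s τ (g 1 0, g 1 1) := by
  rw [ModularGroup.im_smul_eq_div_normSq, ModularGroup.denom_apply, latticeTerm,
    Real.div_rpow τ.im_pos.le (Complex.normSq_nonneg _)]

theorem latticeTerm_mul (s : ℝ) (τ : ℍ) (k : ℕ) (w : ℤ × ℤ) :
    latticeTerm s τ ((k : ℤ) * w.1, (k : ℤ) * w.2) = (k : ℝ) ^ (-(2 * s)) * latticeTerm s τ w := by
  rw [latticeTerm, latticeTerm]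
  push_cast
  rw [show (k : ℂ) * (w.1 : ℂ) * (τ : ℂ) + (k : ℂ) * (w.2 : ℂ) =
    (k : ℂ) * ((w.1 : ℂ) * (τ : ℂ) + (w.2 : ℂ)) by ring, map_mul, Complex.normSq_natCast,
    Real.mul_rpow (by positivity) (Complex.normSq_nonneg _), Real.rpow_neg (Nat.cast_nonneg k),
    Real.rpow_mul (Nat.cast_nonneg k), Real.rpow_two, sq]
  field_simp

/-- The unfolding identity. -/
theorem unfold_identity {n : ℕ} [NeZero n] [Fintype (SL(2, ℤ) ⧸ Gamma0 n)] (G : ℍ → ℂ)
    (hG : ∀ γ ∈ Gamma0 n, ∀ z : ℍ, G (γ • z) = G z) {s : ℝ} (hs : 1 < s) (τ : ℍ)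
    (hsum : ∀ v : ZMod n × ZMod n, Summable fun w : ℤ × ℤ =>
      if (w.1 : ZMod n) = v.1 ∧ (w.2 : ZMod n) = v.2 then latticeTerm s τ w else 0) :
    (Summable fun g : SL(2, ℤ) => stripFun G s (g • τ)) ∧
      (lFactor n s : ℂ) * ∑' g : SL(2, ℤ), stripFun G s (g • τ) =
        ∑ p : (SL(2, ℤ) ⧸ Gamma0 n) × (ZMod n)ˣ,
          G (p.1.out⁻¹ • τ) * (classSum n (classVec n p) s τ : ℂ) := by
  classical
  set P := (SL(2, ℤ) ⧸ Gamma0 n) × (ZMod n)ˣ
  set a : P → ℤ × ℤ → ℂ := fun p w => G (p.1.out⁻¹ • τ) *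
    ((if (w.1 : ZMod n) = (classVec n p).1 ∧ (w.2 : ZMod n) = (classVec n p).2 then
      latticeTerm s τ w else 0 : ℝ) : ℂ)
  have ha : ∀ p, HasSum (a p) (G (p.1.out⁻¹ • τ) * (classSum n (classVec n p) s τ : ℂ)) := fun p =>
    (Complex.hasSum_ofReal.mpr (hsum _).hasSum).mul_left _
  set H : ℤ × ℤ → ℂ := fun w => ∑ p, a p w
  have hH : HasSum H (∑ p, G (p.1.out⁻¹ • τ) * (classSum n (classVec n p) s τ : ℂ)) :=
    hasSum_sum fun p _ => ha p
  set Ψ : CoprimePos n × BottomRow → ℤ × ℤ := fun x =>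
      ((x.1.1 : ℤ) * x.2.1.1, (x.1.1 : ℤ) * x.2.1.2)
  have hΨ : Function.Injective Ψ := by
    rintro ⟨k, r⟩ ⟨k', r'⟩ h
    simp only [Ψ, Prod.mk.injEq] at h
    have e : ∀ (k : CoprimePos n) (r : BottomRow),
        Int.gcd ((k.1 : ℤ) * r.1.1) ((k.1 : ℤ) * r.1.2) = k.1 := fun k r => by
      rw [Int.gcd_mul_left, Int.isCoprime_iff_gcd_eq_one.mp r.2, mul_one, Int.natAbs_natCast]
    have hk : k = k' := Subtype.ext (by rw [← e k r, h.1, h.2, e k' r'])
    subst hk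
    have hk0 : ((k.1 : ℤ)) ≠ 0 := by exact_mod_cast k.2.1.ne'
    rw [show r = r' from Subtype.ext
      (Prod.ext (mul_left_cancel₀ hk0 h.1) (mul_left_cancel₀ hk0 h.2))]
  have hval : ∀ x, H (Ψ x) = ((x.1.1 : ℝ) ^ (-(2 * s)) : ℝ) *
      stripFun G s (stripRep τ x.2 • τ) := by
    rintro ⟨k, r⟩
    obtain ⟨e1, e2, e3, e4⟩ := stripRep_spec τ r
    obtain ⟨p, hp, δ, hδ, hgδ⟩ := exists_classVec (stripRep τ r) k
    simp only [rowMod, e1, e2] at hp
    have hterm := latticeTerm_mul s τ k.1 r.1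
    simp only [H]
    rw [Finset.sum_eq_single p]
    · simp only [a, Ψ, Int.cast_mul, Int.cast_natCast, hp, and_self, if_true, hterm, stripFun,
        if_pos (And.intro e3 e4), im_smul_rpow, e1, e2]
      rw [hgδ, mul_smul, hG δ hδ]
      push_cast
      ring
    · intro p' _ hne
      simp only [a, Ψ, Int.cast_mul, Int.cast_natCast]
      rw [if_neg, Complex.ofReal_zero, mul_zero]
      intro h
      exact hne (classVec_injective (Prod.ext (h.1.symm.trans (by rw [hp]))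
        (h.2.symm.trans (by rw [hp]))))
    · exact fun h => absurd (Finset.mem_univ p) h
  have hsupp : ∀ w ∉ Set.range Ψ, H w = 0 := by
    intro w hw
    refine Finset.sum_eq_zero fun p _ => ?_
    simp only [a]
    by_cases hw0 : w = 0
    · subst hw0
      rw [latticeTerm_zero (by linarith : s ≠ 0) τ]
      simp
    · rw [if_neg, Complex.ofReal_zero, mul_zero]
      rintro ⟨h1, h2⟩
      refine hw ?_
      have hpos : 0 < Int.gcd w.1 w.2 := by
        rw [Int.gcd_pos_iff]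
        by_contra hc
        push Not at hc
        exact hw0 (Prod.ext hc.1 hc.2)
      obtain ⟨m', n', hgcd, hm, hn'⟩ := Int.exists_gcd_one hpos
      refine ⟨(⟨Int.gcd w.1 w.2, hpos, coprime_of_classVec h1 h2⟩,
        ⟨(m', n'), Int.isCoprime_iff_gcd_eq_one.mpr hgcd⟩), ?_⟩
      simp only [Ψ]
      exact Prod.ext (show (Int.gcd w.1 w.2 : ℤ) * m' = w.1 by rw [mul_comm]; exact hm.symm)
        (show (Int.gcd w.1 w.2 : ℤ) * n' = w.2 by rw [mul_comm]; exact hn'.symm)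
  have hprod : HasSum (fun x : CoprimePos n × BottomRow =>
      ((x.1.1 : ℝ) ^ (-(2 * s)) : ℝ) * stripFun G s (stripRep τ x.2 • τ))
      (∑ p, G (p.1.out⁻¹ • τ) * (classSum n (classVec n p) s τ : ℂ)) := by
    have := (hΨ.hasSum_iff hsupp).mpr hH
    exact this.congr_fun fun x => (hval x).symm
  have hK : Summable fun r : BottomRow => stripFun G s (stripRep τ r • τ) := by
    simpa using hprod.summable.prod_factor ⟨1, one_pos, Nat.coprime_one_left n⟩
  have hsupp2 : ∀ g ∉ Set.range (stripRep τ), stripFun G s (g • τ) = 0 := fun g hg => by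
    rw [stripFun, if_neg]
    exact fun h => hg (mem_range_stripRep τ h.1 h.2)
  refine ⟨((stripRep_injective τ).summable_iff hsupp2).mp hK, ?_⟩
  rw [← hprod.tsum_eq, hprod.summable.tsum_prod, lFactor, Complex.ofReal_tsum, ← tsum_mul_right]
  refine tsum_congr fun k => ?_
  rw [← (stripRep_injective τ).tsum_eq (f := fun g : SL(2, ℤ) => stripFun G s (g • τ))
    (fun g hg => by_contra fun h => hg (hsupp2 g h)), ← tsum_mul_left]

end Fermat.Agent.ResidualThree
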