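import Fermat.Agent.ResidualThree.Asai.Period
import Fermat.Agent.ResidualThree.Asai.Rows

/-!
# A vanishing period bounds the strip integrals as `s → 1+`

With `Asai.Density` this shows that the period does not vanish.
-/

noncomputable section

open MeasureTheory Set Filter
open scoped MatrixGroups ModularGroup ENNReal

namespace Fermat.Agent.ResidualThree

open UpperHalfPlane CongruenceSubgroup

local notation "Γℚ" => (AlgebraicClosure ℚ ≃ₐ[ℚ] AlgebraicClosure ℚ)

theorem measurable_classSum (N : ℕ) (v : ZMod N × ZMod N) (s : ℝ) :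
    Measurable fun τ : ℍ => classSum N v s τ := by
  classical
  have hterm : ∀ w : ℤ × ℤ, Measurable fun τ : ℍ => latticeTerm s τ w := fun w => by
    unfold latticeTerm
    exact (UpperHalfPlane.continuous_im.measurable.pow_const s).div
      (((Complex.continuous_normSq.comp ((continuous_const.mul UpperHalfPlane.continuous_coe).add
        continuous_const)).measurable).pow_const s)
  set f : ℤ × ℤ → ℍ → ℝ := fun w τ =>
    if (w.1 : ZMod N) = v.1 ∧ (w.2 : ZMod N) = v.2 then latticeTerm s τ w else 0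
  have hf : ∀ w, Measurable (f w) := fun w => by
    simp only [f]; split_ifs
    · exact hterm w
    · exact measurable_const
  have hnn : ∀ w τ, 0 ≤ f w τ := fun w τ => by
    simp only [f]; split_ifs
    · exact latticeTerm_nonneg _ _ _
    · exact le_rfl
  have e : (fun τ : ℍ => classSum N v s τ) = fun τ => (∑' w, ENNReal.ofReal (f w τ)).toReal := by
    funext τ
    rw [ENNReal.tsum_toReal_eq fun w => ENNReal.ofReal_ne_top]
    exact tsum_congr fun w => (ENNReal.toReal_ofReal (hnn w τ)).symm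
  rw [e]
  exact (Measurable.tsum fun w => (hf w).ennreal_ofReal).ennreal_toReal

theorem measurable_stripFun {G : ℍ → ℂ} (hG : Continuous G) (s : ℝ) :
    Measurable (stripFun G s) := by
  unfold stripFun
  refine Measurable.ite ?_ (hG.measurable.mul
    (Complex.continuous_ofReal.measurable.comp
      (UpperHalfPlane.continuous_im.measurable.pow_const s)))
    measurable_const
  exact (measurableSet_le measurable_const UpperHalfPlane.continuous_re.measurable).inter
    (measurableSet_lt UpperHalfPlane.continuous_re.measurable measurable_const)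

theorem stripFun_norm (G : ℍ → ℂ) (s : ℝ) (z : ℍ) :
    stripFun (fun w => (‖G w‖ : ℂ)) s z = ((‖stripFun G s z‖ : ℝ) : ℂ) := by
  unfold stripFun
  split_ifs
  · rw [norm_mul, Complex.norm_real, Real.norm_eq_abs,
    abs_of_nonneg (Real.rpow_nonneg z.im_pos.le s)]
    push_cast; ring
  · simp

theorem half_le_im_of_mem_fd {τ : ℍ} (h : τ ∈ (ModularGroup.fd : Set ℍ)) : 1 / 2 ≤ τ.im := by
  nlinarith [ModularGroup.three_le_four_mul_im_sq_of_mem_fd h, τ.im_pos]

namespace BianchiDatum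

variable {ρ : Γℚ →* GL (Fin 2) (ZMod 3)} {n₀ : ℕ} (d : BianchiDatum ρ n₀)

/-- If the period vanishes, the strip integrals stay bounded as `s → 1+`. -/
theorem exists_strip_bound (hn : 0 < n₀) (hP : period d.F n₀ = 0) :
    ∃ K : ℝ, ∀ s : ℝ, 1 < s → s ≤ 2 →
      Integrable (stripFun d.onPlane s) ∧ ‖∫ z, stripFun d.onPlane s z‖ ≤ K := by
  classical
  have : NeZero n₀ := ⟨hn.ne'⟩
  let : Fintype (SL(2, ℤ) ⧸ Gamma0 n₀) := Fintype.ofFinite _
  set P := (SL(2, ℤ) ⧸ Gamma0 n₀) × (ZMod n₀)ˣ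
  set Gp : P → ℍ → ℂ := fun p τ => d.onPlane (p.1.out⁻¹ • τ)
  choose C hC using fun p : P => d.exists_weighted_bound hn p.1.out⁻¹
  have hC0 : ∀ p, 0 ≤ C p := fun p => le_trans (by positivity) (hC p UpperHalfPlane.I)
  obtain ⟨K₀, hK₀⟩ := exists_classSum_bound n₀
  set V := ((volume : Measure ℍ) ModularGroup.fd).toReal
  refine ⟨(∑ p : P, C p * |K₀|) * V / 2, fun s hs hs2 => ?_⟩
  set A := latticeMain n₀ s
  set f := stripFun d.onPlane s
  set M := ∑ p : P, C p * (|A| + |K₀|)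
  have hfm : Measurable f := measurable_stripFun d.continuous_onPlane s
  have hEb : ∀ τ ∈ (ModularGroup.fd : Set ℍ), ∀ p : P,
      (Summable fun w : ℤ × ℤ => if (w.1 : ZMod n₀) = (classVec n₀ p).1 ∧
        (w.2 : ZMod n₀) = (classVec n₀ p).2 then latticeTerm s τ w else 0) ∧
      |classSum n₀ (classVec n₀ p) s τ - A| ≤ |K₀| * (1 + τ.im ^ 2) := fun τ hτ p => by
    obtain ⟨h1, h2⟩ := hK₀ (classVec n₀ p) s hs hs2 τ (half_le_im_of_mem_fd hτ)
    exact ⟨h1, h2.trans (mul_le_mul_of_nonneg_right (le_abs_self _) (by positivity))⟩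
  have hclass : ∀ τ ∈ (ModularGroup.fd : Set ℍ), ∀ v : ZMod n₀ × ZMod n₀, Summable fun w : ℤ × ℤ =>
      if (w.1 : ZMod n₀) = v.1 ∧ (w.2 : ZMod n₀) = v.2 then latticeTerm s τ w else 0 :=
    fun τ hτ v => (hK₀ v s hs hs2 τ (half_le_im_of_mem_fd hτ)).1
  have hL : 1 ≤ lFactor n₀ s := one_le_lFactor n₀ hs
  have habs : ∀ τ ∈ (ModularGroup.fd : Set ℍ), (Summable fun g : SL(2, ℤ) => ‖f (g • τ)‖) ∧
      ∑' g : SL(2, ℤ), ‖f (g • τ)‖ ≤ M := by
    intro τ hτ
    obtain ⟨h1, h2⟩ := unfold_identity (fun w => (‖d.onPlane w‖ : ℂ))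
      (fun γ hγ z => by simp only [d.onPlane_smul γ hγ z]) hs τ (hclass τ hτ)
    simp only [stripFun_norm] at h1 h2
    have h1' : Summable fun g : SL(2, ℤ) => ‖f (g • τ)‖ := Complex.summable_ofReal.mp h1
    refine ⟨h1', ?_⟩
    rw [← Complex.ofReal_tsum] at h2
    have h3 : lFactor n₀ s * ∑' g : SL(2, ℤ), ‖f (g • τ)‖ =
        ∑ p : P, ‖Gp p τ‖ * classSum n₀ (classVec n₀ p) s τ := by exact_mod_cast h2
    have h4 : 0 ≤ ∑' g : SL(2, ℤ), ‖f (g • τ)‖ := tsum_nonneg fun g => _root_.norm_nonneg _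
    calc ∑' g : SL(2, ℤ), ‖f (g • τ)‖ ≤ lFactor n₀ s * ∑' g : SL(2, ℤ), ‖f (g • τ)‖ :=
          le_mul_of_one_le_left h4 hL
      _ = ∑ p : P, ‖Gp p τ‖ * classSum n₀ (classVec n₀ p) s τ := h3
      _ ≤ M := Finset.sum_le_sum fun p _ => by
          obtain ⟨-, hb⟩ := hEb τ hτ p
          have h5 : classSum n₀ (classVec n₀ p) s τ ≤ (|A| + |K₀|) * (1 + τ.im ^ 2) := by
            nlinarith [(abs_le.mp hb).2, le_abs_self A, abs_nonneg A, sq_nonneg τ.im]
          calc _ ≤ ‖Gp p τ‖ * ((|A| + |K₀|) * (1 + τ.im ^ 2)) :=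
                mul_le_mul_of_nonneg_left h5 (_root_.norm_nonneg _)
            _ = (‖Gp p τ‖ * (1 + τ.im ^ 2)) * (|A| + |K₀|) := by ring
            _ ≤ _ := mul_le_mul_of_nonneg_right (hC p τ) (by positivity)
  have hfin : ∑' g : SL(2, ℤ), ∫⁻ τ in (ModularGroup.fd : Set ℍ), ‖f (g • τ)‖ₑ ≠ ∞ := by
    rw [← lintegral_tsum (f := fun (g : SL(2, ℤ)) (τ : ℍ) => ‖f (g • τ)‖ₑ)
      fun g => ((hfm.comp (Hecke.Pet.measurePreserving_sl g).measurable).enorm).aemeasurable]
    refine ne_top_of_le_ne_top ?_ (setLIntegral_mono' (g := fun _ => ENNReal.ofReal M)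
      Hecke.Pet.measurableSet_fd fun τ hτ => ?_)
    · rw [setLIntegral_const]
      exact ENNReal.mul_ne_top ENNReal.ofReal_ne_top Hecke.Pet.volume_fd_lt_top.ne
    · obtain ⟨h1, h2⟩ := habs τ hτ
      simp only [← ofReal_norm]
      rw [← ENNReal.ofReal_tsum_of_nonneg (fun g => _root_.norm_nonneg _) h1]
      exact ENNReal.ofReal_le_ofReal h2
  obtain ⟨hint, heq⟩ := integral_fd_tsum hfm hfin
  refine ⟨hint, ?_⟩
  set E : P → ℍ → ℂ := fun p τ => Gp p τ * ((classSum n₀ (classVec n₀ p) s τ - A : ℝ) : ℂ)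
  have hfdfin : IsFiniteMeasure ((volume : Measure ℍ).restrict ModularGroup.fd) :=
    ⟨by rw [Measure.restrict_apply_univ]; exact Hecke.Pet.volume_fd_lt_top⟩
  have hGpm : ∀ p, Measurable (Gp p) := fun p =>
    d.continuous_onPlane.measurable.comp (Hecke.Pet.measurePreserving_sl _).measurable
  have hGpi : ∀ p, IntegrableOn (Gp p) ModularGroup.fd := fun p =>
    Integrable.of_bound (hGpm p).aestronglyMeasurable (C p) (by
      filter_upwards [ae_restrict_mem Hecke.Pet.measurableSet_fd] with τ _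
      exact le_trans (le_mul_of_one_le_right (_root_.norm_nonneg _) (by nlinarith [sq_nonneg τ.im]))
        (hC p τ))
  have hEbd : ∀ p, ∀ τ ∈ (ModularGroup.fd : Set ℍ), ‖E p τ‖ ≤ C p * |K₀| := fun p τ hτ => by
    obtain ⟨-, hb⟩ := hEb τ hτ p
    simp only [E]
    rw [norm_mul, Complex.norm_real, Real.norm_eq_abs]
    calc _ ≤ ‖Gp p τ‖ * (|K₀| * (1 + τ.im ^ 2)) :=
        mul_le_mul_of_nonneg_left hb (_root_.norm_nonneg _)
      _ = (‖Gp p τ‖ * (1 + τ.im ^ 2)) * |K₀| := by ring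
      _ ≤ _ := mul_le_mul_of_nonneg_right (hC p τ) (abs_nonneg _)
  have hEi : ∀ p, IntegrableOn (E p) ModularGroup.fd := fun p =>
    Integrable.of_bound ((hGpm p).mul (Complex.continuous_ofReal.measurable.comp
      ((measurable_classSum n₀ _ s).sub_const A))).aestronglyMeasurable (C p * |K₀|) (by
      filter_upwards [ae_restrict_mem Hecke.Pet.measurableSet_fd] with τ hτ using hEbd p τ hτ)
  have hkey : (lFactor n₀ s : ℂ) * (2 * ∫ z, f z) =
      ∑ p : P, ((A : ℂ) * (∫ τ in (ModularGroup.fd : Set ℍ), Gp p τ) +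
        ∫ τ in (ModularGroup.fd : Set ℍ), E p τ) := by
    rw [← heq, ← integral_const_mul]
    rw [setIntegral_congr_fun Hecke.Pet.measurableSet_fd
      (g := fun τ => ∑ p : P, ((A : ℂ) * Gp p τ + E p τ))
      fun τ hτ => ?_]
    · rw [integral_finsetSum (f := fun p τ => (A : ℂ) * Gp p τ + E p τ) _
        fun p _ => ((hGpi p).const_mul _).add (hEi p)]
      refine Finset.sum_congr rfl fun p _ => ?_
      rw [integral_add ((hGpi p).const_mul _) (hEi p), integral_const_mul]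
    · show (lFactor n₀ s : ℂ) * ∑' g : SL(2, ℤ), f (g • τ) = _
      rw [(unfold_identity d.onPlane d.onPlane_smul hs τ (hclass τ hτ)).2]
      refine Finset.sum_congr rfl fun p _ => ?_
      simp only [E, Gp]; push_cast; ring
  have hPzero : ∑ p : P, (A : ℂ) * (∫ τ in (ModularGroup.fd : Set ℍ), Gp p τ) = 0 := by
    rw [← Finset.mul_sum, Fintype.sum_prod_type]
    simp only [Gp, Finset.sum_const, nsmul_eq_mul, ← Finset.mul_sum]
    rw [period, finsum_eq_sum_of_fintype] at hP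
    simp only [onPlane]
    rw [hP]
    simp
  rw [Finset.sum_add_distrib, hPzero, zero_add] at hkey
  have hb : ‖∑ p : P, ∫ τ in (ModularGroup.fd : Set ℍ), E p τ‖ ≤ (∑ p : P, C p * |K₀|) * V := by
    refine (norm_sum_le _ _).trans ?_
    rw [Finset.sum_mul]
    exact Finset.sum_le_sum fun p _ =>
      norm_setIntegral_le_of_norm_le_const Hecke.Pet.volume_fd_lt_top (hEbd p)
  rw [← hkey, norm_mul, norm_mul, Complex.norm_real, Real.norm_eq_abs,
    abs_of_pos (lt_of_lt_of_le one_pos hL), Complex.norm_ofNat] at hb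
  have h1 : 2 * ‖∫ z, f z‖ ≤ lFactor n₀ s * (2 * ‖∫ z, f z‖) :=
    le_mul_of_one_le_left (by positivity) hL
  linarith

end BianchiDatum

end Fermat.Agent.ResidualThree
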