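import Fermat.Agent.ResidualThree.Asai.MeanSquare
import Fermat.Agent.ResidualThree.Asai.Unfold

/-!
# The strip integral as a Dirichlet series

With the divergence of the series it contradicts the bound of `Asai.Unfold`.
-/

noncomputable section

open MeasureTheory Set Filter
open scoped ENNReal

namespace Fermat.Agent.ResidualThree

open UpperHalfPlane EisRing

local notation "Γℚ" => (AlgebraicClosure ℚ ≃ₐ[ℚ] AlgebraicClosure ℚ)

theorem integral_expTurn_int (b : ℤ) :
    ∫ t in Set.Ico (0 : ℝ) 1, expTurn ((b : ℝ) * t) = if b = 0 then 1 else 0 := by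
  split_ifs with h
  · simp [h, expTurn_zero]
  · rw [integral_Ico_eq_integral_Ioc, ← intervalIntegral.integral_of_le zero_le_one]
    have hc : 2 * (Real.pi : ℂ) * Complex.I * (b : ℂ) ≠ 0 :=
      mul_ne_zero Complex.two_pi_I_ne_zero (by exact_mod_cast h)
    have e : ∀ t : ℝ, expTurn ((b : ℝ) * t) =
        Complex.exp (2 * (Real.pi : ℂ) * Complex.I * (b : ℂ) * (t : ℂ)) := fun t => by
      rw [expTurn]; congr 1; push_cast; ring
    simp only [e]
    rw [integral_exp_mul_complex hc]
    have h1 := expTurn_int b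
    rw [expTurn, Complex.ofReal_intCast] at h1
    rw [Complex.ofReal_one, mul_one, h1]
    simp

namespace BianchiDatum

variable {ρ : Γℚ →* GL (Fin 2) (ZMod 3)} {n₀ : ℕ} (d : BianchiDatum ρ n₀)

/-- The real line at height `y`. -/
def linePt (y : ℝ) (hy : 0 < y) (t : ℝ) : H3 := ⟨(t : ℂ), y, hy⟩

/-- The average over a horizontal period. -/
theorem hasSum_line_average {y : ℝ} (hy : 0 < y) :
    HasSum (fun n : ℕ =>
      ((2 * d.coeffNat n * (y * besselK0 (4 * Real.pi / Real.sqrt 3 * n * y)) : ℝ) : ℂ))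
      (∫ t in Set.Ico (0 : ℝ) 1, d.F (linePt y hy t)) := by
  classical
  have : Countable EisRing := pair_injective.countable
  have h1 : HasSum (fun x : EisRing => ∫ t in Set.Ico (0 : ℝ) 1,
      (d.termAt y x : ℂ) * expTurn ((x.im : ℝ) * t))
      (∫ t in Set.Ico (0 : ℝ) 1, d.F (linePt y hy t)) := by
    refine hasSum_integral_of_dominated_convergence (bound := fun x _ => |d.termAt y x|)
      (fun x => Continuous.aestronglyMeasurable (by unfold expTurn; fun_prop))
      (fun x => Eventually.of_forall fun t => by simp [norm_expTurn, Complex.norm_real])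
      (Eventually.of_forall fun _ => d.summable_abs_termAt hy) (integrable_const _)
      (Eventually.of_forall fun t => ?_)
    have h := d.hasSum_expansion (linePt y hy t)
    refine h.congr_fun fun x => ?_
    show _ = (d.termAt y x : ℂ) * expTurn (2 * (emb x * (t : ℂ) / sqrtNegThree).re)
    congr 2
    have e := phase_eq x t 0
    simpa using e.symm
  simp only [integral_const_mul, integral_expTurn_int, mul_ite, mul_one, mul_zero] at h1
  set g : ℤ → ℂ := fun m => (d.termAt y ⟨m, 0⟩ : ℂ)
  have hι : Function.Injective fun m : ℤ => (⟨m, 0⟩ : EisRing) := fun a b e =>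
    congrArg QuadraticAlgebra.re e
  have h2 : HasSum g (∫ t in Set.Ico (0 : ℝ) 1, d.F (linePt y hy t)) := by
    rw [← hι.hasSum_iff (fun x hx => ?_)] at h1
    · exact h1.congr_fun fun m => by simp [g]
    · rw [if_neg]
      intro h
      exact hx ⟨x.re, QuadraticAlgebra.ext rfl h.symm⟩
  have h3 := h2.nat_add_neg
  have hg0 : g 0 = 0 := by
    simp only [g, termAt]
    rw [show (⟨0, 0⟩ : EisRing) = 0 from rfl, d.cf_zero]
    simp
  rw [hg0, add_zero] at h3
  refine h3.congr_fun fun n => ?_
  have e1 : (⟨(n : ℤ), 0⟩ : EisRing) = (n : EisRing) :=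
    QuadraticAlgebra.ext (by simp) (by simp)
  have e2 : (⟨-(n : ℤ), 0⟩ : EisRing) = -(n : EisRing) :=
    QuadraticAlgebra.ext (by simp) (by simp)
  simp only [g, termAt, e1, e2, d.cf_neg, map_neg, norm_neg, map_natCast, Complex.norm_natCast,
    coeffNat_eq]
  push_cast
  ring_nf

/-- The Mellin transform of `K₀`. -/
def mellinK0 (s : ℝ) : ℝ := ∫ u in Set.Ioi (0 : ℝ), besselK0 u * u ^ (s - 1)

theorem integral_scaled_K0 {s a : ℝ} (hs : 0 < s) (ha : 0 < a) :
    (IntegrableOn (fun y : ℝ => y ^ (s - 1) * besselK0 (a * y)) (Set.Ioi 0)) ∧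
      ∫ y in Set.Ioi (0 : ℝ), y ^ (s - 1) * besselK0 (a * y) = a ^ (-s) * mellinK0 s := by
  have e : ∀ y ∈ Set.Ioi (0 : ℝ), y ^ (s - 1) * besselK0 (a * y) =
      a ^ (-(s - 1)) * (besselK0 (a * y) * (a * y) ^ (s - 1)) := fun y hy => by
    rw [Real.mul_rpow ha.le (le_of_lt hy), Real.rpow_neg ha.le]
    field_simp
  refine ⟨?_, ?_⟩
  · refine IntegrableOn.congr_fun (Integrable.const_mul ?_ _) (fun y hy => (e y hy).symm)
      measurableSet_Ioi
    exact (integrableOn_Ioi_comp_mul_left_iff (fun u => besselK0 u * u ^ (s - 1)) 0 ha).mpr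
      (by rw [mul_zero]; exact besselK0_integrableOn_rpow hs)
  · rw [setIntegral_congr_fun measurableSet_Ioi e, integral_const_mul,
      integral_comp_mul_left_Ioi (fun u => besselK0 u * u ^ (s - 1)) 0 ha, mul_zero, smul_eq_mul,
      mellinK0, ← mul_assoc, show -s = -(s - 1) - 1 by ring, Real.rpow_sub_one ha.ne',
      div_eq_mul_inv]

theorem mellinK0_ge {s : ℝ} (hs : 1 ≤ s) : besselK0 2 ≤ mellinK0 s := by
  have hsub : Set.Ioc (1 : ℝ) 2 ⊆ Set.Ioi 0 := fun u hu => Set.mem_Ioi.mpr (lt_trans one_pos hu.1)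
  have hi := besselK0_integrableOn_rpow (show 0 < s by linarith)
  calc besselK0 2 = ∫ _ in Set.Ioc (1 : ℝ) 2, besselK0 2 := by
        rw [setIntegral_const]; norm_num
    _ ≤ ∫ u in Set.Ioc (1 : ℝ) 2, besselK0 u * u ^ (s - 1) := by
        refine setIntegral_mono_on (integrableOn_const (by simp) (by simp)) (hi.mono_set hsub)
          measurableSet_Ioc fun u hu => ?_
        have hu0 : 0 < u := lt_trans one_pos hu.1
        calc besselK0 2 ≤ besselK0 u :=
              besselK0_antitoneOn (Set.mem_Ioi.mpr hu0) (Set.mem_Ioi.mpr two_pos) hu.2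
          _ ≤ _ := le_mul_of_one_le_right (besselK0_nonneg u)
              (Real.one_le_rpow hu.1.le (by linarith))
    _ ≤ mellinK0 s := setIntegral_mono_set hi (by
        filter_upwards [ae_restrict_mem measurableSet_Ioi] with u hu
        exact mul_nonneg (besselK0_nonneg u) (Real.rpow_nonneg (le_of_lt hu) _))
        (Eventually.of_forall hsub)

/-- The strip integral is the Dirichlet series times an elementary factor. -/
theorem integral_stripFun {s : ℝ} (hs : 1 < s) (hint : Integrable (stripFun d.onPlane s)) :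
    ∫ z, stripFun d.onPlane s z = ((2 * (4 * Real.pi / Real.sqrt 3) ^ (-s) * mellinK0 s *
      ∑' n : ℕ, d.coeffNat n * (n : ℝ) ^ (-s) : ℝ) : ℂ) := by
  classical
  set κ := 4 * Real.pi / Real.sqrt 3
  have hκ : 0 < κ := by positivity
  set f := stripFun d.onPlane s
  rw [integral_upperHalfPlane]
  set ψ : ℝ × ℝ → ℂ := fun p => (p.2 ^ 2)⁻¹ • f (ofComplex (Complex.measurableEquivRealProd.symm p))
  have hpre : {w : ℂ | 0 < w.im} =
      Complex.measurableEquivRealProd ⁻¹' (Set.univ ×ˢ Set.Ioi (0 : ℝ)) := by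
    ext w; simp [Complex.measurableEquivRealProd_apply]
  have hw : ∀ w : ℂ, (w.im ^ 2)⁻¹ • f (ofComplex w) = ψ (Complex.measurableEquivRealProd w) := by
    intro w
    simp only [ψ, MeasurableEquiv.symm_apply_apply]
    rfl
  simp only [hw]
  rw [hpre, Complex.volume_preserving_equiv_real_prod.setIntegral_preimage_emb
    Complex.measurableEquivRealProd.measurableEmbedding]
  have hintψ : IntegrableOn ψ (Set.univ ×ˢ Set.Ioi (0 : ℝ)) := by
    rw [← Complex.volume_preserving_equiv_real_prod.integrableOn_comp_preimage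
      Complex.measurableEquivRealProd.measurableEmbedding, ← hpre]
    have h := hint
    rw [volume_def, integrable_withDensity_iff_integrable_smul (by
      refine Measurable.pow_const (Measurable.div measurable_const ?_) 2
      exact continuous_im.measurable.subtype_mk)] at h
    have hr : Set.range UpperHalfPlane.coe = {w : ℂ | 0 < w.im} := UpperHalfPlane.range_coe
    rw [← hr, IntegrableOn, ← measurableEmbedding_coe.map_comap,
      measurableEmbedding_coe.integrable_map_iff]
    refine h.congr (Eventually.of_forall fun z => ?_)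
    simp only [Function.comp_apply, ← hw, ofComplex_apply]
    rw [NNReal.smul_def]
    congr 1
    simp
  rw [Measure.volume_eq_prod] at hintψ ⊢
  rw [IntegrableOn, ← Measure.prod_restrict, Measure.restrict_univ] at hintψ
  rw [← Measure.prod_restrict, Measure.restrict_univ, integral_prod_symm _ hintψ]
  have hψ : ∀ y : ℝ, ∀ hy : 0 < y, ∫ t : ℝ, ψ (t, y) =
      ((y ^ (s - 2) : ℝ) : ℂ) * ∫ t in Set.Ico (0 : ℝ) 1, d.F (linePt y hy t) := by
    intro y hy
    rw [← integral_const_mul, ← integral_indicator measurableSet_Ico]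
    refine integral_congr_ae (Eventually.of_forall fun t => ?_)
    simp only [ψ, Complex.measurableEquivRealProd_symm_apply]
    rw [ofComplex_apply_of_im_pos (show 0 < (⟨t, y⟩ : ℂ).im from hy)]
    simp only [f, stripFun, onPlane, Complex.real_smul]
    have hre : (⟨⟨t, y⟩, hy⟩ : ℍ).re = t := rfl
    have him : (⟨⟨t, y⟩, hy⟩ : ℍ).im = y := rfl
    by_cases ht : 0 ≤ t ∧ t < 1
    · rw [if_pos (by rw [hre]; exact ht), him,
      Set.indicator_of_mem (show t ∈ Set.Ico (0 : ℝ) 1 from ht),
        show s = (s - 2) + 2 by ring, Real.rpow_add hy, Real.rpow_two]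
      show _ * (d.F (linePt y hy t) * _) = _
      have : (y : ℂ) ≠ 0 := by exact_mod_cast hy.ne'
      push_cast
      field_simp
      ring_nf
    · rw [if_neg (by rw [hre]; exact ht),
      Set.indicator_of_notMem (show t ∉ Set.Ico (0 : ℝ) 1 from ht),
        mul_zero]
  set F : ℕ → ℝ → ℂ := fun n y =>
    ((2 * d.coeffNat n * (y ^ (s - 1) * besselK0 (κ * n * y)) : ℝ) : ℂ)
  have hy1 : ∀ y ∈ Set.Ioi (0 : ℝ), HasSum (fun n => F n y) (∫ t : ℝ, ψ (t, y)) := by
    intro y hy
    rw [hψ y hy]
    refine ((d.hasSum_line_average hy).mul_left ((y ^ (s - 2) : ℝ) : ℂ)).congr_fun fun n => ?_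
    simp only [F]
    rw [← Complex.ofReal_mul, show s - 1 = (s - 2) + 1 by ring,
      Real.rpow_add_one (Set.mem_Ioi.mp hy).ne']
    congr 1
    ring
  have hnorm :
      ∀ n y, 0 < y → ‖F n y‖ = 2 * |d.coeffNat n| * (y ^ (s - 1) * besselK0 (κ * n * y)) := by
    intro n y hy
    simp only [F]
    rw [Complex.norm_real, Real.norm_eq_abs, abs_mul, abs_mul, abs_two,
      abs_of_nonneg (mul_nonneg (Real.rpow_nonneg hy.le _) (besselK0_nonneg _))]
  have hFi : ∀ n, IntegrableOn (F n) (Set.Ioi 0) ∧
      ∫ y in Set.Ioi (0 : ℝ), F n y =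
        ((2 * κ ^ (-s) * mellinK0 s * (d.coeffNat n * (n : ℝ) ^ (-s)) : ℝ) : ℂ) ∧
      ∫ y in Set.Ioi (0 : ℝ), ‖F n y‖ =
        2 * κ ^ (-s) * mellinK0 s * (|d.coeffNat n| * (n : ℝ) ^ (-s)) := by
    intro n
    rcases Nat.eq_zero_or_pos n with rfl | hn
    · simp only [F, d.coeffNat_zero, mul_zero, zero_mul, Complex.ofReal_zero, norm_zero, abs_zero,
        integral_zero, and_self, and_true]
      exact integrableOn_zero
    · have hn' : (0 : ℝ) < n := by exact_mod_cast hn
      obtain ⟨hi, he⟩ := integral_scaled_K0 (show 0 < s by linarith) (mul_pos hκ hn')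
      refine ⟨(hi.const_mul _).ofReal, ?_, ?_⟩
      · simp only [F]
        rw [integral_complex_ofReal, integral_const_mul, he, Real.mul_rpow hκ.le hn'.le]
        congr 1
        ring
      · rw [setIntegral_congr_fun measurableSet_Ioi fun y hy => hnorm n y hy,
          integral_const_mul, he,
          Real.mul_rpow hκ.le hn'.le]
        ring
  have hsum := hasSum_integral_of_summable_integral_norm (F := F)
    (μ := (volume : Measure ℝ).restrict (Set.Ioi 0)) (fun n => (hFi n).1)
    (by simp only [fun n => (hFi n).2.2]; exact (d.summable_coeff hs).mul_left _)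
  simp only [fun n => (hFi n).2.1] at hsum
  rw [setIntegral_congr_fun measurableSet_Ioi (fun y hy => ((hy1 y hy).tsum_eq).symm),
    ← hsum.tsum_eq,
    ← Complex.ofReal_tsum, tsum_mul_left]

end BianchiDatum

end Fermat.Agent.ResidualThree
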