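import Fermat.Agent.ResidualThree.Asai.Density
import Fermat.Agent.ResidualThree.Asai.Strip

/-!
# The period of a Bianchi datum does not vanish

This is the non-vanishing behind the quadratic descent to `ℚ` of the theta form.
-/

noncomputable section

open MeasureTheory Set Filter Topology

namespace Fermat.Agent.ResidualThree

local notation "Γℚ" => (AlgebraicClosure ℚ ≃ₐ[ℚ] AlgebraicClosure ℚ)

/-- The period of the quadratic descent does not vanish. -/
theorem period_ne_zero {ρ : Γℚ →* GL (Fin 2) (ZMod 3)} (hρ : Continuous ρ)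
    (hsurj : Function.Surjective ρ)
    (hdet : ∀ σ : Γℚ, Matrix.GeneralLinearGroup.det (ρ σ) =
      WeierstrassCurve.modThreeCyclotomicChar σ)
    {n₀ : ℕ} (hn : 0 < n₀) (d : BianchiDatum ρ n₀) : period d.F n₀ ≠ 0 := by
  intro hP
  obtain ⟨K, hK⟩ := d.exists_strip_bound hn hP
  set κ := 4 * Real.pi / Real.sqrt 3
  have hκ : 0 < κ := by positivity
  have hκ1 : 1 ≤ κ := by
    rw [le_div_iff₀ (by positivity), one_mul]
    have : Real.sqrt 3 ≤ 2 := Real.sqrt_le_iff.mpr ⟨two_pos.le, by norm_num⟩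
    nlinarith [Real.pi_gt_three]
  set c := 2 * κ ^ (-(2 : ℝ)) * besselK0 2
  have hc : 0 < c := by
    have := besselK0_pos two_pos
    positivity
  have ht := (d.tendsto_series_atTop hρ hsurj hdet hn).eventually_gt_atTop (max K 0 / c)
  obtain ⟨s, hs, hs2, hbig⟩ :=
    ((eventually_mem_nhdsWithin : ∀ᶠ s in 𝓝[>] (1 : ℝ), s ∈ Set.Ioi 1).and
      ((eventually_nhdsWithin_of_eventually_nhds (eventually_le_nhds one_lt_two)).and ht)).exists
  obtain ⟨hint, hb⟩ := hK s hs hs2
  rw [d.integral_stripFun hs hint, Complex.norm_real, Real.norm_eq_abs] at hb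
  set D := ∑' n : ℕ, d.coeffNat n * (n : ℝ) ^ (-s)
  have hD : 0 < D := lt_of_le_of_lt (by positivity) hbig
  have h1 : c ≤ 2 * κ ^ (-s) * BianchiDatum.mellinK0 s := by
    have e1 : κ ^ (-(2 : ℝ)) ≤ κ ^ (-s) := Real.rpow_le_rpow_of_exponent_le hκ1 (by linarith)
    exact mul_le_mul (mul_le_mul_of_nonneg_left e1 two_pos.le)
      (BianchiDatum.mellinK0_ge (le_of_lt hs)) (besselK0_pos two_pos).le (by positivity)
  have h2 : max K 0 < D * c := (div_lt_iff₀ hc).mp hbig
  have h3 := le_abs_self (2 * κ ^ (-s) * BianchiDatum.mellinK0 s * D)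
  have h4 : c * D ≤ 2 * κ ^ (-s) * BianchiDatum.mellinK0 s * D :=
      mul_le_mul_of_nonneg_right h1 hD.le
  linarith [le_max_left K 0]

end Fermat.Agent.ResidualThree
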