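import Fermat.Agent.ResidualThree.Asai.Bounded
import Fermat.Agent.ResidualThree.Asai.Coeff
import Fermat.Agent.ResidualThree.Spherical.Bessel

/-!
# The mean square bound for the coefficients

It bounds the squared coefficients at split primes and justifies the strip integral.
-/

noncomputable section

open Finset Filter Topology

namespace Fermat.Agent.ResidualThree

open EisRing

local notation "Γℚ" => (AlgebraicClosure ℚ ≃ₐ[ℚ] AlgebraicClosure ℚ)

/-- `e(t) = exp(2πit)`. -/
def expTurn (t : ℝ) : ℂ := Complex.exp (2 * (Real.pi : ℂ) * Complex.I * (t : ℂ))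

theorem norm_expTurn (t : ℝ) : ‖expTurn t‖ = 1 := by
  rw [expTurn, show 2 * (Real.pi : ℂ) * Complex.I * (t : ℂ) =
    ((2 * Real.pi * t : ℝ) : ℂ) * Complex.I by push_cast; ring]
  exact Complex.norm_exp_ofReal_mul_I _

theorem expTurn_add (s t : ℝ) : expTurn (s + t) = expTurn s * expTurn t := by
  simp only [expTurn, ← Complex.exp_add]; push_cast; ring_nf

theorem expTurn_zero : expTurn 0 = 1 := by simp [expTurn]

theorem conj_expTurn (t : ℝ) : (starRingEnd ℂ) (expTurn t) = expTurn (-t) := by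
  rw [expTurn, expTurn, ← Complex.exp_conj]
  simp only [map_mul, map_ofNat, Complex.conj_ofReal, Complex.conj_I]
  push_cast; ring_nf

theorem expTurn_int (m : ℤ) : expTurn (m : ℝ) = 1 := by
  rw [expTurn, Complex.exp_eq_one_iff]
  exact ⟨m, by push_cast; ring⟩

/-- Orthogonality of the additive characters modulo `N`. -/
theorem sum_expTurn_div {N : ℕ} (m : ℤ) (hm : |m| < (N : ℤ)) :
    ∑ j ∈ range N, expTurn ((m : ℝ) * ((j : ℕ) : ℝ) / N) = if m = 0 then (N : ℂ) else 0 := by
  split_ifs with h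
  · simp [h, expTurn_zero]
  · have hN : (0 : ℤ) < N := lt_of_le_of_lt (abs_nonneg m) hm
    have hN' : (N : ℝ) ≠ 0 := by exact_mod_cast hN.ne'
    have hpow : ∀ j : ℕ, expTurn ((m : ℝ) * j / N) = expTurn ((m : ℝ) / N) ^ j := fun j => by
      rw [expTurn, expTurn, ← Complex.exp_nat_mul]; push_cast; ring_nf
    simp only [hpow]
    have hne : expTurn ((m : ℝ) / N) ≠ 1 := by
      rw [expTurn, ne_eq, Complex.exp_eq_one_iff]
      rintro ⟨l, hl⟩
      have hl2 : ((m : ℝ) / N : ℂ) = (l : ℂ) := by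
        have h2 : (2 * (Real.pi : ℂ) * Complex.I) ≠ 0 := Complex.two_pi_I_ne_zero
        apply mul_left_cancel₀ h2
        push_cast at hl ⊢
        linear_combination hl
      have hl3 : (m : ℝ) = l * N := by
        have : ((m : ℝ) / N) = (l : ℝ) := by exact_mod_cast hl2
        field_simp at this
        linarith
      have hl4 : m = l * N := by exact_mod_cast hl3
      subst hl4
      rw [abs_mul, Nat.abs_cast] at hm
      have : |l| < 1 := lt_of_mul_lt_mul_right (by linarith) hN.le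
      have := abs_lt.mp this
      have : l = 0 := by omega
      simp [this] at h
    rw [geom_sum_eq hne]
    have : expTurn ((m : ℝ) / N) ^ N = 1 := by
      rw [← hpow, mul_div_cancel_right₀ _ hN', expTurn_int]
    simp [this]

/-- The phase of `x / √-3` at `t₁ + t₂ω`. -/
theorem phase_eq (x : EisRing) (t₁ t₂ : ℝ) :
    2 * (emb x * ((t₁ : ℂ) + (t₂ : ℂ) * omegaC) / sqrtNegThree).re =
      (x.im : ℝ) * t₁ + ((x.re : ℝ) - x.im) * t₂ := by
  have h : Real.sqrt 3 * Real.sqrt 3 = 3 := Real.mul_self_sqrt (by norm_num)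
  have hs : Real.sqrt 3 ≠ 0 := by positivity
  simp only [Complex.div_re, Complex.mul_re, Complex.mul_im, Complex.add_re, Complex.add_im,
    emb_re, emb_im, sqrtNegThree, omegaC, Complex.normSq_mk, Complex.ofReal_re, Complex.ofReal_im]
  field_simp
  ring

/-- Coordinates as an equivalence. -/
def eisPairEquiv : EisRing ≃ Eis3 where
  toFun := pair
  invFun e := ⟨e.1, e.2⟩
  left_inv _ := rfl
  right_inv _ := rfl

theorem eisPairEquiv_apply (x : EisRing) : eisPairEquiv x = pair x := rfl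

namespace BianchiDatum

variable {ρ : Γℚ →* GL (Fin 2) (ZMod 3)} {n₀ : ℕ} (d : BianchiDatum ρ n₀)

/-- The real factor of a term of the expansion at height `y`. -/
def termAt (y : ℝ) (x : EisRing) : ℝ :=
  (d.cf x : ℝ) * (y * besselK0 (4 * Real.pi * ‖emb x‖ * y / Real.sqrt 3))

theorem hasSum_expansion (p : H3) : HasSum (fun x : EisRing => (d.termAt p.y x : ℂ) *
    expTurn (2 * (emb x * p.z / sqrtNegThree).re)) (d.F p) := by
  have h := d.expansion p
  rw [← eisPairEquiv.hasSum_iff] at h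
  refine h.congr_fun fun x => ?_
  simp only [Function.comp_apply, eisPairEquiv_apply, termAt, cf, expTurn, emb_apply]
  push_cast
  ring

theorem summable_abs_termAt {y : ℝ} (hy : 0 < y) : Summable fun x : EisRing => |d.termAt y x| := by
  have h := summable_norm_iff.mpr (d.hasSum_expansion ⟨0, y, hy⟩).summable
  simpa [norm_expTurn, Complex.norm_real] using h

/-- The point `t₁ + t₂ω` at height `y`. -/
def gridPt (y : ℝ) (hy : 0 < y) (t₁ t₂ : ℝ) : H3 := ⟨(t₁ : ℂ) + (t₂ : ℂ) * omegaC, y, hy⟩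

/-- Bessel's inequality: the squares of the Fourier terms are bounded by the sup norm. -/
theorem sum_termAt_sq_le {B : ℝ} (hB : ∀ p, ‖d.F p‖ ≤ B) {y : ℝ} (hy : 0 < y)
    (T : Finset EisRing) : ∑ x ∈ T, d.termAt y x ^ 2 ≤ B ^ 2 := by
  classical
  have hB0 : 0 ≤ B := (_root_.norm_nonneg (d.F ⟨0, y, hy⟩)).trans (hB ⟨0, y, hy⟩)
  refine le_of_forall_pos_le_add fun δ hδ => ?_
  obtain ⟨ε, hε, hεδ⟩ : ∃ ε : ℝ, 0 < ε ∧ (B + ε) ^ 2 ≤ B ^ 2 + δ := by
    refine ⟨min 1 (δ / (2 * B + 2)), lt_min one_pos (by positivity), ?_⟩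
    have h1 := min_le_left 1 (δ / (2 * B + 2))
    have h2 := min_le_right 1 (δ / (2 * B + 2))
    have h3 : 0 ≤ min 1 (δ / (2 * B + 2)) := le_min zero_le_one (by positivity)
    rw [le_div_iff₀ (by positivity)] at h2
    nlinarith
  refine le_trans ?_ hεδ
  have hs := d.summable_abs_termAt hy
  obtain ⟨U₀, hU₀⟩ := (((tendsto_tsum_compl_atTop_zero fun x : EisRing => |d.termAt y x|).eventually
    (gt_mem_nhds hε))).exists_forall_of_atTop
  set U := U₀ ∪ T
  have htail : ∑' x : {x // x ∉ U}, |d.termAt y x| < ε := hU₀ U subset_union_left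
  set G : ℝ → ℝ → ℂ := fun t₁ t₂ => ∑ x ∈ U, (d.termAt y x : ℂ) *
    expTurn ((x.im : ℝ) * t₁ + ((x.re : ℝ) - x.im) * t₂)
  have hG : ∀ t₁ t₂, ‖G t₁ t₂‖ ≤ B + ε := by
    intro t₁ t₂
    have h := d.hasSum_expansion (gridPt y hy t₁ t₂)
    simp only [gridPt, phase_eq] at h
    have h2 := h.summable.sum_add_tsum_compl (s := U)
    rw [h.tsum_eq] at h2
    have e : G t₁ t₂ = d.F (gridPt y hy t₁ t₂) - ∑' x : {x // x ∉ U}, ((d.termAt y x : ℂ) *
        expTurn ((((x : EisRing)).im : ℝ) * t₁ +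
          ((((x : EisRing)).re : ℝ) - (x : EisRing).im) * t₂)) :=
      eq_sub_of_add_eq h2
    rw [e]
    refine (norm_sub_le _ _).trans (add_le_add (hB _) ?_)
    refine le_trans (tsum_of_norm_bounded (hs.subtype _).hasSum fun x => ?_) htail.le
    simp [norm_expTurn, Complex.norm_real]
  set M : ℕ := ∑ x ∈ U, (x.re.natAbs + x.im.natAbs)
  set N : ℕ := 4 * M + 1
  have hN : (0 : ℝ) < N := by positivity
  have hMx : ∀ x ∈ U, x.re.natAbs + x.im.natAbs ≤ M := fun x hx =>
    Finset.single_le_sum (f := fun x : EisRing => x.re.natAbs + x.im.natAbs)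
      (fun _ _ => Nat.zero_le _) hx
  have horth : ∑ j ∈ range N, ∑ k ∈ range N, G ((j : ℝ) / N) ((k : ℝ) / N) *
      (starRingEnd ℂ) (G ((j : ℝ) / N) ((k : ℝ) / N)) =
      (((N : ℝ) ^ 2 * ∑ x ∈ U, d.termAt y x ^ 2 : ℝ) : ℂ) := by
    have hterm : ∀ (x x' : EisRing) (j k : ℕ),
        (d.termAt y x : ℂ) *
          expTurn ((x.im : ℝ) * ((j : ℝ) / N) + ((x.re : ℝ) - x.im) * ((k : ℝ) / N)) *
        ((d.termAt y x' : ℂ) * expTurn (-((x'.im : ℝ) * ((j : ℝ) / N) +
          ((x'.re : ℝ) - x'.im) * ((k : ℝ) / N)))) =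
        (d.termAt y x : ℂ) * (d.termAt y x' : ℂ) *
          (expTurn (((x.im - x'.im : ℤ) : ℝ) * j / N) *
            expTurn (((x.re - x.im - (x'.re - x'.im) : ℤ) : ℝ) * k / N)) := by
      intro x x' j k
      rw [mul_mul_mul_comm, ← expTurn_add, ← expTurn_add]
      congr 2
      push_cast
      ring
    simp only [G, map_sum, map_mul, Complex.conj_ofReal, conj_expTurn, Finset.sum_mul_sum, hterm]
    rw [Finset.sum_congr rfl fun j _ => Finset.sum_comm, Finset.sum_comm]
    push_cast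
    rw [Finset.mul_sum]
    refine Finset.sum_congr rfl fun x hx => ?_
    rw [Finset.sum_congr rfl fun j _ => Finset.sum_comm, Finset.sum_comm,
      Finset.sum_eq_single x]
    · simp only [← Finset.mul_sum, sub_self, zero_mul, zero_div, expTurn_zero,
        Finset.sum_const, Finset.card_range, nsmul_eq_mul, mul_one]
      ring
    · intro x' hx' hne
      have b1 := hMx x hx
      have b2 := hMx x' hx'
      simp only [← Finset.mul_sum, ← Finset.sum_mul]
      have o1 := sum_expTurn_div (N := N) (x.im - x'.im) (by rw [abs_lt]; omega)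
      have o2 := sum_expTurn_div (N := N) (x.re - x.im - (x'.re - x'.im)) (by rw [abs_lt]; omega)
      push_cast at o1 o2
      rw [o1, o2]
      have : x.im - x'.im ≠ 0 ∨ x.re - x.im - (x'.re - x'.im) ≠ 0 := by
        by_contra hh
        exact hne (QuadraticAlgebra.ext (by omega) (by omega))
      rcases this with h | h <;> simp [h]
    · exact fun h => absurd hx h
  have hre : ∑ j ∈ range N, ∑ k ∈ range N, ‖G ((j : ℝ) / N) ((k : ℝ) / N)‖ ^ 2 =
      (N : ℝ) ^ 2 * ∑ x ∈ U, d.termAt y x ^ 2 := by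
    apply Complex.ofReal_injective
    rw [← horth]
    push_cast
    exact Finset.sum_congr rfl fun j _ => Finset.sum_congr rfl fun k _ => (Complex.mul_conj' _).symm
  have hsum : (N : ℝ) ^ 2 * ∑ x ∈ U, d.termAt y x ^ 2 ≤ (N : ℝ) ^ 2 * (B + ε) ^ 2 := by
    rw [← hre]
    refine (Finset.sum_le_sum fun j _ => Finset.sum_le_sum fun k _ =>
      pow_le_pow_left₀ (_root_.norm_nonneg _) (hG _ _) 2).trans_eq ?_
    simp only [Finset.sum_const, Finset.card_range, nsmul_eq_mul]
    ring
  exact (Finset.sum_le_sum_of_subset_of_nonneg subset_union_right fun x _ _ => sq_nonneg _).trans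
    (le_of_mul_le_mul_left hsum (by positivity))

/-- The mean square bound. -/
theorem exists_sum_sq_le (hn : 0 < n₀) : ∃ K : ℝ, 0 < K ∧ ∀ (X : ℕ) (T : Finset EisRing),
    (∀ x ∈ T, (pair x).norm ≤ X) → ∑ x ∈ T, (d.cf x : ℝ) ^ 2 ≤ K * X := by
  obtain ⟨B, hB⟩ := d.exists_norm_le hn
  set κ := 4 * Real.pi / Real.sqrt 3
  have hκ : 0 < besselK0 κ := besselK0_pos (by positivity)
  refine ⟨(B ^ 2 + 1) / besselK0 κ ^ 2, by positivity, fun X T hT => ?_⟩
  rcases Nat.eq_zero_or_pos X with rfl | hX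
  · rw [Finset.sum_eq_zero fun x hx => ?_, Nat.cast_zero, mul_zero]
    have h := Nat.le_zero.mp (hT x hx)
    rw [norm_eq, Int.natAbs_eq_zero, norm_eq_zero] at h
    rw [h, d.cf_zero, Int.cast_zero, zero_pow two_ne_zero]
  have hXr : (0 : ℝ) < X := by exact_mod_cast hX
  set y := 1 / Real.sqrt X with hy
  have hy0 : 0 < y := by positivity
  have key : ∀ x ∈ T, (y * besselK0 κ) ^ 2 * (d.cf x : ℝ) ^ 2 ≤ d.termAt y x ^ 2 := by
    intro x hx
    rcases eq_or_ne x 0 with rfl | hx0
    · simp [termAt, d.cf_zero]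
    have hpos : 0 < ‖emb x‖ := norm_pos_iff.mpr ((map_ne_zero_iff emb emb_injective).mpr hx0)
    have hle : ‖emb x‖ * y ≤ 1 := by
      rw [hy, ← div_eq_mul_one_div, div_le_one (by positivity)]
      apply Real.le_sqrt_of_sq_le
      rw [← Complex.normSq_eq_norm_sq, normSq_emb, ← natCast_norm]
      exact_mod_cast hT x hx
    have harg : 4 * Real.pi * ‖emb x‖ * y / Real.sqrt 3 ≤ κ := by
      rw [show 4 * Real.pi * ‖emb x‖ * y / Real.sqrt 3 = κ * (‖emb x‖ * y) by simp only [κ]; ring]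
      exact mul_le_of_le_one_right (by positivity) hle
    have hK : y * besselK0 κ ≤ y * besselK0 (4 * Real.pi * ‖emb x‖ * y / Real.sqrt 3) :=
      mul_le_mul_of_nonneg_left (besselK0_antitoneOn (Set.mem_Ioi.mpr (by positivity))
        (Set.mem_Ioi.mpr (by positivity)) harg) hy0.le
    rw [termAt, mul_pow (d.cf x : ℝ), mul_comm]
    exact mul_le_mul_of_nonneg_left (pow_le_pow_left₀ (by positivity) hK 2) (sq_nonneg _)
  have h := (Finset.sum_le_sum key).trans (d.sum_termAt_sq_le hB hy0 T)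
  rw [← Finset.mul_sum, mul_pow, hy, div_pow, one_pow, Real.sq_sqrt hXr.le] at h
  rw [div_mul_eq_mul_div, le_div_iff₀ (by positivity)]
  rw [show (1 : ℝ) / X * besselK0 κ ^ 2 * ∑ x ∈ T, (d.cf x : ℝ) ^ 2 =
    ((∑ x ∈ T, (d.cf x : ℝ) ^ 2) * besselK0 κ ^ 2) / X by ring, div_le_iff₀ hXr] at h
  nlinarith

/-- The mean square bound as a Dirichlet series. -/
theorem exists_sum_sq_rpow_le (hn : 0 < n₀) : ∃ K : ℝ, 0 < K ∧ ∀ s : ℝ, 1 < s → s ≤ 2 →
    ∀ T : Finset EisRing,
      ∑ x ∈ T, (d.cf x : ℝ) ^ 2 * ((pair x).norm : ℝ) ^ (-s) ≤ K / (s - 1) := by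
  classical
  obtain ⟨K, hK, h⟩ := d.exists_sum_sq_le hn
  refine ⟨4 * K, by positivity, fun s hs hs2 T => ?_⟩
  set r : ℝ := (2 : ℝ) ^ (1 - s) with hr
  have hr0 : 0 < r := by positivity
  have hr1 : r ≤ 1 - (s - 1) / 2 := by
    rw [hr, show (1 - s) = -(s - 1) by ring, Real.rpow_neg (by norm_num),
      ← Real.inv_rpow (by norm_num)]
    have := rpow_one_add_le_one_add_mul_self (s := -(1 / 2)) (by norm_num) (p := s - 1)
      (by linarith) (by linarith)
    norm_num at this ⊢
    linarith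
  rw [← Finset.sum_fiberwise_of_maps_to (t := T.image fun x => Nat.log 2 (pair x).norm)
    (g := fun x => Nat.log 2 (pair x).norm) (fun x hx => Finset.mem_image_of_mem _ hx)]
  calc _ ≤ ∑ k ∈ T.image fun x => Nat.log 2 (pair x).norm, 2 * K * r ^ k := ?_
    _ ≤ ∑' k : ℕ, 2 * K * r ^ k :=
        ((summable_geometric_of_lt_one hr0.le (by linarith)).mul_left _).sum_le_tsum _
          fun k _ => by positivity
    _ ≤ _ := ?_
  · refine Finset.sum_le_sum fun k _ => ?_
    set U := T.filter fun x => Nat.log 2 (pair x).norm = k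
    have hU : ∀ x ∈ U, (pair x).norm ≤ 2 ^ (k + 1) := fun x hx => by
      rw [← (Finset.mem_filter.mp hx).2]
      exact (Nat.lt_pow_succ_log_self (by norm_num) _).le
    calc ∑ x ∈ U, (d.cf x : ℝ) ^ 2 * ((pair x).norm : ℝ) ^ (-s)
        ≤ ∑ x ∈ U, (d.cf x : ℝ) ^ 2 * ((2 : ℝ) ^ k) ^ (-s) := by
          refine Finset.sum_le_sum fun x hx => ?_
          rcases eq_or_ne x 0 with rfl | hx0
          · simp [d.cf_zero]
          refine mul_le_mul_of_nonneg_left ?_ (sq_nonneg _)
          refine Real.rpow_le_rpow_of_nonpos (by positivity) ?_ (by linarith)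
          rw [← (Finset.mem_filter.mp hx).2]
          exact_mod_cast Nat.pow_log_le_self 2 (by
            rw [norm_eq, Int.natAbs_ne_zero]; exact fun e => hx0 (norm_eq_zero.mp e))
      _ ≤ K * (2 ^ (k + 1) : ℕ) * ((2 : ℝ) ^ k) ^ (-s) := by
          rw [← Finset.sum_mul]
          exact mul_le_mul_of_nonneg_right (h _ U hU) (by positivity)
      _ = 2 * K * r ^ k := by
          rw [hr, ← Real.rpow_natCast 2 k, ← Real.rpow_mul two_pos.le, ← Real.rpow_natCast _ k,
            ← Real.rpow_mul two_pos.le, show ((1 - s) * (k : ℝ)) = k + k * (-s) by ring,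
            Real.rpow_add two_pos, Real.rpow_natCast 2 k]
          push_cast
          ring
  · rw [tsum_mul_left, tsum_geometric_of_lt_one hr0.le (by linarith),
      ← div_eq_mul_inv, div_le_div_iff₀ (by linarith) (by linarith)]
    nlinarith

end BianchiDatum

end Fermat.Agent.ResidualThree
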