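import Mathlib
import Fermat.Agent.Hecke.PeterssonMeasure

/-!
# The standard fundamental domain of `SL₂(ℤ)` as a two-fold tiling

Used to unfold integrals over the fundamental domain.
-/

noncomputable section

open MeasureTheory Set Filter
open scoped MatrixGroups ENNReal ModularGroup

namespace Fermat.Agent.ResidualThree

open UpperHalfPlane

open Hecke.Pet (measurePreserving_sl measurableSet_fd)

/-- Unfolding for nonnegative functions. -/
theorem lintegral_fd_tsum {f : ℍ → ℝ≥0∞} (hf : Measurable f) :
    ∑' g : SL(2, ℤ), ∫⁻ τ in (ModularGroup.fd : Set ℍ), f (g • τ) = 2 * ∫⁻ z, f z := by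
  rw [Hecke.Pet.two_mul_lintegral hf]
  exact (lintegral_tsum fun g => (hf.comp (Hecke.Pet.measurable_sl g)).aemeasurable).symm

/-- Unfolding for integrable functions. -/
theorem integral_fd_tsum {f : ℍ → ℂ} (hfm : Measurable f)
    (hfin : ∑' g : SL(2, ℤ), ∫⁻ τ in (ModularGroup.fd : Set ℍ), ‖f (g • τ)‖ₑ ≠ ∞) :
    Integrable f ∧
      ∫ τ in (ModularGroup.fd : Set ℍ), ∑' g : SL(2, ℤ), f (g • τ) = 2 * ∫ z, f z := by
  classical
  have hmeas : ∀ g : SL(2, ℤ), Measurable fun τ : ℍ => f (g • τ) := fun g =>
    hfm.comp (measurePreserving_sl g).measurable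
  have htwo := lintegral_fd_tsum hfm.enorm
  have hint : Integrable f := by
    refine ⟨hfm.aestronglyMeasurable, ?_⟩
    rw [hasFiniteIntegral_iff_enorm, lt_top_iff_ne_top]
    intro h
    rw [htwo, h, ENNReal.mul_top two_ne_zero] at hfin
    exact hfin rfl
  refine ⟨hint, ?_⟩
  set φ : SL(2, ℤ) → ℍ → ℂ := fun g z =>
      (ModularGroup.fd : Set ℍ).indicator (fun _ => f z) (g⁻¹ • z)
  have hset : ∀ g : SL(2, ℤ), MeasurableSet {z : ℍ | g⁻¹ • z ∈ (ModularGroup.fd : Set ℍ)} :=
    fun g => (measurePreserving_sl g⁻¹).measurable measurableSet_fd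
  have hφeq : ∀ g, φ g = {z : ℍ | g⁻¹ • z ∈ (ModularGroup.fd : Set ℍ)}.indicator f := fun g => by
    funext z
    simp only [φ]
    by_cases h : g⁻¹ • z ∈ (ModularGroup.fd : Set ℍ)
    · rw [Set.indicator_of_mem h]; exact (Set.indicator_of_mem (by exact h) f).symm
    · rw [Set.indicator_of_notMem h]; exact (Set.indicator_of_notMem (by exact h) f).symm
  have hφm : ∀ g, Measurable (φ g) := fun g => by rw [hφeq]; exact hfm.indicator (hset g)
  have hemb : ∀ g : SL(2, ℤ), MeasurableEmbedding fun z : ℍ => g • z := fun g => by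
    exact ((Homeomorph.smul (g : GL (Fin 2) ℝ)).toMeasurableEquiv).measurableEmbedding
  have hpre : ∀ g τ, φ g (g • τ) = (ModularGroup.fd : Set ℍ).indicator (fun τ => f (g • τ)) τ := by
    intro g τ
    simp only [φ, inv_smul_smul]
    by_cases h : τ ∈ (ModularGroup.fd : Set ℍ) <;> simp [h]
  have hφn : ∀ g, ∫⁻ z, ‖φ g z‖ₑ = ∫⁻ τ in (ModularGroup.fd : Set ℍ), ‖f (g • τ)‖ₑ := by
    intro g
    rw [← lintegral_indicator measurableSet_fd,
      ← (measurePreserving_sl g).lintegral_comp (hφm g).enorm]
    refine lintegral_congr fun τ => ?_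
    rw [hpre, enorm_indicator_eq_indicator_enorm]
  have hI : ∀ g, ∫ z, φ g z = ∫ τ in (ModularGroup.fd : Set ℍ), f (g • τ) := by
    intro g
    rw [← (measurePreserving_sl g).integral_comp (hemb g) (φ g),
      ← integral_indicator measurableSet_fd]
    exact integral_congr_ae (Eventually.of_forall fun τ => hpre g τ)
  calc ∫ τ in (ModularGroup.fd : Set ℍ), ∑' g : SL(2, ℤ), f (g • τ)
      = ∑' g : SL(2, ℤ), ∫ τ in (ModularGroup.fd : Set ℍ), f (g • τ) :=
        integral_tsum (fun g => (hmeas g).aestronglyMeasurable) hfin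
    _ = ∑' g : SL(2, ℤ), ∫ z, φ g z := by simp only [hI]
    _ = ∫ z, ∑' g : SL(2, ℤ), φ g z :=
        (integral_tsum (fun g => (hφm g).aestronglyMeasurable)
          (by simp only [hφn]; exact hfin)).symm
    _ = ∫ z, 2 * f z := by
        refine integral_congr_ae ?_
        filter_upwards [Hecke.Pet.fdCount_ae] with z hz
        have h2 : ∀ g, φ g z =
            (((ModularGroup.fd : Set ℍ).indicator (fun _ => (1 : ℝ≥0∞)) (g⁻¹ • z)).toReal : ℂ) *
                f z := by
          intro g
          simp only [φ]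
          by_cases h : g⁻¹ • z ∈ (ModularGroup.fd : Set ℍ)
          · rw [Set.indicator_of_mem h, Set.indicator_of_mem h]; simp
          · rw [Set.indicator_of_notMem h, Set.indicator_of_notMem h]; simp
        simp only [h2, tsum_mul_right, ← Complex.ofReal_tsum]
        have e := (Equiv.inv SL(2, ℤ)).tsum_eq
          (fun g => (ModularGroup.fd : Set ℍ).indicator (fun _ => (1 : ℝ≥0∞)) (g • z))
        simp only [Equiv.inv_apply] at e
        rw [← ENNReal.tsum_toReal_eq (fun g => by
          by_cases h : g⁻¹ • z ∈ (ModularGroup.fd : Set ℍ)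
          · rw [Set.indicator_of_mem h]; exact ENNReal.one_ne_top
          · rw [Set.indicator_of_notMem h]; exact ENNReal.zero_ne_top), e.trans hz]
        norm_num
    _ = 2 * ∫ z, f z := integral_const_mul _ _

/-- The integral over the upper half-plane in coordinates. -/
theorem integral_upperHalfPlane {E : Type*} [NormedAddCommGroup E] [NormedSpace ℝ E] (f : ℍ → E) :
    ∫ z, f z = ∫ w in {w : ℂ | 0 < w.im}, (w.im ^ 2)⁻¹ • f (ofComplex w) := by
  rw [volume_def, integral_withDensity_eq_integral_smul (by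
    refine Measurable.pow_const (Measurable.div measurable_const ?_) 2
    exact continuous_im.measurable.subtype_mk)]
  have hmp : MeasurePreserving UpperHalfPlane.coe ((volume : Measure ℂ).comap UpperHalfPlane.coe)
      (volume.restrict (Set.range UpperHalfPlane.coe)) :=
    ⟨measurable_coe, by rw [measurableEmbedding_coe.map_comap]⟩
  have hrange : Set.range UpperHalfPlane.coe = {w : ℂ | 0 < w.im} := UpperHalfPlane.range_coe
  rw [← hrange, ← hmp.integral_comp measurableEmbedding_coe]
  refine integral_congr_ae (Eventually.of_forall fun z => ?_)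
  simp only [ofComplex_apply]
  rw [NNReal.smul_def]
  congr 1
  simp

end Fermat.Agent.ResidualThree
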