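import Fermat.Agent.ResidualThree.Asai.Bounded
import Fermat.Agent.ResidualThree.Asai.Tiling

/-!
# The period of a Bianchi datum along the upper half-plane

The period is the input of the unfolding; its non-vanishing gives the descent to `ℚ`.
-/

noncomputable section

open MeasureTheory Set Filter Matrix
open scoped MatrixGroups ModularGroup

namespace Fermat.Agent.ResidualThree

open UpperHalfPlane CongruenceSubgroup

local notation "Γℚ" => (AlgebraicClosure ℚ ≃ₐ[ℚ] AlgebraicClosure ℚ)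

/-- The embedding of the upper half-plane into hyperbolic three-space. -/
def toH3 (t : ℍ) : H3 := ⟨(t.re : ℂ), t.im, t.im_pos⟩

/-- The period over the modular curve of level `n₀`: the sum over the cosets of `Γ₀(n₀)` of the
integrals over the translated standard fundamental domain. -/
def period (F : H3 → ℂ) (n₀ : ℕ) : ℂ :=
  ∑ᶠ q : SL(2, ℤ) ⧸ Gamma0 n₀, ∫ t in (ModularGroup.fd : Set ℍ), F (toH3 (q.out⁻¹ • t))

theorem continuous_toH3 : Continuous toH3 :=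
  H3.continuous_iff.mpr
    ⟨Complex.continuous_ofReal.comp UpperHalfPlane.continuous_re, UpperHalfPlane.continuous_im⟩

/-- `SL₂(ℤ)` inside `GL₂(ℂ)`. -/
def slToGLC (g : SL(2, ℤ)) : GL (Fin 2) ℂ :=
  GeneralLinearGroup.mk'' !![(g 0 0 : ℂ), (g 0 1 : ℂ); (g 1 0 : ℂ), (g 1 1 : ℂ)] (by
    have h := g.det_coe
    rw [det_fin_two] at h
    rw [det_fin_two_of]
    have h' : (g 0 0 : ℂ) * (g 1 1 : ℂ) - (g 0 1 : ℂ) * (g 1 0 : ℂ) = 1 := by exact_mod_cast h
    rw [h']; exact isUnit_one)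

theorem slToGLC_coe (g : SL(2, ℤ)) : ((slToGLC g : GL (Fin 2) ℂ) : Matrix (Fin 2) (Fin 2) ℂ) =
    !![(g 0 0 : ℂ), (g 0 1 : ℂ); (g 1 0 : ℂ), (g 1 1 : ℂ)] := rfl

/-- The upper half-plane sits in hyperbolic space compatibly with `SL₂(ℤ)`. -/
theorem toH3_smul (g : SL(2, ℤ)) (t : ℍ) : toH3 (g • t) = slToGLC g • toH3 t := by
  have hd : (g 0 0 : ℂ) * (g 1 1 : ℂ) - (g 0 1 : ℂ) * (g 1 0 : ℂ) = 1 := by
    have h := g.det_coe
    rw [det_fin_two] at h
    exact_mod_cast h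
  have hdR : (g 0 0 : ℝ) * (g 1 1 : ℝ) - (g 0 1 : ℝ) * (g 1 0 : ℝ) = 1 := by exact_mod_cast hd
  have hN : Complex.normSq ((g 1 0 : ℂ) * (t : ℂ) + (g 1 1 : ℂ)) =
      ((g 1 0 : ℝ) * t.re + (g 1 1 : ℝ)) ^ 2 + (g 1 0 : ℝ) ^ 2 * t.im ^ 2 := by
    simp [Complex.normSq_apply]; ring
  have hden : H3.denom (slToGLC g) (toH3 t) =
      ((g 1 0 : ℝ) * t.re + (g 1 1 : ℝ)) ^ 2 + (g 1 0 : ℝ) ^ 2 * t.im ^ 2 := by
    simp [H3.denom, slToGLC_coe, toH3, Complex.normSq_apply]; ring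
  have hpos : 0 < Complex.normSq ((g 1 0 : ℂ) * (t : ℂ) + (g 1 1 : ℂ)) := by
    rw [hN, ← hden]; exact H3.denom_pos _ _
  refine H3.ext ?_ ?_
  · rw [H3.smul_z, hden]
    simp only [toH3, slToGLC_coe, Matrix.of_apply, Matrix.cons_val', Matrix.cons_val_zero,
      Matrix.cons_val_one, Matrix.empty_val', Matrix.cons_val_fin_one]
    have hre :
        (g • t).re = (((g 0 0 : ℝ) * t.re + (g 0 1 : ℝ)) * ((g 1 0 : ℝ) * t.re + (g 1 1 : ℝ)) +
        (g 0 0 : ℝ) * (g 1 0 : ℝ) * t.im ^ 2) /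
        (((g 1 0 : ℝ) * t.re + (g 1 1 : ℝ)) ^ 2 + (g 1 0 : ℝ) ^ 2 * t.im ^ 2) := by
      rw [← UpperHalfPlane.coe_re, UpperHalfPlane.coe_specialLinearGroup_apply, Complex.div_re,
        ← hN]
      simp
      ring
    rw [hre]
    simp only [map_add, map_mul, Complex.conj_ofReal, map_intCast]
    push_cast
    ring
  · rw [H3.smul_y, hden]
    simp only [toH3, slToGLC_coe, det_fin_two_of, hd, norm_one, one_mul]
    rw [ModularGroup.im_smul_eq_div_normSq, ModularGroup.denom_apply, hN]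

theorem isBianchiGamma0_slToGLC {n : ℕ} {g : SL(2, ℤ)} (hg : g ∈ Gamma0 n) :
    IsBianchiGamma0 n (slToGLC g) := by
  refine ⟨fun i j => (g i j, 0), fun i j => ?_, ?_, ?_⟩
  · fin_cases i <;> fin_cases j <;> simp [slToGLC_coe, Eis3.toC]
  · rw [slToGLC_coe, det_fin_two_of]
    have h := g.det_coe
    rw [det_fin_two] at h
    have h' : (g 0 0 : ℂ) * (g 1 1 : ℂ) - (g 0 1 : ℂ) * (g 1 0 : ℂ) = 1 := by exact_mod_cast h
    rw [h', norm_one]
  · obtain ⟨z, hz⟩ := (ZMod.intCast_zmod_eq_zero_iff_dvd _ _).mp (Gamma0_mem.mp hg)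
    exact ⟨(z, 0), by simp [Eis3.mul, hz]⟩

theorem isKElement_slToGLC (g : SL(2, ℤ)) (i j : Fin 2) :
    IsKElement ((slToGLC g : Matrix (Fin 2) (Fin 2) ℂ) i j) := by
  refine ⟨(g i j, 0), 1, one_pos, ?_⟩
  fin_cases i <;> fin_cases j <;> simp [slToGLC_coe, Eis3.toC]

namespace BianchiDatum

variable {ρ : Γℚ →* GL (Fin 2) (ZMod 3)} {n₀ : ℕ} (d : BianchiDatum ρ n₀)

/-- The datum restricted to the upper half-plane. -/
def onPlane (z : ℍ) : ℂ := d.F (toH3 z)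

theorem continuous_onPlane : Continuous d.onPlane := d.continuous.comp continuous_toH3

theorem onPlane_smul : ∀ γ ∈ Gamma0 n₀, ∀ z : ℍ, d.onPlane (γ • z) = d.onPlane z := fun γ hγ z => by
  rw [onPlane, toH3_smul]; exact d.invariant _ (isBianchiGamma0_slToGLC hγ) _

/-- The datum decays in every translate along the upper half-plane. -/
theorem exists_weighted_bound (hn : 0 < n₀) (g : SL(2, ℤ)) :
    ∃ C : ℝ, ∀ t : ℍ, ‖d.onPlane (g • t)‖ * (1 + t.im ^ 2) ≤ C := by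
  obtain ⟨B, hB⟩ := d.exists_norm_le hn
  obtain ⟨C, hC⟩ := d.decay (slToGLC g) (isKElement_slToGLC g) 2
  refine ⟨2 * |B| + 2 * |C|, fun t => ?_⟩
  have hy := t.im_pos
  rcases le_total 1 t.im with h | h
  · have h1 : ‖d.onPlane (g • t)‖ ≤ C / t.im ^ 2 := by
      rw [onPlane, toH3_smul]; exact hC _ h
    have h2 : ‖d.onPlane (g • t)‖ * t.im ^ 2 ≤ C := (le_div_iff₀ (by positivity)).mp h1
    nlinarith [_root_.norm_nonneg (d.onPlane (g • t)), abs_nonneg B, le_abs_self C,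
      mul_le_mul_of_nonneg_left (one_le_pow₀ h (n := 2)) (_root_.norm_nonneg (d.onPlane (g • t)))]
  · have h1 : ‖d.onPlane (g • t)‖ ≤ |B| := (hB _).trans (le_abs_self B)
    nlinarith [_root_.norm_nonneg (d.onPlane (g • t)), abs_nonneg C, abs_nonneg B,
      mul_le_mul_of_nonneg_left (pow_le_one₀ hy.le h (n := 2))
        (_root_.norm_nonneg (d.onPlane (g • t)))]

end BianchiDatum

end Fermat.Agent.ResidualThree
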